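import Fermat.Agent.Periods.Injective
import Fermat.Prelude.Def_CuspForm_HeckeAlgebra

/-!
Hecke correspondences act on periods through the representatives of the double coset.
-/

set_option autoImplicit false

noncomputable section

open UpperHalfPlane CongruenceSubgroup ModularCurve ModularCurve.Period Matrix.SpecialLinearGroup
open scoped MatrixGroups ModularForm

namespace FLTAgent.Periods

variable {N : ℕ} [NeZero N]

/-- The matrix of complex conjugation. -/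
def jMat : GL (Fin 2) ℝ :=
  Matrix.GeneralLinearGroup.mkOfDetNeZero !![-1, 0; 0, 1] (by simp [Matrix.det_fin_two])

theorem jMat_mul_self : jMat * jMat = 1 := by
  apply Matrix.GeneralLinearGroup.ext
  intro i j
  fin_cases i <;> fin_cases j <;> simp [jMat, Matrix.mul_apply, Fin.sum_univ_two]

theorem jMat_conj_apply (g : GL (Fin 2) ℝ) :
    (jMat * g * jMat).val = !![g 0 0, -g 0 1; -g 1 0, g 1 1] := by
  ext i j
  fin_cases i <;> fin_cases j <;>
    simp [jMat, Matrix.mul_apply, Matrix.vecMul, dotProduct, Fin.sum_univ_two]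

theorem mapGL_jConjSL (γ : SL(2, ℤ)) :
    mapGL ℝ (jConjSL γ) = jMat * mapGL ℝ γ * jMat := by
  apply Matrix.GeneralLinearGroup.ext
  intro i j
  rw [jMat_conj_apply]
  fin_cases i <;> fin_cases j <;> simp

theorem jMat_conj_heckeMatrix {q : ℕ} (hq : q ≠ 0) (a b : ℕ) (m : ℤ) (h : -(a : ℤ) = b + m * q) :
    jMat * ModularForm.heckeMatrix q a * jMat
      = mapGL ℝ (ModularGroup.T ^ m) * ModularForm.heckeMatrix q b := by
  have h' := congrArg (Int.cast : ℤ → ℝ) h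
  push_cast at h'
  apply Matrix.GeneralLinearGroup.ext
  intro i j
  rw [jMat_conj_apply, Units.val_mul, mapGL_coe_matrix, ModularForm.val_heckeMatrix hq,
    ModularForm.val_heckeMatrix hq]
  simp only [map_apply_coe, RingHom.mapMatrix_apply, ModularGroup.coe_T_zpow]
  fin_cases i <;> fin_cases j <;> simp [Matrix.mul_apply, Fin.sum_univ_two]
  linear_combination h'

theorem jMat_conj_heckeDiag {q : ℕ} (hq : q ≠ 0) :
    jMat * ModularForm.heckeDiagMatrix q * jMat = ModularForm.heckeDiagMatrix q := by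
  apply Matrix.GeneralLinearGroup.ext
  intro i j
  rw [jMat_conj_apply]
  fin_cases i <;> fin_cases j <;> simp [hq]

/-- Representatives of a double coset of `Γ₀(N)` stable under complex conjugation. -/
structure CosetReps (N : ℕ) (ι : Type) [Fintype ι] where
  rep : ι → GL (Fin 2) ℝ
  det_pos : ∀ i, 0 < (rep i).val.det
  move : ∀ γ ∈ Gamma0 N, ∃ (σ : ι ≃ ι) (g : ι → Gamma0 N),
    ∀ i, rep i * mapGL ℝ γ = mapGL ℝ ((g i : Gamma0 N) : SL(2, ℤ)) * rep (σ i)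
  conj : ∃ (τ : ι ≃ ι) (u : ι → Gamma0 N),
    ∀ i, jMat * rep i * jMat = mapGL ℝ ((u i : Gamma0 N) : SL(2, ℤ)) * rep (τ i)

theorem hasDerivAt_comp_GL_smul {G D : ℍ → ℂ} (hG : ∀ τ : ℍ, HasDerivAt (G ∘ ofComplex) (D τ) τ)
    {g : GL (Fin 2) ℝ} (hdet : 0 < g.val.det) (τ : ℍ) :
    HasDerivAt ((fun w : ℍ => G (g • w)) ∘ ofComplex) ((D ∣[(2 : ℤ)] g) τ) τ := by
  have h1 := (hasStrictDerivAt_smul hdet τ).hasDerivAt
  have h2 : HasDerivAt (G ∘ ofComplex) (D (g • τ)) ((fun z ↦ ↑(g • ofComplex z) : ℂ → ℂ) τ) := by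
    simpa [ofComplex_apply] using! hG (g • τ)
  have h3 := h2.comp (τ : ℂ) h1
  refine HasDerivAt.congr_of_eventuallyEq ?_ (f := (G ∘ ofComplex) ∘
    (fun z ↦ ↑(g • ofComplex z) : ℂ → ℂ)) ?_
  · convert! h3 using 1
    have hpos : (0 : ℝ) < (Matrix.GeneralLinearGroup.det g : ℝ) := by simpa using hdet
    rw [ModularForm.slash_apply, UpperHalfPlane.σ, if_pos hpos]
    simp [zpow_neg, abs_of_pos hdet, div_eq_mul_inv]
    ring
  · exact Filter.Eventually.of_forall fun z => by simp [Function.comp, ofComplex_apply]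

namespace CosetReps

variable {ι : Type} [Fintype ι] (C : CosetReps N ι) {f f' : CuspForm (Gamma0 N) 2}

theorem periodMap_apply_eq (hf : (⇑f' : ℍ → ℂ) = ∑ i, (⇑f) ∣[(2 : ℤ)] C.rep i) (γ : Gamma0 N)
    {σ : ι ≃ ι} {g : ι → Gamma0 N}
    (hg : ∀ i, C.rep i * mapGL ℝ ((γ : Gamma0 N) : SL(2, ℤ))
      = mapGL ℝ ((g i : Gamma0 N) : SL(2, ℤ)) * C.rep (σ i)) :
    periodMap N f' (Additive.ofMul γ) = ∑ i, periodMap N f (Additive.ofMul (g i)) := by
  obtain ⟨F, -, hF⟩ := exists_primitive f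
  obtain ⟨F', -, hF'⟩ := exists_primitive f'
  set G : ℍ → ℂ := fun z => ∑ i, F (C.rep i • z) with hGdef
  have hG : ∀ τ : ℍ, HasDerivAt (G ∘ ofComplex) (f' τ) τ := fun τ => by
    rw [hf, Finset.sum_apply]
    exact HasDerivAt.fun_sum fun i _ => hasDerivAt_comp_GL_smul hF.1 (C.det_pos i) τ
  obtain ⟨c, hc⟩ := eq_add_const_of_hasDerivAt hF'.1 hG
  rw [periodMap_eq f' hF', periodMap_eq f hF]
  simp only [IsEquivariantPrimitive.periodHom_apply]
  rw [IsEquivariantPrimitive.period, hc, hc]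
  have h : ∀ i, F (C.rep i • (γ : SL(2, ℤ)) • UpperHalfPlane.I)
      = hF.2.2.1.period (g i) + F (C.rep (σ i) • UpperHalfPlane.I) := fun i => by
    rw [← hF.2.2.1.sub_eq_period (g i) (C.rep (σ i) • UpperHalfPlane.I), sub_add_cancel]
    show F (C.rep i • mapGL ℝ (γ : SL(2, ℤ)) • UpperHalfPlane.I)
      = F (mapGL ℝ (g i : SL(2, ℤ)) • C.rep (σ i) • UpperHalfPlane.I)
    rw [← mul_smul, hg i, mul_smul]
  simp only [hGdef, h, Finset.sum_add_distrib,
    Equiv.sum_comp σ (fun i => F (C.rep i • UpperHalfPlane.I))]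
  ring

theorem periodMap_apply_jConj (hf : (⇑f' : ℍ → ℂ) = ∑ i, (⇑f) ∣[(2 : ℤ)] C.rep i) (γ : Gamma0 N)
    {σ : ι ≃ ι} {g : ι → Gamma0 N}
    (hg : ∀ i, C.rep i * mapGL ℝ ((γ : Gamma0 N) : SL(2, ℤ))
      = mapGL ℝ ((g i : Gamma0 N) : SL(2, ℤ)) * C.rep (σ i)) :
    periodMap N f' (Additive.ofMul (jConjGamma0 N γ))
      = ∑ i, periodMap N f (Additive.ofMul (jConjGamma0 N (g i))) := by
  obtain ⟨τ, u, hu⟩ := C.conj
  set g' : ι → Gamma0 N := fun k =>
    (u (τ.symm k))⁻¹ * jConjGamma0 N (g (τ.symm k)) * u (σ (τ.symm k)) with hg'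
  have hrel : ∀ k, C.rep k * mapGL ℝ ((jConjGamma0 N γ : Gamma0 N) : SL(2, ℤ))
      = mapGL ℝ ((g' k : Gamma0 N) : SL(2, ℤ)) * C.rep ((τ.symm.trans (σ.trans τ)) k) := by
    intro k
    obtain ⟨i, rfl⟩ := τ.surjective k
    simp only [hg', Equiv.symm_apply_apply, Equiv.trans_apply, jConjGamma0_coe,
      Subgroup.coe_mul, Subgroup.coe_inv, map_mul, map_inv, mapGL_jConjSL]
    have e1 : C.rep (τ i)
        = (mapGL ℝ ((u i : Gamma0 N) : SL(2, ℤ)))⁻¹ * (jMat * C.rep i * jMat) := by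
      rw [hu i, inv_mul_cancel_left]
    have e2 : jMat * C.rep (σ i) * jMat
        = mapGL ℝ ((u (σ i) : Gamma0 N) : SL(2, ℤ)) * C.rep (τ (σ i)) := hu (σ i)
    rw [e1]
    simp only [mul_assoc, ← e2, mul_left_cancel_iff]
    rw [← mul_assoc jMat jMat, jMat_mul_self, one_mul, ← mul_assoc (C.rep i), hg i,
      mul_assoc (mapGL ℝ ((g i : Gamma0 N) : SL(2, ℤ))), ← mul_assoc jMat jMat, jMat_mul_self,
      one_mul]
  rw [C.periodMap_apply_eq hf _ hrel]
  simp only [hg', ofMul_mul, ofMul_inv, map_add, map_neg, Finset.sum_add_distrib,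
    Finset.sum_neg_distrib]
  rw [Equiv.sum_comp τ.symm (fun i => periodMap N f (Additive.ofMul (u i))),
    Equiv.sum_comp τ.symm (fun i => periodMap N f (Additive.ofMul (jConjGamma0 N (g i)))),
    Equiv.sum_comp τ.symm (fun i => periodMap N f (Additive.ofMul (u (σ i)))),
    Equiv.sum_comp σ (fun i => periodMap N f (Additive.ofMul (u i)))]
  abel

theorem periodHomPair_apply {p q : CuspForm (Gamma0 N) 2 × CuspForm (Gamma0 N) 2}
    (h1 : (⇑q.1 : ℍ → ℂ) = ∑ i, (⇑p.1) ∣[(2 : ℤ)] C.rep i)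
    (h2 : (⇑q.2 : ℍ → ℂ) = ∑ i, (⇑p.2) ∣[(2 : ℤ)] C.rep i) (γ : Gamma0 N)
    {σ : ι ≃ ι} {g : ι → Gamma0 N}
    (hg : ∀ i, C.rep i * mapGL ℝ ((γ : Gamma0 N) : SL(2, ℤ))
      = mapGL ℝ ((g i : Gamma0 N) : SL(2, ℤ)) * C.rep (σ i)) :
    periodHomPair N q (Additive.ofMul γ) = ∑ i, periodHomPair N p (Additive.ofMul (g i)) := by
  obtain ⟨pml, hpml, e⟩ := periodHomPair_def N (existsPeriodMapLinear (N := N))
  simp only [e, LinearMap.coprod_apply, LinearMap.comp_apply, LinearMap.add_apply,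
    LinearMap.sub_apply, LinearMap.id_apply, hpml, AddMonoidHom.add_apply, AddMonoidHom.sub_apply,
    charInvolution_apply, toMul_ofMul, C.periodMap_apply_eq h1 γ hg, C.periodMap_apply_eq h2 γ hg,
    C.periodMap_apply_jConj h1 γ hg, C.periodMap_apply_jConj h2 γ hg, Finset.sum_add_distrib,
    Finset.sum_sub_distrib]

end CosetReps

section Instances

open P2MW.S_ModularForm_heckeU_slash_eq_self_of_mem_Gamma0.ModularForm.HeckeSlashInvariance in
/-- Representatives for `U_q`, `q ∣ N`. -/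
def repsU (q : ℕ) [NeZero q] (hqN : q ∣ N) : CosetReps N (ZMod q) where
  rep x := ModularForm.heckeMatrix q x.val
  det_pos x := by
    have := ModularForm.det_heckeMatrix_pos q x.val
    simpa using this
  move γ hγ := by
    have hcN : (N : ℤ) ∣ γ 1 0 :=
      (ZMod.intCast_zmod_eq_zero_iff_dvd _ _).mp (Gamma0_mem.mp hγ)
    choose g' hg' hmul using heckeMatrix_mul_of_dvd γ ((Int.natCast_dvd_natCast.mpr hqN).trans hcN)
    refine ⟨_, fun x => ⟨g' x, Gamma0_mem.mpr ?_⟩, hmul⟩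
    rw [hg' x]
    push_cast
    rw [Gamma0_mem.mp hγ, mul_zero]
  conj := by
    have h : ∀ x : ZMod q, ∃ m : ℤ, -(x.val : ℤ) = ((-x).val : ℤ) + m * q := fun x => by
      have : (q : ℤ) ∣ -(x.val : ℤ) - ((-x).val : ℤ) := by
        rw [← ZMod.intCast_zmod_eq_zero_iff_dvd]
        simp
      obtain ⟨m, hm⟩ := this
      exact ⟨m, by linarith⟩
    choose m hm using h
    refine ⟨Equiv.neg _, fun x => ⟨ModularGroup.T ^ m x, Gamma0_mem.mpr ?_⟩, fun x => ?_⟩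
    · rw [ModularGroup.coe_T_zpow]; simp
    · exact jMat_conj_heckeMatrix (NeZero.ne q) _ _ _ (hm x)

open P2MW.S_ModularForm_heckeT_slash_eq_self_of_mem_Gamma0.ModularForm.HeckeSlashInvariance in
/-- Representatives for `T_ℓ`, `ℓ ∤ N`. -/
def repsT (ℓ : ℕ) [Fact ℓ.Prime] (hℓN : ¬ ℓ ∣ N) : CosetReps N (OnePoint (ZMod ℓ)) where
  rep := heckeRep ℓ
  det_pos x := by
    haveI : NeZero ℓ := ⟨(Fact.out : ℓ.Prime).ne_zero⟩
    induction x using OnePoint.rec with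
    | infty => simpa [heckeRep] using ModularForm.det_heckeDiagMatrix_pos ℓ
    | coe x => simpa [heckeRep] using ModularForm.det_heckeMatrix_pos ℓ x.val
  move γ hγ := by
    have hcN : (N : ℤ) ∣ γ 1 0 :=
      (ZMod.intCast_zmod_eq_zero_iff_dvd _ _).mp (Gamma0_mem.mp hγ)
    choose g' hg' hmul using heckeRep_mul hℓN γ hcN
    exact ⟨MulAction.toPerm (redMatrix ℓ γ),
      fun x => ⟨g' x, Gamma0_mem.mpr ((ZMod.intCast_zmod_eq_zero_iff_dvd _ _).mpr (hg' x))⟩, hmul⟩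
  conj := by
    haveI : NeZero ℓ := ⟨(Fact.out : ℓ.Prime).ne_zero⟩
    have h : ∀ x : ZMod ℓ, ∃ m : ℤ, -(x.val : ℤ) = ((-x).val : ℤ) + m * ℓ := fun x => by
      have : (ℓ : ℤ) ∣ -(x.val : ℤ) - ((-x).val : ℤ) := by
        rw [← ZMod.intCast_zmod_eq_zero_iff_dvd]
        simp
      obtain ⟨m, hm⟩ := this
      exact ⟨m, by linarith⟩
    choose m hm using h
    refine ⟨Equiv.optionCongr (Equiv.neg (ZMod ℓ)), fun x => x.elim 1 (fun x =>
      ⟨ModularGroup.T ^ m x, Gamma0_mem.mpr (by rw [ModularGroup.coe_T_zpow]; simp)⟩), fun x => ?_⟩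
    induction x using OnePoint.rec with
    | infty =>
      show jMat * ModularForm.heckeDiagMatrix ℓ * jMat
        = mapGL ℝ (1 : SL(2, ℤ)) * ModularForm.heckeDiagMatrix ℓ
      rw [map_one, one_mul, jMat_conj_heckeDiag (NeZero.ne ℓ)]
    | coe x => exact jMat_conj_heckeMatrix (NeZero.ne ℓ) _ _ _ (hm x)

theorem coe_heckeU_eq (q : ℕ) [NeZero q] (hqN : q ∣ N) (f : CuspForm (Gamma0 N) 2) :
    (⇑(CuspForm.heckeULin 2 hqN f) : ℍ → ℂ) = ∑ i, (⇑f) ∣[(2 : ℤ)] (repsU q hqN).rep i :=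
  (CuspForm.coe_heckeULin_apply 2 hqN f).trans
    (P2MW.S_ModularForm_heckeU_slash_eq_self_of_mem_Gamma0.ModularForm.HeckeSlashInvariance.heckeU_eq_sum_zmod
      2 _)

theorem coe_heckeT_eq (ℓ : ℕ) [Fact ℓ.Prime] (hℓN : ¬ ℓ ∣ N) (f : CuspForm (Gamma0 N) 2) :
    (⇑(CuspForm.heckeTLin 2 Fact.out hℓN f) : ℍ → ℂ) = ∑ i, (⇑f) ∣[(2 : ℤ)] (repsT ℓ hℓN).rep i :=
  haveI : NeZero ℓ := ⟨(Fact.out : ℓ.Prime).ne_zero⟩
  (CuspForm.coe_heckeTLin_apply 2 Fact.out hℓN f).trans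
    (P2MW.S_ModularForm_heckeT_slash_eq_self_of_mem_Gamma0.ModularForm.HeckeSlashInvariance.heckeT_eq_sum_onePoint
      2 _)

end Instances

end FLTAgent.Periods
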