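import Fermat.Agent.Periods.Eis.Bound
import Fermat.Agent.Periods.EichlerShimura
import Fermat.Agent.Alg.IntegralForms
import Fermat.Prelude.Def_CuspForm_HeckeLocal
import Fermat.Prelude.Def_CuspForm_HeckeEvalForms

/-!
Upper bound for the Eisenstein quotient of the Hecke algebra of prime level.
-/

set_option autoImplicit false

noncomputable section

open UpperHalfPlane CongruenceSubgroup ModularForm ModularCurve
open scoped MatrixGroups ArithmeticFunction.sigma
open FLTAgent.Alg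

namespace FLTAgent.Periods.Eis

variable (p : ℕ) [NeZero p]

/-- The Eisenstein character of the abstract Hecke algebra. -/
def eisChar : HeckeAlg →+* ℤ := (MvPolynomial.aeval (eisensteinSystem p)).toRingHom

theorem eisensteinIdeal_eq_ker : eisensteinIdeal p = RingHom.ker (eisChar p) := rfl

omit [NeZero p] in
theorem eisChar_C (a : ℤ) : eisChar p (MvPolynomial.C a) = a := by
  simp [eisChar]

omit [NeZero p] in
theorem eisChar_surjective : Function.Surjective (eisChar p) := fun a => ⟨_, eisChar_C p a⟩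

omit [NeZero p] in
theorem eisChar_gen (ℓ : Nat.Primes) : eisChar p (heckeGen ℓ) = eisensteinSystem p ℓ :=
  aeval_heckeGen _ ℓ

/-- The generator attached to a prime. -/
def primeGen (ℓ : ℕ) (hℓ : ℓ.Prime) : HeckeAlg := heckeGen ⟨ℓ, hℓ⟩

omit [NeZero p] in
theorem eisChar_primeGen {ℓ : ℕ} (hℓ : ℓ.Prime) :
    eisChar p (primeGen ℓ hℓ) = if ℓ ∣ p then 1 else 1 + (ℓ : ℤ) :=
  (eisChar_gen p ⟨ℓ, hℓ⟩).trans rfl

theorem eval_primeGen_T {ℓ : ℕ} (hℓ : ℓ.Prime) (h : ¬ ℓ ∣ p) :
    (CuspForm.heckeEvalForms p 2 (primeGen ℓ hℓ)).1 = CuspForm.heckeTLin 2 hℓ h :=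
  congrArg Subtype.val (CuspForm.heckeEvalForms_heckeGen_of_not_dvd (ℓ := ⟨ℓ, hℓ⟩) h)

theorem eval_primeGen_U {ℓ : ℕ} (hℓ : ℓ.Prime) (h : ℓ ∣ p) :
    (CuspForm.heckeEvalForms p 2 (primeGen ℓ hℓ)).1 = CuspForm.heckeULin 2 h :=
  congrArg Subtype.val (CuspForm.heckeEvalForms_heckeGen_of_dvd (q := ⟨ℓ, hℓ⟩) h)

theorem heckeEvalForms_surjective : Function.Surjective (CuspForm.heckeEvalForms p 2) := by
  rintro ⟨t, ht⟩
  suffices ∃ P, (CuspForm.heckeEvalForms p 2 P).1 = t by
    obtain ⟨P, hP⟩ := this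
    exact ⟨P, Subtype.ext hP⟩
  refine Algebra.adjoin_induction (p := fun t _ => ∃ P, (CuspForm.heckeEvalForms p 2 P).1 = t)
    ?_ ?_ ?_ ?_ ht
  · rintro x (⟨ℓ, hℓ, hℓN, -, rfl⟩ | ⟨q, hqN, hq, -, rfl⟩)
    · exact ⟨primeGen ℓ hℓ, eval_primeGen_T p hℓ hℓN⟩
    · exact ⟨primeGen q hq, eval_primeGen_U p hq hqN⟩
  · exact fun r => ⟨MvPolynomial.C r, by rw [CuspForm.heckeEvalForms_C]; rfl⟩
  · rintro x y _ _ ⟨P, hP⟩ ⟨Q, hQ⟩
    exact ⟨P + Q, by rw [map_add, Subalgebra.coe_add, hP, hQ]⟩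
  · rintro x y _ _ ⟨P, hP⟩ ⟨Q, hQ⟩
    exact ⟨P * Q, by rw [map_mul, Subalgebra.coe_mul, hP, hQ]⟩

/-- The map to the Hecke algebra acting on the integral lattice. -/
def latticeEval : HeckeAlg →+* ↥(CuspForm.heckeLatticeAlgebra p ∅) :=
  (CuspForm.latticeRestrictHom p ∅).toRingHom.comp (CuspForm.heckeEvalForms p 2)

theorem latticeEval_surjective : Function.Surjective (latticeEval p) :=
  (CuspForm.latticeRestrictHom_surjective p ∅).comp (heckeEvalForms_surjective p)

theorem coe_latticeEval (P : HeckeAlg) (f : ↥(CuspForm.intLattice p 2)) :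
    (((latticeEval p P).1 f : ↥(CuspForm.intLattice p 2)) : CuspForm (Gamma0 p) 2)
      = (CuspForm.heckeEvalForms p 2 P).1 (f : CuspForm (Gamma0 p) 2) := rfl

omit [NeZero p] in
theorem card_quotient_map_eq {R T : Type*} [CommRing R] [CommRing T] (φ : R →+* T) (χ : R →+* ℤ)
    (hφ : Function.Surjective φ) (hχ : Function.Surjective χ) (m : ℕ)
    (hm : (RingHom.ker φ).map χ = Ideal.span {(m : ℤ)}) :
    Nat.card (T ⧸ (RingHom.ker χ).map φ) = m := by
  set I := RingHom.ker χ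
  set K := RingHom.ker φ
  have hs1 : Function.Surjective ((Ideal.Quotient.mk (I.map φ)).comp φ) :=
    Ideal.Quotient.mk_surjective.comp hφ
  have hs2 : Function.Surjective ((Ideal.Quotient.mk (K.map χ)).comp χ) :=
    Ideal.Quotient.mk_surjective.comp hχ
  have k1 : RingHom.ker ((Ideal.Quotient.mk (I.map φ)).comp φ) = I ⊔ K := by
    rw [← RingHom.comap_ker, Ideal.mk_ker, Ideal.comap_map_of_surjective _ hφ]
    rfl
  have k2 : RingHom.ker ((Ideal.Quotient.mk (K.map χ)).comp χ) = I ⊔ K := by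
    rw [← RingHom.comap_ker, Ideal.mk_ker, Ideal.comap_map_of_surjective _ hχ, sup_comm]
    rfl
  have e : T ⧸ I.map φ ≃+* ℤ ⧸ K.map χ :=
    (RingHom.quotientKerEquivOfSurjective hs1).symm.trans
      ((Ideal.quotEquivOfEq (k1.trans k2.symm)).trans (RingHom.quotientKerEquivOfSurjective hs2))
  rw [Nat.card_congr e.toEquiv, hm, Nat.card_congr (Int.quotientSpanNatEquivZMod m).toEquiv,
    Nat.card_zmod]

omit [NeZero p] in
theorem sigma_pow_succ {ℓ : ℕ} (hℓ : ℓ.Prime) (j : ℕ) :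
    σ 1 (ℓ ^ (j + 1)) = 1 + ℓ * σ 1 (ℓ ^ j) := by
  rw [ArithmeticFunction.sigma_one_apply, ArithmeticFunction.sigma_one_apply,
    Nat.sum_divisors_prime_pow hℓ, Nat.sum_divisors_prime_pow hℓ, Finset.sum_range_succ',
    Finset.mul_sum, pow_zero, add_comm]
  exact congrArg (1 + ·) (Finset.sum_congr rfl fun i _ => by rw [pow_succ, mul_comm])

omit [NeZero p] in
theorem sigma_prime_mul {ℓ : ℕ} (hℓ : ℓ.Prime) {k : ℕ} (hk : k ≠ 0) :
    σ 1 (ℓ * k) + (if ℓ ∣ k then ℓ * σ 1 (k / ℓ) else 0) = (1 + ℓ) * σ 1 k := by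
  obtain ⟨e, r, hr, rfl⟩ := Nat.exists_eq_pow_mul_and_not_dvd hk ℓ hℓ.ne_one
  have hmul : ∀ j, σ 1 (ℓ ^ j * r) = σ 1 (ℓ ^ j) * σ 1 r := fun j =>
    ArithmeticFunction.isMultiplicative_sigma.map_mul_of_coprime
      ((hℓ.coprime_iff_not_dvd.mpr hr).pow_left j)
  rw [← mul_assoc, ← pow_succ', hmul (e + 1), hmul e, sigma_pow_succ hℓ e]
  rcases e with _ | e
  · simp [hr, ArithmeticFunction.sigma_one_apply]
  · rw [if_pos (dvd_mul_of_dvd_left (dvd_pow_self ℓ (Nat.succ_ne_zero e)) r), pow_succ' ℓ e,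
      mul_assoc, Nat.mul_div_cancel_left _ hℓ.pos, hmul e, ← pow_succ', sigma_pow_succ hℓ e]
    ring

omit [NeZero p] in
theorem sigmaP_prime_mul (hp : p.Prime) {ℓ : ℕ} (hℓ : ℓ.Prime) (hne : ℓ ≠ p) {k : ℕ} (hk : k ≠ 0) :
    sigmaP p (ℓ * k) + (if ℓ ∣ k then (ℓ : ℤ) * sigmaP p (k / ℓ) else 0)
      = (1 + ℓ) * sigmaP p k := by
  have h1 : (σ 1 (ℓ * k) : ℤ) + (if ℓ ∣ k then (ℓ : ℤ) * σ 1 (k / ℓ) else 0)
      = (1 + ℓ) * σ 1 k := by exact_mod_cast sigma_prime_mul hℓ hk
  have hco : Nat.Coprime p ℓ := (Nat.coprime_primes hp hℓ).mpr (Ne.symm hne)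
  by_cases hpk : p ∣ k
  · obtain ⟨s, rfl⟩ := hpk
    have hs : s ≠ 0 := right_ne_zero_of_mul hk
    have h2 : (σ 1 (ℓ * s) : ℤ) + (if ℓ ∣ s then (ℓ : ℤ) * σ 1 (s / ℓ) else 0)
        = (1 + ℓ) * σ 1 s := by exact_mod_cast sigma_prime_mul hℓ hs
    have hiff : ℓ ∣ p * s ↔ ℓ ∣ s := hco.symm.dvd_mul_left
    simp only [sigmaP, dvd_mul_right, if_true, Nat.mul_div_cancel_left _ hp.pos,
      mul_left_comm ℓ p s] at h1 ⊢
    by_cases hls : ℓ ∣ s
    · simp only [hiff.mpr hls, hls, if_true, Nat.mul_div_assoc p hls, dvd_mul_right,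
        Nat.mul_div_cancel_left _ hp.pos] at h1 h2 ⊢
      linear_combination h1 - (p : ℤ) * h2
    · simp only [mt hiff.mp hls, hls, if_false] at h1 h2 ⊢
      linear_combination h1 - (p : ℤ) * h2
  · have h3 : ¬ p ∣ ℓ * k := fun h => hpk (hco.dvd_of_dvd_mul_left h)
    by_cases hlk : ℓ ∣ k
    · have h4 : ¬ p ∣ k / ℓ := fun h => hpk (h.trans (Nat.div_dvd_of_dvd hlk))
      simpa [sigmaP, hpk, h3, h4, hlk] using h1
    · simpa [sigmaP, hpk, h3, hlk] using h1

omit [NeZero p] in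
theorem sigmaP_self_mul (hp : p.Prime) {k : ℕ} (hk : k ≠ 0) : sigmaP p (p * k) = sigmaP p k := by
  have h1 : (σ 1 (p * k) : ℤ) + (if p ∣ k then (p : ℤ) * σ 1 (k / p) else 0)
      = (1 + p) * σ 1 k := by exact_mod_cast sigma_prime_mul hp hk
  simp only [sigmaP, dvd_mul_right, if_true, Nat.mul_div_cancel_left _ hp.pos]
  split_ifs at h1 ⊢ <;> linarith

/-- The operators reading off the Fourier coefficients. -/
theorem exists_coeffOp (hp : p.Prime) (k : ℕ) : k ≠ 0 → ∃ P : HeckeAlg, eisChar p P = sigmaP p k ∧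
    ∀ f : CuspForm (Gamma0 p) 2,
      coeffSeq p ((CuspForm.heckeEvalForms p 2 P).1 f) 1 = coeffSeq p f k := by
  induction k using Nat.strong_induction_on with
  | _ k ih =>
    intro hk
    rcases eq_or_ne k 1 with rfl | hk1
    · exact ⟨1, by rw [map_one]; simp [sigmaP, hp.not_dvd_one], fun f => by rw [map_one]; rfl⟩
    have hℓ : k.minFac.Prime := Nat.minFac_prime hk1
    obtain ⟨k', hk'⟩ := Nat.minFac_dvd k
    set ℓ := k.minFac
    have hk'0 : k' ≠ 0 := fun h => hk (by rw [hk', h, mul_zero])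
    have hlt : k' < k := by
      rw [hk']; exact lt_mul_of_one_lt_left (Nat.pos_of_ne_zero hk'0) hℓ.one_lt
    obtain ⟨P, hP1, hP2⟩ := ih k' hlt hk'0
    by_cases hd : ℓ ∣ p
    · obtain rfl : ℓ = p := (Nat.prime_dvd_prime_iff_eq hℓ hp).mp hd
      refine ⟨P * primeGen ℓ hℓ, ?_, fun f => ?_⟩
      · rw [map_mul, eisChar_primeGen, if_pos dvd_rfl, mul_one, hP1,
          hk', sigmaP_self_mul ℓ hℓ hk'0]
      · rw [map_mul, Subalgebra.coe_mul, Module.End.mul_apply, hP2,
          eval_primeGen_U ℓ hℓ dvd_rfl, coeff_heckeU hℓ, hk', mul_comm]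
    have hne : ℓ ≠ p := fun h => hd (h ▸ dvd_rfl)
    have hT : ∀ f, coeffSeq p ((CuspForm.heckeEvalForms p 2 (P * primeGen ℓ hℓ)).1 f) 1
        = coeffSeq p f k + if ℓ ∣ k' then (ℓ : ℂ) * coeffSeq p f (k' / ℓ) else 0 := fun f => by
      rw [map_mul, Subalgebra.coe_mul, Module.End.mul_apply, hP2,
        eval_primeGen_T p hℓ hd, coeff_heckeT hℓ, hk', mul_comm ℓ k']
    have hχ : eisChar p (P * primeGen ℓ hℓ) = sigmaP p k' * (1 + ℓ) := by
      rw [map_mul, eisChar_primeGen, if_neg hd, hP1]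
    have hσ := sigmaP_prime_mul p hp hℓ hne hk'0
    rw [← hk'] at hσ
    by_cases hdk : ℓ ∣ k'
    · have hq0 : k' / ℓ ≠ 0 := fun h => hk'0 (by rw [← Nat.div_mul_cancel hdk, h, zero_mul])
      obtain ⟨Q, hQ1, hQ2⟩ := ih (k' / ℓ) ((Nat.div_le_self _ _).trans_lt hlt) hq0
      refine ⟨P * primeGen ℓ hℓ - MvPolynomial.C (ℓ : ℤ) * Q, ?_, fun f => ?_⟩
      · rw [map_sub, hχ, map_mul, eisChar_C, hQ1]
        rw [if_pos hdk] at hσ
        linear_combination -hσ
      · rw [map_sub, Subalgebra.coe_sub, LinearMap.sub_apply, map_sub, Pi.sub_apply, hT,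
          if_pos hdk, map_mul, CuspForm.heckeEvalForms_C, Subalgebra.coe_mul, Module.End.mul_apply,
          Subalgebra.coe_algebraMap, Module.algebraMap_end_apply, map_zsmul, Pi.smul_apply, hQ2,
          zsmul_eq_mul]
        push_cast
        ring
    · refine ⟨P * primeGen ℓ hℓ, ?_, fun f => by rw [hT, if_neg hdk, add_zero]⟩
      rw [hχ]
      rw [if_neg hdk] at hσ
      linear_combination -hσ

theorem mem_intLattice_iff {f : CuspForm (Gamma0 p) 2} :
    f ∈ CuspForm.intLattice p 2 ↔ ∀ n, ∃ m : ℤ, coeffSeq p f n = m := by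
  rw [intLattice_eq_intForms]; rfl

/-- First coefficient on the lattice, as an integer. -/
def firstCoeff : ↥(CuspForm.intLattice p 2) →ₗ[ℤ] ℤ :=
  AddMonoidHom.toIntLinearMap
    { toFun := fun f => Classical.choose ((mem_intLattice_iff p).mp f.2 1)
      map_zero' := by
        apply Int.cast_injective (α := ℂ)
        rw [← Classical.choose_spec ((mem_intLattice_iff p).mp (0 : CuspForm.intLattice p 2).2 1)]
        simp
      map_add' := fun f g => by
        apply Int.cast_injective (α := ℂ)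
        rw [Int.cast_add, ← Classical.choose_spec ((mem_intLattice_iff p).mp (f + g).2 1),
          ← Classical.choose_spec ((mem_intLattice_iff p).mp f.2 1),
          ← Classical.choose_spec ((mem_intLattice_iff p).mp g.2 1), Submodule.coe_add, map_add,
          Pi.add_apply] }

theorem firstCoeff_spec (f : ↥(CuspForm.intLattice p 2)) :
    (firstCoeff p f : ℂ) = coeffSeq p f.1 1 :=
  (Classical.choose_spec ((mem_intLattice_iff p).mp f.2 1)).symm

/-- The pairing between forms and Hecke operators by the first coefficient. -/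
def pairing : ↥(CuspForm.intLattice p 2) →ₗ[ℤ] (↥(CuspForm.heckeLatticeAlgebra p ∅) →ₗ[ℤ] ℤ) :=
  AddMonoidHom.toIntLinearMap
    { toFun := fun h => AddMonoidHom.toIntLinearMap
        { toFun := fun t => firstCoeff p (t.1 h)
          map_zero' := map_zero (firstCoeff p)
          map_add' := fun t t' => map_add (firstCoeff p) (t.1 h) (t'.1 h) }
      map_zero' := LinearMap.ext fun t => (congrArg (firstCoeff p) (map_zero t.1)).trans (map_zero _)
      map_add' := fun h h' => LinearMap.ext fun t =>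
        (congrArg (firstCoeff p) (map_add t.1 h h')).trans (map_add _ _ _) }

theorem pairing_apply (h : ↥(CuspForm.intLattice p 2)) (t : ↥(CuspForm.heckeLatticeAlgebra p ∅)) :
    pairing p h t = firstCoeff p (t.1 h) := rfl

omit [NeZero p] in
theorem exists_smul_mem_range {L T : Type*} [AddCommGroup L] [AddCommGroup T] [Module.Free ℤ L]
    [Module.Finite ℤ L] [Module.Free ℤ T] [Module.Finite ℤ T] (B : L →ₗ[ℤ] T →ₗ[ℤ] ℤ)
    (hB : Function.Injective B) (hflip : Function.Injective B.flip) (ψ : T →ₗ[ℤ] ℤ) :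
    ∃ M : ℤ, M ≠ 0 ∧ ∃ h, B h = M • ψ := by
  have h1 : Module.finrank ℤ (T →ₗ[ℤ] ℤ) = Module.finrank ℤ L := by
    have e1 := LinearMap.finrank_le_finrank_of_injective hB
    have e2 := LinearMap.finrank_le_finrank_of_injective hflip
    have e3 : Module.finrank ℤ (T →ₗ[ℤ] ℤ) = Module.finrank ℤ T := Module.finrank_linearMap_self ℤ ℤ T
    have e4 : Module.finrank ℤ (L →ₗ[ℤ] ℤ) = Module.finrank ℤ L := Module.finrank_linearMap_self ℤ ℤ L
    omega
  have h2 := Submodule.finrank_quotient_add_finrank (LinearMap.range B)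
  rw [LinearMap.finrank_range_of_inj hB, h1] at h2
  have h3 : Module.finrank ℤ ((T →ₗ[ℤ] ℤ) ⧸ LinearMap.range B) = 0 := by omega
  obtain ⟨M, hM, hψ⟩ := Module.finrank_eq_zero_iff.mp h3 (Submodule.Quotient.mk ψ)
  rw [← Submodule.Quotient.mk_smul, Submodule.Quotient.mk_eq_zero] at hψ
  exact ⟨M, hM, hψ⟩

set_option maxHeartbeats 1000000 in
/-- Every functional on the Hecke algebra is given by a form with integral coefficients. -/
theorem exists_form_of_functional (hp : p.Prime)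
    (ψ : ↥(CuspForm.heckeLatticeAlgebra p ∅) →ₗ[ℤ] ℤ) :
    ∃ (f : CuspForm (Gamma0 p) 2) (a : ℕ → ℤ), (∀ k, coeffSeq p f k = (a k : ℂ)) ∧
      ∀ k, k ≠ 0 → ∃ P : HeckeAlg, eisChar p P = sigmaP p k ∧ a k = ψ (latticeEval p P) := by
  classical
  choose P hP1 hP2 using exists_coeffOp p hp
  haveI := CuspForm.intLattice.moduleFinite p
  haveI := CuspForm.intLattice.moduleFree p
  have hB : ∀ (h : ↥(CuspForm.intLattice p 2)) (t : ↥(CuspForm.heckeLatticeAlgebra p ∅)), ((pairing p) h t : ℂ) = coeffSeq p (t.1 h).1 1 := fun h t =>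
    firstCoeff_spec p _
  have hcoef : ∀ (h : ↥(CuspForm.intLattice p 2)) k (hk : k ≠ 0),
      ((pairing p) h (latticeEval p (P k hk)) : ℂ) = coeffSeq p h.1 k := fun h k hk => by
    rw [hB, coe_latticeEval, hP2]
  have hzero : ∀ g : ↥(CuspForm.intLattice p 2), (∀ k (hk : k ≠ 0), (pairing p) g (latticeEval p (P k hk)) = 0) → g = 0 := by
    intro g hg
    apply Subtype.ext
    apply coeffSeq_injective
    funext k
    rw [Submodule.coe_zero, map_zero, Pi.zero_apply]
    rcases eq_or_ne k 0 with rfl | hk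
    · exact coeffSeq_zero_coeff _
    · rw [← hcoef g k hk, hg k hk, Int.cast_zero]
  have hBinj : Function.Injective (pairing p) := (injective_iff_map_eq_zero (pairing p)).mpr fun h h0 =>
    hzero h fun k hk => by rw [h0]; rfl
  have hBflip : Function.Injective (pairing p).flip := (injective_iff_map_eq_zero (pairing p).flip).mpr fun t h0 => by
    refine Subtype.ext (LinearMap.ext fun h => hzero _ fun k hk => ?_)
    have hc : (latticeEval p (P k hk)).1 (t.1 h) = t.1 ((latticeEval p (P k hk)).1 h) :=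
      congrArg (fun u : ↥(CuspForm.heckeLatticeAlgebra p ∅) => u.1 h) (mul_comm (latticeEval p (P k hk)) t)
    show firstCoeff p ((latticeEval p (P k hk)).1 (t.1 h)) = 0
    rw [hc]
    exact congrArg (fun g : ↥(CuspForm.intLattice p 2) →ₗ[ℤ] ℤ => g ((latticeEval p (P k hk)).1 h)) h0
  obtain ⟨M, hM, h, hh⟩ := exists_smul_mem_range (pairing p) hBinj hBflip ψ
  refine ⟨(M : ℂ)⁻¹ • h.1, fun k => if hk : k = 0 then 0 else ψ (latticeEval p (P k hk)),
    fun k => ?_, fun k hk => ⟨P k hk, hP1 k hk, dif_neg hk⟩⟩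
  rw [map_smul, Pi.smul_apply, smul_eq_mul]
  beta_reduce
  rcases eq_or_ne k 0 with rfl | hk
  · rw [coeffSeq_zero_coeff, mul_zero, dif_pos rfl, Int.cast_zero]
  · rw [dif_neg hk, ← hcoef h k hk, hh]
    have : (M : ℂ) ≠ 0 := Int.cast_ne_zero.mpr hM
    simp [this]

theorem genusFormula_of_lt_five (hp : p.Prime) (h5 : p < 5) : genusFormula p = 0 := by
  haveI : Fact p.Prime := ⟨hp⟩
  have hψ : dedekindPsi p = p + 1 := dedekindPsi_self
  have h : p = 2 ∨ p = 3 := by
    have := hp.two_le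
    rcases eq_or_ne p 4 with rfl | _
    · norm_num at hp
    · omega
  rcases h with rfl | rfl
  · have h2 : nuTwo 2 = 1 := by unfold nuTwo; rw [Nat.card_eq_fintype_card]; rfl
    have h3 : nuThree 2 = 0 := by unfold nuThree; rw [Nat.card_eq_fintype_card]; rfl
    have h4 : cuspCount 2 = 2 := by decide
    simp only [genusFormula, hψ, h2, h3, h4]; norm_num
  · have h2 : nuTwo 3 = 0 := by unfold nuTwo; rw [Nat.card_eq_fintype_card]; rfl
    have h3 : nuThree 3 = 1 := by unfold nuThree; rw [Nat.card_eq_fintype_card]; rfl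
    have h4 : cuspCount 3 = 2 := by decide
    simp only [genusFormula, hψ, h2, h3, h4]; norm_num

/-- Upper bound: the index of the Eisenstein ideal divides the numerator. -/
theorem dvd_numerator_of_map_ker_eq [Fact p.Prime] {m : ℕ}
    (hm : (RingHom.ker (latticeEval p)).map (eisChar p) = Ideal.span {(m : ℤ)}) :
    m ∣ eisensteinNumerator p := by
  have hp := (Fact.out : p.Prime)
  rcases lt_or_ge p 5 with h5 | h5
  · haveI := finiteDimensional_cuspForm (N := p)
    have hg := finrank_cuspForm_le_genusFormula (N := p)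
    rw [genusFormula_of_lt_five p hp h5] at hg
    have h0 : Module.finrank ℂ (CuspForm (Gamma0 p) 2) = 0 := by
      exact_mod_cast le_antisymm hg (Nat.cast_nonneg _)
    haveI : Subsingleton (CuspForm (Gamma0 p) 2) := Module.finrank_zero_iff.mp h0
    have h1 : (1 : HeckeAlg) ∈ RingHom.ker (latticeEval p) := by
      rw [RingHom.mem_ker]
      exact Subtype.ext (LinearMap.ext fun f => Subtype.ext (Subsingleton.elim _ _))
    have h2 := Ideal.mem_map_of_mem (eisChar p) h1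
    rw [map_one, hm, Ideal.mem_span_singleton] at h2
    have hm1 : m = 1 := Nat.dvd_one.mp (by exact_mod_cast h2)
    rw [hm1]
    exact one_dvd _
  classical
  have hker : RingHom.ker (latticeEval p) ≤ RingHom.ker ((Int.castRingHom (ZMod m)).comp (eisChar p)) :=
    fun P hP => by
      have h2 := Ideal.mem_map_of_mem (eisChar p) hP
      rw [hm, Ideal.mem_span_singleton] at h2
      exact RingHom.mem_ker.mpr ((ZMod.intCast_zmod_eq_zero_iff_dvd _ _).mpr h2)
  let χ : ↥(CuspForm.heckeLatticeAlgebra p ∅) →+* ZMod m :=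
    RingHom.liftOfSurjective (latticeEval p) (latticeEval_surjective p)
      ⟨(Int.castRingHom (ZMod m)).comp (eisChar p), hker⟩
  have hχ : ∀ P, χ (latticeEval p P) = ((eisChar p P : ℤ) : ZMod m) := fun P =>
    RingHom.liftOfRightInverse_comp_apply _ _ _ _ P
  let b := Module.Free.chooseBasis ℤ ↥(CuspForm.heckeLatticeAlgebra p ∅)
  let ψ : ↥(CuspForm.heckeLatticeAlgebra p ∅) →ₗ[ℤ] ℤ :=
    b.constr ℤ fun i => (χ (b i)).cast
  have hψ : ∀ t, ((ψ t : ℤ) : ZMod m) = χ t := by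
    have : (Int.castAddHom (ZMod m)).toIntLinearMap ∘ₗ ψ = χ.toAddMonoidHom.toIntLinearMap :=
      b.ext fun i => by simp [ψ, b.constr_basis]
    exact fun t => LinearMap.congr_fun this t
  obtain ⟨f, a, ha, hP⟩ := exists_form_of_functional p hp ψ
  refine dvd_eisensteinNumerator h5 m f a ha fun k hk => ?_
  obtain ⟨P, hP1, hP2⟩ := hP k hk
  rw [← hP1, hP2, ← ZMod.intCast_zmod_eq_zero_iff_dvd, Int.cast_sub, hψ, hχ, sub_self]

end FLTAgent.Periods.Eis
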