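import Fermat.Agent.Periods.Eis.Basic

/-!
Divisibility relations forced by traces to level one on a weight two form on Γ₀(p)
whose q-expansion is congruent to the constant p - 1.
-/

set_option autoImplicit false

noncomputable section

open UpperHalfPlane CongruenceSubgroup ModularForm Filter EisensteinSeries Finset
open scoped MatrixGroups Manifold Topology Real ArithmeticFunction.sigma
open FLTAgent.ModFun

namespace FLTAgent.Periods.Eis

/-- integrality of the discriminant -/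
theorem exists_deltaCoeff :
    ∃ D : ℕ → ℤ, D 0 = 0 ∧ D 1 = 1 ∧ ∀ n, (qx discriminant).coeff n = (D n : ℂ) := by
  suffices h : ∀ n, ∃ d : ℤ, (qx discriminant).coeff n = (d : ℂ) by
    choose D hD using h
    have h0 : (qx discriminant).coeff 0 = 0 := by
      simpa using CuspFormClass.qExpansion_coeff_zero CuspForm.discriminant one_pos
        one_mem_strictPeriods_SL
    exact ⟨D, by exact_mod_cast (hD 0).symm.trans h0,
      by exact_mod_cast (hD 1).symm.trans discriminant_qExpansion_coeff_one, hD⟩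
  have h4 := isMF_levelOne (E₄ : ModularForm 𝒮ℒ 4)
  have h6 := isMF_levelOne (E₆ : ModularForm 𝒮ℒ 6)
  set A : PowerSeries ℤ := PowerSeries.mk fun n => (σ 3 n : ℤ)
  set B : PowerSeries ℤ := PowerSeries.mk fun n => (σ 5 n : ℤ)
  have e4 : qx (E₄ : ℍ → ℂ) = (1 + PowerSeries.C (240 : ℤ) * A).map (Int.castRingHom ℂ) := by
    ext m
    rw [qx, E₄, EisensteinSeries.E_qExpansion_coeff _ ⟨2, rfl⟩, PowerSeries.coeff_map, map_add,
      PowerSeries.coeff_one, PowerSeries.coeff_C_mul, PowerSeries.coeff_mk]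
    have hb : bernoulli 4 = -1 / 30 := by
      rw [bernoulli_eq_bernoulli'_of_ne_one (by norm_num), bernoulli'_four]
    rcases eq_or_ne m 0 with rfl | hm
    · simp
    · simp [hm, hb]; norm_num
  have e6 : qx (E₆ : ℍ → ℂ) = (1 - PowerSeries.C (504 : ℤ) * B).map (Int.castRingHom ℂ) := by
    ext m
    rw [qx, E₆, EisensteinSeries.E_qExpansion_coeff _ ⟨3, rfl⟩, PowerSeries.coeff_map, map_sub,
      PowerSeries.coeff_one, PowerSeries.coeff_C_mul, PowerSeries.coeff_mk]
    rcases eq_or_ne m 0 with rfl | hm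
    · simp
    · simp [hm, bernoulli_six]; norm_num
  have h12 : ∀ n : ℕ, (12 : ℤ) ∣ 5 * (σ 3 n : ℤ) + 7 * (σ 5 n : ℤ) := by
    intro n
    rw [ArithmeticFunction.sigma_apply, ArithmeticFunction.sigma_apply]
    push_cast
    rw [Finset.mul_sum, Finset.mul_sum, ← Finset.sum_add_distrib]
    refine Finset.dvd_sum fun d _ => ?_
    have key : ∀ x : ZMod 12, 5 * x ^ 3 + 7 * x ^ 5 = 0 := by decide
    have h := key ((d : ℤ) : ZMod 12)
    have h' : ((5 * (d : ℤ) ^ 3 + 7 * (d : ℤ) ^ 5 : ℤ) : ZMod 12) = 0 := by push_cast at h ⊢; exact h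
    rw [ZMod.intCast_zmod_eq_zero_iff_dvd] at h'
    exact_mod_cast h'
  choose c hc using h12
  set P : PowerSeries ℤ := PowerSeries.mk c + PowerSeries.C (100 : ℤ) * A ^ 2
    + PowerSeries.C (8000 : ℤ) * A ^ 3 - PowerSeries.C (147 : ℤ) * B ^ 2
  have hP : (1 + PowerSeries.C (240 : ℤ) * A) ^ 3 - (1 - PowerSeries.C (504 : ℤ) * B) ^ 2
      = PowerSeries.C (1728 : ℤ) * P := by
    have hAB : PowerSeries.C (5 : ℤ) * A + PowerSeries.C (7 : ℤ) * B
        = PowerSeries.C (12 : ℤ) * PowerSeries.mk c := by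
      ext n
      rw [map_add, PowerSeries.coeff_C_mul, PowerSeries.coeff_C_mul, PowerSeries.coeff_C_mul]
      simp [A, B, hc n]
    simp only [P, map_ofNat] at hAB ⊢
    linear_combination (144 : PowerSeries ℤ) * hAB
  intro n
  refine ⟨P.coeff n, ?_⟩
  have hfun : (1728 : ℂ) • discriminant = (E₄ : ℍ → ℂ) ^ 3 - (E₆ : ℍ → ℂ) ^ 2 := by
    funext z
    rw [Pi.smul_apply, discriminant_eq_E₄_cube_sub_E₆_sq]
    simp only [Pi.sub_apply, Pi.pow_apply, smul_eq_mul]
    ring
  have h := congrArg qx hfun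
  have hgd : Good discriminant := (isMF_levelOne CuspForm.discriminant).good
  rw [Good.qx_smul _ hgd,
    Good.qx_sub (h4.good.pow 3) (h6.good.pow 2), Good.qx_pow h4.good, Good.qx_pow h6.good, e4, e6,
    ← map_pow, ← map_pow, ← map_sub, hP] at h
  have h' := congrArg (PowerSeries.coeff n) h
  rw [PowerSeries.coeff_smul, PowerSeries.coeff_map, PowerSeries.coeff_C_mul, smul_eq_mul] at h'
  simp only [eq_intCast, Int.cast_mul, Int.cast_ofNat] at h'
  exact mul_left_cancel₀ (by norm_num : (1728 : ℂ) ≠ 0) h'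

variable {p : ℕ} [Fact p.Prime] {F G : ℍ → ℂ} {w w' : ℤ}

theorem twist_mul (F G : ℍ → ℂ) (w w' : ℤ) :
    twist p (w + w') (F * G) = twist p w F * twist p w' G := by
  funext τ
  simp [twist, dil, mul_slash_SL2]

theorem coeff_twist_two (hF : IsMF p 2 F) (m : ℕ) :
    (qx (twist p 2 F)).coeff m = -(qx F).coeff (m * p) / p := by
  obtain ⟨T, hT, h⟩ := exists_trace (isMF_twist hF)
  have h0 := h m
  rw [levelOne_two_eq_zero hT, twist_twist hF, Good.qx_smul _ hF.good, PowerSeries.coeff_smul] at h0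
  simp only [qx, qExpansion_zero, map_zero, smul_eq_mul] at h0
  have hp : (p : ℂ) ≠ 0 := Nat.cast_ne_zero.mpr (NeZero.ne p)
  rw [zpow_neg, zpow_two] at h0
  field_simp at h0 ⊢
  linear_combination -h0

theorem isMF_four_trace (hF : IsMF p 2 F) (hG : IsMF p 2 G) (n : ℕ) :
    (p : ℂ) * (qx (F * G)).coeff n
        + ∑ x ∈ antidiagonal (n * p), (qx F).coeff (x.1 * p) * (qx G).coeff (x.2 * p)
      = ((p : ℂ) + 1) * ((qx F).coeff 0 * (qx G).coeff 0) * (qx (E₄ : ℍ → ℂ)).coeff n := by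
  obtain ⟨T, hT, h⟩ := exists_trace ((hF.mul hG).cast (show (2 : ℤ) + 2 = 4 by norm_num))
  have hp : (p : ℂ) ≠ 0 := Nat.cast_ne_zero.mpr (NeZero.ne p)
  have e : ∀ k, (p : ℂ) * (qx T).coeff k = (p : ℂ) * (qx (F * G)).coeff k
      + ∑ x ∈ antidiagonal (k * p), (qx F).coeff (x.1 * p) * (qx G).coeff (x.2 * p) := by
    intro k
    rw [h k, show (4 : ℤ) = 2 + 2 by norm_num, twist_mul,
      Good.qx_mul (isMF_twist hF).good (isMF_twist hG).good, PowerSeries.coeff_mul, mul_add,
      Finset.mul_sum, Finset.mul_sum]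
    congr 1
    refine Finset.sum_congr rfl fun x _ => ?_
    rw [coeff_twist_two hF, coeff_twist_two hG]
    field_simp
  have e0 := e 0
  rw [Good.qx_mul hF.good hG.good, PowerSeries.coeff_mul] at e0
  simp only [zero_mul, Finset.Nat.antidiagonal_zero, Finset.sum_singleton] at e0
  rw [← e n, coeff_of_levelOne_four hT n, ← mul_assoc, e0]
  ring

theorem levelOne_fourteen_eq_zero {T : ℍ → ℂ} (hT : IsMF 1 14 T) (h0 : (qx T).coeff 0 = 0) :
    T = 0 := by
  have h0' : (qExpansion 1 (hT.toLevelOne : ℍ → ℂ)).coeff 0 = 0 := by simpa using h0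
  set K := CuspForm.discriminantEquiv (toCuspForm hT.toLevelOne h0')
  have hK : (K : ℍ → ℂ) = 0 :=
    levelOne_two_eq_zero ((isMF_levelOne K).cast (show (14 : ℤ) - 12 = 2 by norm_num))
  funext z
  have := discriminant_mul_discriminantEquiv_apply (toCuspForm hT.toLevelOne h0') z
  rw [show CuspForm.discriminantEquiv (toCuspForm hT.toLevelOne h0') z = K z from rfl, hK] at this
  simpa using this.symm

variable (m : ℕ) {g : ℍ → ℂ} (hg : IsMF p 2 g) (c : ℕ → ℤ)
  (hc : ∀ k, (qx g).coeff k = (c k : ℂ)) (hc0 : c 0 = (p : ℤ) - 1)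
  (hcm : ∀ k, k ≠ 0 → (24 * m : ℤ) ∣ c k)

omit [Fact p.Prime] in
/-- coefficients of `p E₂(pτ) - E₂(τ)` -/
def eisC (p k : ℕ) : ℤ := if k = 0 then (p : ℤ) - 1 else 24 * sigmaP p k

theorem qx_eisTwo_eq (k : ℕ) : (qx (eisTwo p)).coeff k = (eisC p k : ℂ) := by
  rw [qx_eisTwo, eisC]; split_ifs <;> push_cast <;> rfl

theorem gcd_dvd_eisC (k : ℕ) : (Nat.gcd (p - 1) 24 : ℤ) ∣ eisC p k := by
  rw [eisC]
  split_ifs
  · have h := Nat.gcd_dvd_left (p - 1) 24
    rw [← Int.natCast_dvd_natCast, Nat.cast_sub (Fact.out : p.Prime).one_le] at h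
    exact_mod_cast h
  · exact (Int.natCast_dvd_natCast.mpr (Nat.gcd_dvd_right (p - 1) 24)).trans (dvd_mul_right _ _)

include hg hc hc0 hcm in
/-- from `Tr (g E) ∈ M₄(1)` -/
theorem eisenstein_relation (n : ℕ) (hn : n ≠ 0) :
    (24 * m * Nat.gcd (p - 1) 24 : ℤ) ∣ ((p : ℤ) - 1) * ((p : ℤ) * eisC p n + eisC p (n * p * p))
      - ((p : ℤ) + 1) * (((p : ℤ) - 1) * ((p : ℤ) - 1)) * (240 * (σ 3 n : ℤ)) := by
  have h := isMF_four_trace hg (isMF_eisTwo p) n
  rw [Good.qx_mul hg.good (isMF_eisTwo p).good, PowerSeries.coeff_mul] at h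
  simp only [hc, qx_eisTwo_eq] at h
  have hE : (qx (E₄ : ℍ → ℂ)).coeff n = ((240 * (σ 3 n : ℤ) : ℤ) : ℂ) := by
    have hb : bernoulli 4 = -1 / 30 := by
      rw [bernoulli_eq_bernoulli'_of_ne_one (by norm_num), bernoulli'_four]
    rw [qx, E₄, EisensteinSeries.E_qExpansion_coeff _ ⟨2, rfl⟩]
    simp [hn, hb]; norm_num
  rw [hE] at h
  have hZ : (p : ℤ) * (∑ x ∈ antidiagonal n, c x.1 * eisC p x.2)
      + ∑ x ∈ antidiagonal (n * p), c (x.1 * p) * eisC p (x.2 * p)
      = ((p : ℤ) + 1) * (c 0 * eisC p 0) * (240 * (σ 3 n : ℤ)) := by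
    exact_mod_cast h
  have hrest : ∀ i j, i ≠ 0 → (24 * m * Nat.gcd (p - 1) 24 : ℤ) ∣ c i * eisC p j :=
    fun i j hi => mul_dvd_mul (hcm i hi) (gcd_dvd_eisC j)
  have hs : ∀ N : ℕ, ∀ a b : ℕ → ℕ, (∀ x, x ≠ 0 → a x ≠ 0) →
      (24 * m * Nat.gcd (p - 1) 24 : ℤ) ∣
        (∑ x ∈ antidiagonal N, c (a x.1) * eisC p (b x.2)) - c (a 0) * eisC p (b N) := by
    intro N a b ha
    rw [← Finset.add_sum_erase (antidiagonal N) _ (show (0, N) ∈ antidiagonal N by simp),
      add_sub_cancel_left]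
    refine Finset.dvd_sum fun x hx => hrest _ _ (ha _ fun h0 => ?_)
    rw [Finset.mem_erase, Finset.HasAntidiagonal.mem_antidiagonal] at hx
    exact hx.1 (Prod.ext h0 (by simp [h0] at hx; omega))
  have h1 := hs n id id (fun x hx => hx)
  have h2 := hs (n * p) (· * p) (· * p) (fun x hx => mul_ne_zero hx (NeZero.ne p))
  simp only [id, zero_mul, hc0] at h1 h2
  have hE0 : eisC p 0 = (p : ℤ) - 1 := by simp [eisC]
  rw [hc0, hE0] at hZ
  have h3 := dvd_add (dvd_mul_of_dvd_right h1 (p : ℤ)) h2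
  convert! (dvd_neg.mpr h3) using 1
  linear_combination hZ

include hg hc hc0 hcm in
/-- from `Tr (g Δ(pτ)) = 0` -/
theorem delta_relation : (24 * m : ℤ) ∣ ((p : ℤ) ^ 2 - 1) * (p : ℤ) ^ 11 := by
  obtain ⟨D, hD0, hD1, hD⟩ := exists_deltaCoeff
  have hp := (Fact.out : p.Prime)
  have hpc : (p : ℂ) ≠ 0 := Nat.cast_ne_zero.mpr (NeZero.ne p)
  have hΔ1 : IsMF 1 12 discriminant := isMF_levelOne CuspForm.discriminant
  have hΔp : IsMF p 12 (dil p discriminant) := isMF_dil hΔ1 p
  have hΔS : twist p 12 discriminant = dil p discriminant := by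
    rw [twist, hΔ1.inv _ (mem_Gamma0_one _)]
  have htw : twist p 12 (dil p discriminant) = (p : ℂ) ^ (-12 : ℤ) • discriminant := by
    rw [← hΔS, twist_twist (hΔ1.levelOne (N := p))]
  have hqp : ∀ k, (qx (dil p discriminant)).coeff k
      = ((if p ∣ k then D (k / p) else 0 : ℤ) : ℂ) := fun k => by
    rw [qx_dil hΔ1, hD]; split_ifs <;> simp
  -- trace of `Δ(pτ)`
  obtain ⟨T, hT, hTq⟩ := exists_trace hΔp
  have hT0 : (qExpansion 1 (hT.toLevelOne : ℍ → ℂ)).coeff 0 = 0 := by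
    have := hTq 0
    rw [htw, Good.qx_smul _ hΔ1.good, PowerSeries.coeff_smul, hqp, zero_mul, hD] at this
    simpa [hD0] using this
  obtain ⟨a, ha⟩ := CuspForm.exists_smul_discriminant_of_weight_eq_twelve
    (toCuspForm hT.toLevelOne hT0)
  have hTa : T = a • discriminant := by
    funext z
    have := congrFun (congrArg DFunLike.coe ha) z
    simpa using this.symm
  have hTn : ∀ n, a * (D n : ℂ) = ((if p ∣ n then D (n / p) else 0 : ℤ) : ℂ)
      + (p : ℂ) * ((p : ℂ) ^ (-12 : ℤ) * (D (n * p) : ℂ)) := fun n => by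
    have := hTq n
    rw [htw, Good.qx_smul _ hΔ1.good, PowerSeries.coeff_smul, hqp, hTa, Good.qx_smul _ hΔ1.good,
      PowerSeries.coeff_smul, hD, hD] at this
    simpa using this
  have hDp2 : D (p * p) = D p * D p - (p : ℤ) ^ 11 := by
    have h1 := hTn 1
    have h2 := hTn p
    rw [if_neg hp.not_dvd_one, hD1] at h1
    rw [if_pos dvd_rfl, Nat.div_self hp.pos, hD1] at h2
    rw [one_mul] at h1
    simp only [Int.cast_zero, Int.cast_one, zero_add, mul_one] at h1 h2
    rw [h1, zpow_neg] at h2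
    have : ((D (p * p) : ℤ) : ℂ) = ((D p * D p - (p : ℤ) ^ 11 : ℤ) : ℂ) := by
      push_cast
      field_simp at h2
      linear_combination -h2
    exact_mod_cast this
  -- trace of `g Δ(pτ)`
  obtain ⟨U, hU, hUq⟩ := exists_trace (hg.mul hΔp)
  have hUn : ∀ n, (p : ℂ) ^ 12 * (qx U).coeff n
      = ((p : ℤ) ^ 12 * (∑ x ∈ antidiagonal n, c x.1 * if p ∣ x.2 then D (x.2 / p) else 0)
          - ∑ x ∈ antidiagonal (n * p), c (x.1 * p) * D x.2 : ℤ) := by
    intro n
    rw [hUq n, twist_mul, htw, Good.qx_mul (isMF_twist hg).good (hΔ1.good.smul _),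
      Good.qx_mul hg.good hΔp.good, PowerSeries.coeff_mul, PowerSeries.coeff_mul]
    push_cast
    rw [mul_add, sub_eq_add_neg, ← Finset.sum_neg_distrib, Finset.mul_sum, Finset.mul_sum,
      Finset.mul_sum, Finset.mul_sum]
    congr 1
    · refine Finset.sum_congr rfl fun x _ => ?_
      rw [hc, hqp]
      split_ifs <;> push_cast <;> ring
    · refine Finset.sum_congr rfl fun x _ => ?_
      rw [coeff_twist_two hg, Good.qx_smul _ hΔ1.good, PowerSeries.coeff_smul, hc, hD, zpow_neg,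
        smul_eq_mul]
      field_simp
  have hU0 : U = 0 := by
    refine levelOne_fourteen_eq_zero (hU.cast (show (2 : ℤ) + 12 = 14 by norm_num)) ?_
    have := hUn 0
    simp [hD0] at this
    simpa using this.resolve_left (NeZero.ne p)
  have hz : ∀ n, (p : ℤ) ^ 12 * (∑ x ∈ antidiagonal n, c x.1 * if p ∣ x.2 then D (x.2 / p) else 0)
      = ∑ x ∈ antidiagonal (n * p), c (x.1 * p) * D x.2 := by
    intro n
    have h := hUn n
    rw [hU0] at h
    simp only [qx, qExpansion_zero, map_zero, mul_zero] at h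
    have h' := (Int.cast_eq_zero (α := ℂ)).mp h.symm
    linarith
  have hs : ∀ N, (24 * m : ℤ) ∣ (∑ x ∈ antidiagonal N, c (x.1 * p) * D x.2) - c 0 * D N := by
    intro N
    rw [← Finset.add_sum_erase (antidiagonal N) _ (show (0, N) ∈ antidiagonal N by simp),
      zero_mul, add_sub_cancel_left]
    refine Finset.dvd_sum fun x hx => dvd_mul_of_dvd_left (hcm _ fun h0 => ?_) _
    rw [Finset.mem_erase, Finset.HasAntidiagonal.mem_antidiagonal] at hx
    have h0' : x.1 = 0 := (mul_eq_zero.mp h0).resolve_right (NeZero.ne p)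
    exact hx.1 (Prod.ext h0' (by simp [h0'] at hx; omega))
  have r1 : (24 * m : ℤ) ∣ c 0 * D p := by
    have h := hz 1
    have e : (∑ x ∈ antidiagonal 1, c x.1 * if p ∣ x.2 then D (x.2 / p) else 0) = 0 := by
      simp [Finset.Nat.antidiagonal_succ, hp.not_dvd_one, hD0]
    rw [e, mul_zero, one_mul] at h
    have := hs p
    rw [← h, zero_sub, dvd_neg] at this
    exact this
  have r2 : (24 * m : ℤ) ∣ c 0 * ((p : ℤ) ^ 12 - D (p * p)) := by
    have h := hz p
    have e : (∑ x ∈ antidiagonal p, c x.1 * if p ∣ x.2 then D (x.2 / p) else 0) = c 0 := by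
      rw [Finset.sum_eq_single (0, p)]
      · simp [Nat.div_self hp.pos, hD1]
      · intro x hx hne
        rw [Finset.HasAntidiagonal.mem_antidiagonal] at hx
        split_ifs with hd
        · rcases Nat.eq_zero_or_pos x.2 with h0 | hpos
          · simp [h0, hD0]
          · have hle := Nat.le_of_dvd hpos hd
            exact absurd (Prod.ext (show x.1 = 0 by omega) (show x.2 = p by omega)) hne
        · simp
      · simp
    rw [e] at h
    have := hs (p * p)
    rw [← h] at this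
    convert! this using 1
    ring
  have := dvd_add r2 (dvd_mul_of_dvd_left r1 (D p))
  rw [hDp2, hc0] at this
  convert! this using 1
  ring

end FLTAgent.Periods.Eis
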