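import Fermat.Agent.ModFun.Cosets
import Fermat.Agent.Genus.Cosets
import Fermat.Prelude.Def_ModularForm_HeckeOperator
import Fermat.Prelude.Thm_UpperHalfPlane_qCoeff_heckeU

/-!
The twist `(F|S)(Nτ)` of a form on Γ₀(N), trace from prime level to level one,
and the weight two Eisenstein series of level N.
-/

set_option autoImplicit false

noncomputable section

open UpperHalfPlane CongruenceSubgroup ModularForm Filter EisensteinSeries
open scoped MatrixGroups Manifold Topology Real ArithmeticFunction.sigma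
open FLTAgent.ModFun

namespace FLTAgent.Periods.Eis

variable {N : ℕ} [NeZero N] {w : ℤ} {F : ℍ → ℂ}

theorem neg_slash_of_mf (hF : IsMF N w F) (γ : SL(2, ℤ)) : F ∣[w] (-γ) = F ∣[w] γ := by
  rw [show -γ = (-1 : SL(2, ℤ)) * γ by simp, SlashAction.slash_mul, hF.slash_neg_one]

theorem apply_smul (G : ℍ → ℂ) (γ : SL(2, ℤ)) (z : ℍ) :
    G (γ • z) = denom (γ : GL (Fin 2) ℝ) z ^ w * (G ∣[w] γ) z := by
  have hd : denom (γ : GL (Fin 2) ℝ) z ≠ 0 := denom_ne_zero _ z
  rw [SL_slash_apply, zpow_neg]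
  field_simp

theorem dil_slash_gen (G : ℍ → ℂ) (N : ℕ) [NeZero N] (γ γ' : SL(2, ℤ)) (A : ℕ) (B : ℤ)
    (D : ℕ) [NeZero A] [NeZero D] (h00 : (N : ℤ) * γ 0 0 = γ' 0 0 * A)
    (h01 : (N : ℤ) * γ 0 1 = γ' 0 0 * B + γ' 0 1 * D) (h10 : γ 1 0 = γ' 1 0 * A)
    (h11 : γ 1 1 = γ' 1 0 * B + γ' 1 1 * D) (τ : ℍ) :
    (dil N G ∣[w] γ) τ = (D : ℂ) ^ (-w) * (G ∣[w] γ') (aff A B D τ) := by
  obtain ⟨e1, e2⟩ := scale_smul_eq N γ γ' A B D h00 h01 h10 h11 τ
  have hd : denom (γ' : GL (Fin 2) ℝ) (aff A B D τ) ≠ 0 := denom_ne_zero _ (aff A B D τ)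
  rw [SL_slash_apply, dil, e1, apply_smul (w := w) G γ' (aff A B D τ), e2, mul_zpow, zpow_neg,
    zpow_neg]
  field_simp

/-- `(F|S)(Nτ)` -/
def twist (N : ℕ) [NeZero N] (w : ℤ) (F : ℍ → ℂ) : ℍ → ℂ := dil N (F ∣[w] ModularGroup.S)

theorem isMF_twist (hF : IsMF N w F) : IsMF N w (twist N w F) where
  holo := mdiff_dil (mdiff_slash hF.holo w _) N
  inv γ hγ := by
    rw [Gamma0_mem, ZMod.intCast_zmod_eq_zero_iff_dvd] at hγ
    obtain ⟨c', hc'⟩ := hγ
    have hdet : γ 0 0 * γ 1 1 - γ 0 1 * γ 1 0 = 1 := by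
      have := γ.prop; rwa [Matrix.det_fin_two] at this
    funext τ
    set γ' : SL(2, ℤ) := ⟨!![γ 0 0, (N : ℤ) * γ 0 1; c', γ 1 1], by
      simp [Matrix.det_fin_two]; rw [hc'] at hdet; linear_combination hdet⟩ with hγ'
    rw [twist, dil_slash_gen _ N γ γ' N 0 1
      (by simp [γ', mul_comm]) (by simp [γ']) (by simp [γ', hc', mul_comm]) (by simp [γ']) τ]
    have key : ((F ∣[w] ModularGroup.S) ∣[w] γ') = F ∣[w] ModularGroup.S := by
      set δ : SL(2, ℤ) := ⟨!![γ 1 1, -c'; -((N : ℤ) * γ 0 1), γ 0 0], by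
        simp [Matrix.det_fin_two]; rw [hc'] at hdet; linear_combination hdet⟩
      have e : ModularGroup.S * γ' = δ * ModularGroup.S := by
        apply Subtype.ext
        ext i j
        rw [Matrix.SpecialLinearGroup.coe_mul, Matrix.SpecialLinearGroup.coe_mul]
        fin_cases i <;> fin_cases j <;>
          simp [γ', δ, ModularGroup.S, Matrix.mul_apply, Fin.sum_univ_two]
      rw [← SlashAction.slash_mul, e, SlashAction.slash_mul, hF.inv δ (Gamma0_mem.mpr (by simp [δ]))]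
    rw [key]
    simp [dil, scale]
  bdd γ := by
    obtain ⟨γ', A, B, D, hA, hD, -, -, h00, h01, h10, h11⟩ := exists_hermite N γ
    have h : twist N w F ∣[w] γ
        = fun τ => (D : ℂ) ^ (-w) * ((F ∣[w] (ModularGroup.S * γ')) (aff A B D τ)) := by
      funext τ
      rw [twist, dil_slash_gen _ N γ γ' A B D h00 h01 h10 h11 τ, SlashAction.slash_mul]
    rw [h]
    exact Asymptotics.IsBigO.const_mul_left ((hF.bdd _).comp_tendsto (tendsto_aff A B D)) _

theorem twist_twist (hF : IsMF N w F) :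
    twist N w (twist N w F) = (N : ℂ) ^ (-w) • F := by
  funext τ
  rw [twist, dil, twist]
  rw [dil_slash_gen _ N ModularGroup.S ModularGroup.S 1 0 N (by simp [ModularGroup.S])
    (by simp [ModularGroup.S]) (by simp [ModularGroup.S]) (by simp [ModularGroup.S])]
  rw [← SlashAction.slash_mul]
  have : ModularGroup.S * ModularGroup.S = (-1 : SL(2, ℤ)) := by decide
  rw [this, hF.slash_neg_one, Pi.smul_apply, smul_eq_mul]
  congr 2
  apply UpperHalfPlane.ext
  rw [coe_aff, coe_scale]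
  have hN : (N : ℂ) ≠ 0 := Nat.cast_ne_zero.mpr (NeZero.ne N)
  field_simp
  simp

theorem slash_S_eq (w : ℤ) (F : ℍ → ℂ) (τ : ℍ) :
    (F ∣[w] ModularGroup.S) τ = twist N w F (aff 1 0 N τ) := by
  rw [twist, dil]
  refine congrArg _ ?_
  apply UpperHalfPlane.ext
  rw [coe_scale, coe_aff]
  have hN : (N : ℂ) ≠ 0 := Nat.cast_ne_zero.mpr (NeZero.ne N)
  field_simp
  simp

theorem slash_T_pow_apply (w : ℤ) (G : ℍ → ℂ) (j : ℕ) (τ : ℍ) :
    (G ∣[w] (ModularGroup.T ^ j : SL(2, ℤ))) τ = G (aff 1 j 1 τ) := by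
  have e10 : (ModularGroup.T ^ (j : ℤ) : SL(2, ℤ)) 1 0 = 0 := by
    rw [ModularGroup.coe_T_zpow]; rfl
  have e11 : (ModularGroup.T ^ (j : ℤ) : SL(2, ℤ)) 1 1 = 1 := by
    rw [ModularGroup.coe_T_zpow]; rfl
  rw [← zpow_natCast, SL_slash_apply, denom_SL, e10, e11, modular_T_zpow_smul]
  simp only [Int.cast_zero, zero_mul, Int.cast_one, zero_add, one_zpow, mul_one]
  congr 1
  apply UpperHalfPlane.ext
  simp [coe_aff, add_comm]

theorem slash_ST_apply (w : ℤ) (F : ℍ → ℂ) (j : ℕ) (τ : ℍ) :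
    (F ∣[w] (ModularGroup.S * ModularGroup.T ^ j)) τ = twist N w F (aff 1 j N τ) := by
  rw [SlashAction.slash_mul, slash_T_pow_apply, slash_S_eq (N := N)]
  congr 1
  apply UpperHalfPlane.ext
  simp [coe_aff]

section Prime

variable {p : ℕ} [Fact p.Prime]

instance neZero_prime : NeZero p := ⟨(Fact.out : p.Prime).ne_zero⟩

/-- representatives of the cosets at prime level -/
def cosetPt (p : ℕ) : Option (Fin p) → Cosets p
  | none => QuotientGroup.mk 1
  | some j => QuotientGroup.mk (ModularGroup.S * ModularGroup.T ^ (j : ℕ))⁻¹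

theorem dedekindPsi_self : ModularCurve.dedekindPsi p = p + 1 := by
  have := Genus.dedekindPsi_prime_pow (p := p) (k := 1) Fact.out one_pos
  simpa using this

theorem cosetPt_bijective : Function.Bijective (cosetPt p) := by
  rw [Fintype.bijective_iff_injective_and_card]
  refine ⟨?_, ?_⟩
  · have hS : ∀ n : ℕ, ((ModularGroup.S * ModularGroup.T ^ n : SL(2, ℤ))) 1 0 = 1 := fun n => by
      rw [← zpow_natCast, Matrix.SpecialLinearGroup.coe_mul, ModularGroup.coe_T_zpow]
      simp [ModularGroup.S, Matrix.mul_apply, Fin.sum_univ_two]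
    have hp : ¬ ((1 : ℤ) : ZMod p) = 0 := by simp
    rintro (_ | i) (_ | j) h
    · rfl
    · exfalso
      rw [cosetPt, cosetPt, QuotientGroup.eq] at h
      have h' := inv_mem h
      simp only [inv_one, one_mul, inv_inv] at h'
      rw [Gamma0_mem, hS] at h'
      exact hp h'
    · exfalso
      rw [cosetPt, cosetPt, QuotientGroup.eq] at h
      simp only [inv_inv, mul_one] at h
      rw [Gamma0_mem, hS] at h
      exact hp h
    · rw [cosetPt, cosetPt, QuotientGroup.eq] at h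
      have e : (ModularGroup.S * ModularGroup.T ^ (i : ℕ))⁻¹⁻¹ *
          (ModularGroup.S * ModularGroup.T ^ (j : ℕ))⁻¹
          = ModularGroup.S * ModularGroup.T ^ (((i : ℕ) : ℤ) - ((j : ℕ) : ℤ)) * ModularGroup.S⁻¹ := by
        rw [zpow_sub, zpow_natCast, zpow_natCast]; group
      rw [e, Gamma0_mem] at h
      have e2 : (ModularGroup.S * ModularGroup.T ^ (((i : ℕ) : ℤ) - ((j : ℕ) : ℤ))
          * ModularGroup.S⁻¹ : SL(2, ℤ)) 1 0 = -(((i : ℕ) : ℤ) - ((j : ℕ) : ℤ)) := by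
        rw [Matrix.SpecialLinearGroup.coe_mul, Matrix.SpecialLinearGroup.coe_mul,
          Matrix.SpecialLinearGroup.coe_inv, ModularGroup.coe_T_zpow]
        simp [ModularGroup.S, Matrix.adjugate_fin_two, Matrix.mul_apply, Matrix.vecMul, dotProduct,
          Fin.sum_univ_two]
      rw [e2] at h
      push_cast at h
      rw [neg_eq_zero, sub_eq_zero, ZMod.natCast_eq_natCast_iff', Nat.mod_eq_of_lt i.2,
        Nat.mod_eq_of_lt j.2] at h
      exact congrArg some (Fin.ext h)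
  · rw [Fintype.card_option, Fintype.card_fin, ← Nat.card_eq_fintype_card (α := Cosets p),
      show Nat.card (Cosets p) = ModularCurve.dedekindPsi p from Genus.card_cosetSpace p,
      dedekindPsi_self]

theorem conjF_cosetPt_none (hF : IsMF p w F) : conjF w F (cosetPt p none) = F := by
  rw [cosetPt, conjF_mk hF.inv, inv_one, SlashAction.slash_one]

theorem conjF_cosetPt_some (hF : IsMF p w F) (j : Fin p) (τ : ℍ) :
    conjF w F (cosetPt p (some j)) τ = twist p w F (aff 1 (j : ℕ) p τ) := by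
  rw [cosetPt, conjF_mk hF.inv, inv_inv, slash_ST_apply (N := p)]

theorem isMF_conj_sum (hF : IsMF p w F) : IsMF 1 w (∑ q : Cosets p, conjF w F q) := by
  refine isMF_one_of (mdiff_sum _ fun q _ => mdiff_slash hF.holo w _) (fun γ => ?_)
    (bdd_sum _ fun q _ => hF.bdd _)
  rw [SlashAction.sum_slash]
  simp_rw [conjF_slash hF.inv γ]
  exact Equiv.sum_comp (cperm p γ) fun q => conjF w F q

/-- trace to level one, as a function -/
theorem conj_sum_eq (hF : IsMF p w F) :
    ∑ q : Cosets p, conjF w F q = F + (p : ℂ) • heckeU 0 p (twist p w F) := by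
  funext τ
  have hp : p ≠ 0 := NeZero.ne p
  rw [Finset.sum_apply, ← cosetPt_bijective.sum_comp (fun q => conjF w F q τ), Fintype.sum_option,
    conjF_cosetPt_none hF]
  simp only [conjF_cosetPt_some hF, Pi.add_apply, Pi.smul_apply, smul_eq_mul, heckeU_apply 0 hp]
  rw [← mul_assoc, mul_inv_cancel₀ (Nat.cast_ne_zero.mpr hp), one_mul,
    Finset.sum_range (fun j => twist p w F (heckeMatrix p j • τ))]
  refine congrArg _ (Finset.sum_congr rfl fun j _ => congrArg _ ?_)
  apply UpperHalfPlane.ext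
  rw [coe_aff, coe_heckeMatrix_smul hp]
  simp

/-- The trace of a form on Γ₀(p) is a form of level one; its q-expansion. -/
theorem exists_trace (hF : IsMF p w F) :
    ∃ T : ℍ → ℂ, IsMF 1 w T ∧ ∀ m, (qx T).coeff m
      = (qx F).coeff m + (p : ℂ) * (qx (twist p w F)).coeff (m * p) := by
  refine ⟨_, isMF_conj_sum hF, fun m => ?_⟩
  have hG := (isMF_twist hF).good
  have hsum : Good (∑ q : Cosets p, conjF w F q) := (isMF_conj_sum hF).good
  rw [conj_sum_eq hF] at hsum ⊢
  have hp : (p : ℂ) ≠ 0 := Nat.cast_ne_zero.mpr (NeZero.ne p)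
  have hU : Good (heckeU 0 p (twist p w F)) := by
    have := (hsum.sub hF.good).smul (p : ℂ)⁻¹
    simpa [smul_smul, inv_mul_cancel₀ hp] using this
  rw [Good.qx_add hF.good (hU.smul _), Good.qx_smul _ hU, map_add, PowerSeries.coeff_smul,
    smul_eq_mul]
  congr 2
  exact UpperHalfPlane.qCoeff_heckeU hG.per hG.holo hG.bdd 0 (NeZero.ne p) m

end Prime

/-! ### level one spaces -/

theorem levelOne_two_eq_zero {f : ℍ → ℂ} (hf : IsMF 1 2 f) : f = 0 := by
  obtain ⟨a, ha, haF⟩ := (rank_eq_zero_iff.mp levelOne_weight_two_rank_zero) hf.toLevelOne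
  have : hf.toLevelOne = 0 := (smul_eq_zero.mp haF).resolve_left ha
  have h := congrArg DFunLike.coe this
  simpa using h

theorem coeff_of_levelOne_four {f : ℍ → ℂ} (hf : IsMF 1 4 f) (n : ℕ) :
    (qx f).coeff n = (qx f).coeff 0 * (qx (E₄ : ℍ → ℂ)).coeff n := by
  set a := (qx f).coeff 0
  have hE := isMF_levelOne (E₄ : ModularForm 𝒮ℒ 4)
  have hg : IsMF 1 4 (f - a • (E₄ : ℍ → ℂ)) := Submodule.sub_mem (MF 1 4) hf ((MF 1 4).smul_mem a hE)
  have hq : ∀ m, (qx (f - a • (E₄ : ℍ → ℂ))).coeff m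
      = (qx f).coeff m - a * (qx (E₄ : ℍ → ℂ)).coeff m := fun m => by
    rw [Good.qx_sub hf.good (hE.good.smul a), Good.qx_smul a hE.good, map_sub,
      PowerSeries.coeff_smul, smul_eq_mul]
  have h0 : hg.toLevelOne = 0 := by
    refine sturm_bound_levelOne ?_
    have : (qx (f - a • (E₄ : ℍ → ℂ))).coeff 0 = 0 := by
      rw [hq, qx, EisensteinSeries.E_qExpansion_coeff_zero _ ⟨2, rfl⟩]; simp [a]
    rw [IsMF.coe_toLevelOne]
    simp only [show ((4 : ℤ).toNat / 12 : ℕ) = 0 from rfl, Nat.cast_zero]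
    rw [pos_iff_ne_zero]
    exact fun h => ((PowerSeries.order_eq_nat (n := 0)).mp (h.trans Nat.cast_zero.symm)).1 this
  have := hq n
  rw [show f - a • (E₄ : ℍ → ℂ) = 0 by simpa using congrArg DFunLike.coe h0] at this
  simp [qExpansion_zero] at this
  linear_combination -this

/-! ### the weight two Eisenstein series of level N -/

/-- `N E₂(Nτ) - E₂(τ)` -/
def eisTwo (N : ℕ) [NeZero N] : ℍ → ℂ := (N : ℂ) • dil N E2 - E2

theorem eisTwo_slash (N : ℕ) [NeZero N] (γ : SL(2, ℤ)) :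
    ∃ (γ' : SL(2, ℤ)) (A : ℕ) (B : ℤ) (D : ℕ) (_ : NeZero A) (_ : NeZero D),
      eisTwo N ∣[(2 : ℤ)] γ = fun τ => (N : ℂ) / (D : ℂ) ^ 2 * E2 (aff A B D τ) - E2 τ := by
  obtain ⟨γ', A, B, D, hA, hD, hAD, -, h00, h01, h10, h11⟩ := exists_hermite N γ
  refine ⟨γ', A, B, D, hA, hD, funext fun τ => ?_⟩
  obtain ⟨-, e2⟩ := scale_smul_eq N γ γ' A B D h00 h01 h10 h11 τ
  rw [eisTwo, sub_eq_add_neg, SlashAction.add_slash, SlashAction.neg_slash, SL_smul_slash,
    Pi.add_apply, Pi.smul_apply, Pi.neg_apply, dil_slash_gen _ N γ γ' A B D h00 h01 h10 h11 τ,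
    E2_slash_action, E2_slash_action]
  simp only [Pi.sub_apply, Pi.smul_apply, smul_eq_mul, D2, e2]
  have hd : denom (γ' : GL (Fin 2) ℝ) (aff A B D τ) ≠ 0 := denom_ne_zero _ (aff A B D τ)
  have hDc : (D : ℂ) ≠ 0 := Nat.cast_ne_zero.mpr (NeZero.ne D)
  have hNc : (N : ℂ) = (A : ℂ) * D := by exact_mod_cast hAD.symm
  have h10c : (γ 1 0 : ℂ) = (γ' 1 0 : ℂ) * A := by exact_mod_cast h10
  rw [h10c, hNc, zpow_neg, zpow_two]
  field_simp
  ring

theorem isMF_eisTwo (N : ℕ) [NeZero N] : IsMF N 2 (eisTwo N) where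
  holo := ((mdiff_dil E2_mdifferentiable N).const_smul _).sub E2_mdifferentiable
  inv γ hγ := by
    rw [Gamma0_mem, ZMod.intCast_zmod_eq_zero_iff_dvd] at hγ
    obtain ⟨c', hc'⟩ := hγ
    have hdet : γ 0 0 * γ 1 1 - γ 0 1 * γ 1 0 = 1 := by
      have := γ.prop; rwa [Matrix.det_fin_two] at this
    funext τ
    set γ' : SL(2, ℤ) := ⟨!![γ 0 0, (N : ℤ) * γ 0 1; c', γ 1 1], by
      simp [Matrix.det_fin_two]; rw [hc'] at hdet; linear_combination hdet⟩ with hγ'
    have h00 : (N : ℤ) * γ 0 0 = γ' 0 0 * N := by simp [γ', mul_comm]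
    have h01 : (N : ℤ) * γ 0 1 = γ' 0 0 * 0 + γ' 0 1 * ((1 : ℕ) : ℤ) := by simp [γ']
    have h10 : γ 1 0 = γ' 1 0 * N := by simp [γ', hc', mul_comm]
    have h11 : γ 1 1 = γ' 1 0 * 0 + γ' 1 1 * ((1 : ℕ) : ℤ) := by simp [γ']
    obtain ⟨-, e2⟩ := scale_smul_eq N γ γ' N 0 1 h00 h01 h10 h11 τ
    rw [eisTwo, sub_eq_add_neg, SlashAction.add_slash, SlashAction.neg_slash, SL_smul_slash,
      Pi.add_apply, Pi.smul_apply, Pi.neg_apply, dil_slash_gen _ N γ γ' N 0 1 h00 h01 h10 h11 τ,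
      E2_slash_action, E2_slash_action]
    simp only [Pi.sub_apply, Pi.smul_apply, smul_eq_mul, D2, e2, dil, scale, Pi.add_apply,
      Pi.neg_apply, Nat.cast_one, one_zpow, one_mul, mul_one]
    have h10c : (γ 1 0 : ℂ) = (γ' 1 0 : ℂ) * N := by exact_mod_cast h10
    rw [h10c]
    ring
  bdd γ := by
    obtain ⟨γ', A, B, D, hA, hD, h⟩ := eisTwo_slash N γ
    rw [h]
    exact (Asymptotics.IsBigO.const_mul_left
      (isBoundedAtImInfty_E2.comp_tendsto (tendsto_aff A B D)) _).sub isBoundedAtImInfty_E2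

theorem good_E2 : Good E2 where
  per := by
    intro z
    by_cases hz : 0 < z.im
    · have hz' : 0 < (z + 1).im := by simpa
      simp only [Function.comp_apply, ofComplex_apply_of_im_pos hz, ofComplex_apply_of_im_pos hz']
      have h := E2_slash_action ModularGroup.T
      have hT : D2 ModularGroup.T = 0 := by funext z; simp [D2, ModularGroup.T]
      rw [hT, smul_zero, sub_zero] at h
      have h2 := congrFun h ⟨z, hz⟩
      rw [← pow_one ModularGroup.T, slash_T_pow_apply] at h2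
      rw [← h2]
      congr 1
      apply UpperHalfPlane.ext; simp [coe_aff]
    · have hz' : (z + 1).im ≤ 0 := by simpa using hz
      simp only [Function.comp_apply]
      rw [ofComplex_apply_of_im_nonpos (not_lt.mp hz), ofComplex_apply_of_im_nonpos hz']
  holo := E2_mdifferentiable
  bdd := isBoundedAtImInfty_E2

theorem qx_E2 (m : ℕ) : (qx E2).coeff m = if m = 0 then 1 else -24 * (σ 1 m : ℂ) :=
  coeff_unique (c := fun m => if m = 0 then (1 : ℂ) else -24 * (σ 1 m : ℂ)) good_E2 (fun τ => by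
    simpa [Function.Periodic.qParam] using hasSum_qExpansion_E2 (z := τ)) m

/-- `d`-restricted divisor sum -/
def sigmaP (N n : ℕ) : ℤ :=
  (σ 1 n : ℤ) - if N ∣ n then (N : ℤ) * (σ 1 (n / N) : ℤ) else 0

theorem qx_eisTwo (N : ℕ) [NeZero N] (m : ℕ) :
    (qx (eisTwo N)).coeff m = if m = 0 then (N : ℂ) - 1 else 24 * (sigmaP N m : ℂ) := by
  have hN : 0 < N := Nat.pos_of_ne_zero (NeZero.ne N)
  refine coeff_unique (c := fun m => if m = 0 then (N : ℂ) - 1 else 24 * (sigmaP N m : ℂ))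
    (isMF_eisTwo N).good (fun τ => ?_) m
  have hE : ∀ z : ℍ, HasSum (fun m : ℕ ↦ (if m = 0 then (1 : ℂ) else -24 * σ 1 m) •
      Function.Periodic.qParam 1 (z : ℂ) ^ m) (E2 z) := fun z => by
    simpa [Function.Periodic.qParam] using hasSum_qExpansion_E2 (z := z)
  have hq : Function.Periodic.qParam 1 (scale N τ : ℂ) = Function.Periodic.qParam 1 (τ : ℂ) ^ N := by
    rw [coe_scale, Function.Periodic.qParam, Function.Periodic.qParam, ← Complex.exp_nat_mul]
    congr 1
    ring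
  set q := Function.Periodic.qParam 1 (τ : ℂ)
  have h1 : HasSum (fun m : ℕ => (if N ∣ m then (if m / N = 0 then (1 : ℂ) else -24 * σ 1 (m / N)) else 0)
      * q ^ m) (E2 (scale N τ)) := by
    rw [← Function.Injective.hasSum_iff (g := fun m : ℕ => N * m)
      (fun x y hxy => Nat.eq_of_mul_eq_mul_left hN hxy)
      (fun x hx => by
        have : ¬ N ∣ x := fun ⟨y, hy⟩ => hx ⟨y, hy.symm⟩
        simp [this])]
    convert! hE (scale N τ) using 1
    funext m
    simp only [Function.comp_apply, Nat.mul_div_cancel_left _ hN, hq, pow_mul, dvd_mul_right, if_true,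
      smul_eq_mul]
  have h2 := (h1.mul_left (N : ℂ)).sub (hE τ)
  convert! h2 using 1
  · funext m
    simp only [smul_eq_mul, sigmaP]
    rcases eq_or_ne m 0 with rfl | hm
    · simp
    · by_cases hd : N ∣ m
      · have : m / N ≠ 0 := fun h => hm (by rw [← Nat.div_mul_cancel hd, h, zero_mul])
        simp [hm, hd, this]; ring
      · simp [hm, hd]; ring

end FLTAgent.Periods.Eis
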