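import Fermat.Agent.Periods.Eis.Norm
import Fermat.Prelude.Def_ModularCurve_ModularUnit

/-!
A weight two cusp form on Γ₀(p) with integral coefficients congruent mod m to the Eisenstein
series forces m ∣ (p-1)/gcd(p-1,12).
-/

set_option autoImplicit false

noncomputable section

open UpperHalfPlane CongruenceSubgroup ModularForm
open scoped MatrixGroups ArithmeticFunction.sigma
open FLTAgent.ModFun

namespace FLTAgent.Periods.Eis

theorem sigma_one_prime {p : ℕ} (hp : p.Prime) : σ 1 p = 1 + p := by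
  rw [ArithmeticFunction.sigma_one_apply, hp.sum_divisors]; ring

theorem sigmaP_one {p : ℕ} (hp : p.Prime) : sigmaP p 1 = 1 := by
  simp [sigmaP, hp.not_dvd_one]

theorem sigmaP_sq {p : ℕ} (hp : p.Prime) : sigmaP p (p * p) = 1 := by
  have h2 : σ 1 (p * p) = 1 + p + p * p := by
    rw [ArithmeticFunction.sigma_one_apply, ← pow_two, Nat.sum_divisors_prime_pow hp]
    simp [Finset.sum_range_succ]
  rw [sigmaP, if_pos (dvd_mul_right p p), Nat.mul_div_cancel_left _ hp.pos, h2, sigma_one_prime hp]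
  push_cast
  ring

theorem arith_dvd {p g12 n : ℕ} (hn : n * g12 = p - 1) {q k e : ℕ} (hq : q.Prime)
    (hg : ∃ g', g12 = q ^ e * g' ∧ ¬ q ∣ g') (hdvd : q ^ (k + e) ∣ p - 1) : q ^ k ∣ n := by
  obtain ⟨g', rfl, hg'⟩ := hg
  rw [← hn, pow_add, mul_comm (q ^ e) g', ← mul_assoc] at hdvd
  have h1 : q ^ k ∣ n * g' := Nat.dvd_of_mul_dvd_mul_right (pow_pos hq.pos e) hdvd
  exact ((hq.coprime_iff_not_dvd.mpr hg').pow_left k).dvd_of_dvd_mul_right h1

theorem dvd_eisensteinNumerator {p : ℕ} [Fact p.Prime] (hp5 : 5 ≤ p) (m : ℕ)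
    (f : CuspForm (Gamma0 p) 2) (a : ℕ → ℤ) (ha : ∀ k, ModularFormClass.qCoeff f k = (a k : ℂ))
    (hcong : ∀ k, k ≠ 0 → (m : ℤ) ∣ sigmaP p k - a k) :
    m ∣ ModularCurve.eisensteinNumerator p := by
  have hp := (Fact.out : p.Prime)
  haveI : NeZero p := ⟨hp.ne_zero⟩
  have hf : IsMF p 2 (⇑f) := (isCF_of_form f).isMF
  have hE := isMF_eisTwo p
  set g : ℍ → ℂ := eisTwo p - (24 : ℂ) • ⇑f with hgdef
  have hg : IsMF p 2 g := Submodule.sub_mem (MF p 2) hE ((MF p 2).smul_mem _ hf)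
  set c : ℕ → ℤ := fun k => eisC p k - 24 * a k with hcdef
  have hc : ∀ k, (qx g).coeff k = (c k : ℂ) := fun k => by
    rw [hgdef, Good.qx_sub hE.good (hf.good.smul _), Good.qx_smul _ hf.good, map_sub,
      PowerSeries.coeff_smul, qx_eisTwo_eq, hcdef]
    have : (qx (⇑f)).coeff k = (a k : ℂ) := ha k
    rw [this]; push_cast; rfl
  have ha0 : a 0 = 0 := by
    have h := CuspFormClass.qExpansion_coeff_zero f one_pos
      (by simpa using CongruenceSubgroup.one_mem_strictPeriods_Gamma0 p)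
    have h' : (a 0 : ℂ) = 0 := (ha 0).symm.trans h
    exact_mod_cast h'
  have hc0 : c 0 = (p : ℤ) - 1 := by simp [hcdef, eisC, ha0]
  have hcm : ∀ k, k ≠ 0 → (24 * m : ℤ) ∣ c k := fun k hk => by
    have : c k = 24 * (sigmaP p k - a k) := by simp [hcdef, eisC, hk]; ring
    rw [this]
    exact mul_dvd_mul_left _ (hcong k hk)
  set γ := Nat.gcd (p - 1) 24
  -- first relation
  have hB : (m * γ : ℤ) ∣ (((p : ℤ) - 1) * ((p : ℤ) + 1)) * (10 * (p : ℤ) - 11) := by
    have h := eisenstein_relation m hg c hc hc0 hcm 1 one_ne_zero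
    rw [one_mul, show eisC p 1 = 24 by simp [eisC, sigmaP_one hp],
      show eisC p (p * p) = 24 by simp [eisC, sigmaP_sq hp, hp.ne_zero],
      ArithmeticFunction.sigma_one] at h
    have e : ((p : ℤ) - 1) * ((p : ℤ) * 24 + 24) -
        ((p : ℤ) + 1) * (((p : ℤ) - 1) * ((p : ℤ) - 1)) * (240 * ((1 : ℕ) : ℤ))
        = 24 * -((((p : ℤ) - 1) * ((p : ℤ) + 1)) * (10 * (p : ℤ) - 11)) := by push_cast; ring
    rw [e, mul_assoc] at h
    exact (dvd_neg.mp ((mul_dvd_mul_iff_left (by norm_num : (24 : ℤ) ≠ 0)).mp h))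
  have hcop : ¬ p ∣ m := by
    intro hpm
    have hpm' : (p : ℤ) ∣ (m : ℤ) := Int.natCast_dvd_natCast.mpr hpm
    have h1 := (dvd_mul_of_dvd_left hpm' (γ : ℤ)).trans hB
    have h11 : (p : ℤ) ∣ 11 := by
      have h2 : (p : ℤ) ∣ (p : ℤ) * (10 * (p : ℤ) ^ 2 - 11 * (p : ℤ) - 10) :=
        dvd_mul_right _ _
      have := dvd_sub h1 h2
      convert! this using 1
      ring
    have hp11 : p = 11 := by
      have : p ∣ 11 := by exact_mod_cast h11
      exact (Nat.prime_dvd_prime_iff_eq hp (by norm_num)).mp this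
    have h := eisenstein_relation m hg c hc hc0 hcm 2 two_ne_zero
    have e1 : eisC p 2 = 72 := by rw [hp11]; decide +kernel
    have e2 : eisC p (2 * p * p) = 72 := by rw [hp11]; decide +kernel
    have e3 : σ 3 2 = 9 := by decide +kernel
    rw [e1, e2, e3] at h
    have h3 : (p : ℤ) ∣ ((p : ℤ) - 1) * ((p : ℤ) * 72 + 72)
        - ((p : ℤ) + 1) * (((p : ℤ) - 1) * ((p : ℤ) - 1)) * (240 * ((9 : ℕ) : ℤ)) :=
      (dvd_mul_of_dvd_left (dvd_mul_of_dvd_right hpm' 24) _).trans h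
    rw [hp11] at h3
    norm_num at h3
  -- second relation
  have hC : (24 * m : ℤ) ∣ ((p : ℤ) - 1) * ((p : ℤ) + 1) := by
    have h := delta_relation m hg c hc hc0 hcm
    have hco : IsCoprime (24 * m : ℤ) ((p : ℤ) ^ 11) := by
      refine IsCoprime.pow_right ?_
      rw [Int.isCoprime_iff_gcd_eq_one]
      have h24 : ¬ p ∣ 24 := fun h' => by
        have h'' : p ∣ 2 ^ 3 * 3 := by simpa using h'
        rcases hp.dvd_mul.mp h'' with h1 | h1
        · have := Nat.le_of_dvd (by norm_num) (hp.dvd_of_dvd_pow h1); omega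
        · have := Nat.le_of_dvd (by norm_num) h1; omega
      have hco' : Nat.Coprime p (24 * m) :=
        Nat.Coprime.mul_right (hp.coprime_iff_not_dvd.mpr h24) (hp.coprime_iff_not_dvd.mpr hcop)
      exact_mod_cast hco'.symm
    have h2 := hco.dvd_of_dvd_mul_right h
    convert! h2 using 1
    ring
  have hP1 : ((p - 1 : ℕ) : ℤ) = (p : ℤ) - 1 := by rw [Nat.cast_sub hp.one_le]; simp
  have hCn : 24 * m ∣ (p - 1) * (p + 1) := by
    rw [← Int.natCast_dvd_natCast, Nat.cast_mul, Nat.cast_mul, hP1]; exact_mod_cast hC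
  have hn : ModularCurve.eisensteinNumerator p * Nat.gcd (p - 1) 12 = p - 1 :=
    Nat.div_mul_cancel (Nat.gcd_dvd_left _ _)
  rw [Nat.dvd_iff_prime_pow_dvd_dvd]
  intro q k hq hqk
  rcases Nat.eq_zero_or_pos k with rfl | hk
  · simp
  have hqm : q ∣ m := (dvd_pow_self q hk.ne').trans hqk
  have hqp : ¬ q ∣ p := fun h => by
    rw [(Nat.prime_dvd_prime_iff_eq hq hp).mp h] at hqm; exact hcop hqm
  have hqC : 24 * q ∣ (p - 1) * (p + 1) := (mul_dvd_mul_left 24 hqm).trans hCn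
  have hckq : ∀ j, j ≠ 0 → (24 * q : ℤ) ∣ c j := fun j hj =>
    (mul_dvd_mul_left 24 (Int.natCast_dvd_natCast.mpr hqm)).trans (hcm j hj)
  have hγ12 : ∀ e : ℕ, q ^ e ∣ p - 1 → q ^ e ∣ 24 →
      ((q : ℤ) ^ (k + e)) ∣ (((p : ℤ) - 1) * ((p : ℤ) + 1)) * (10 * (p : ℤ) - 11) := fun e h1 h2 => by
    rw [pow_add]
    refine (mul_dvd_mul ?_ ?_).trans hB
    · exact_mod_cast hqk
    · exact_mod_cast Nat.dvd_gcd h1 h2
  have hqZ : Prime (q : ℤ) := Nat.prime_iff_prime_int.mp hq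
  -- `q^(k+e)` divides `p - 1`
  have hstrip : ∀ e : ℕ, q ∣ p - 1 → ¬ q ∣ 2 → q ^ e ∣ p - 1 → q ^ e ∣ 24 → q ^ (k + e) ∣ p - 1 := by
    intro e hq1 hq2 he1 he2
    have h := hγ12 e he1 he2
    have hq1' : (q : ℤ) ∣ (p : ℤ) - 1 := hP1 ▸ Int.natCast_dvd_natCast.mpr hq1
    have a1 : ¬ (q : ℤ) ∣ (p : ℤ) + 1 := fun h' => hq2 (by
      have : (q : ℤ) ∣ 2 := by have := dvd_sub h' hq1'; simpa using this
      exact_mod_cast this)
    have a2 : ¬ (q : ℤ) ∣ 10 * (p : ℤ) - 11 := fun h' => hqZ.not_isUnit (isUnit_of_dvd_one (by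
      have h'' := dvd_sub (dvd_mul_of_dvd_right hq1' 10) h'
      ring_nf at h''
      exact h''))
    have c1 := ((hqZ.coprime_iff_not_dvd.mpr a2).pow_left (m := k + e)).dvd_of_dvd_mul_right h
    have c2 := ((hqZ.coprime_iff_not_dvd.mpr a1).pow_left (m := k + e)).dvd_of_dvd_mul_right c1
    rw [← hP1] at c2
    exact_mod_cast c2
  rcases eq_or_ne q 2 with rfl | hq2
  · by_cases h8 : 8 ∣ p - 1
    · have h := hγ12 3 (by simpa using h8) (by norm_num)
      have a2 : ¬ (2 : ℤ) ∣ 10 * (p : ℤ) - 11 := by omega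
      have c1 : (2 : ℤ) ^ (k + 3) ∣ ((p : ℤ) - 1) * ((p : ℤ) + 1) :=
        ((Int.prime_two.coprime_iff_not_dvd.mpr a2).pow_left (m := k + 3)).dvd_of_dvd_mul_right
          (by exact_mod_cast h)
      obtain ⟨t, ht⟩ : (8 : ℤ) ∣ (p : ℤ) - 1 := hP1 ▸ (Int.natCast_dvd_natCast.mpr h8)
      have c2 : (2 : ℤ) ^ (k + 2) * 2 ∣ (((p : ℤ) - 1) * (4 * t + 1)) * 2 := by
        have e1 : (2 : ℤ) ^ (k + 2) * 2 = 2 ^ (k + 3) := by ring
        have e2 : (((p : ℤ) - 1) * (4 * t + 1)) * 2 = ((p : ℤ) - 1) * ((p : ℤ) + 1) := by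
          rw [show ((p : ℤ)) = 8 * t + 1 by linarith]; ring
        rw [e1, e2]; exact c1
      have c3 := (mul_dvd_mul_iff_right (by norm_num : (2 : ℤ) ≠ 0)).mp c2
      have c4 := ((Int.prime_two.coprime_iff_not_dvd.mpr
        (show ¬ (2 : ℤ) ∣ 4 * t + 1 by omega)).pow_left (m := k + 2)).dvd_of_dvd_mul_right c3
      rw [← hP1] at c4
      refine arith_dvd (e := 2) hn hq ?_ (by exact_mod_cast c4)
      obtain ⟨g', hg'⟩ : 4 ∣ Nat.gcd (p - 1) 12 := Nat.dvd_gcd (by omega) (by norm_num)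
      refine ⟨g', hg', fun hd => ?_⟩
      have : 8 ∣ 12 := (show 8 ∣ Nat.gcd (p - 1) 12 by omega).trans (Nat.gcd_dvd_right _ _)
      omega
    · exfalso
      have hodd : p % 2 = 1 := Nat.odd_iff.mp (hp.odd_of_ne_two (by omega))
      have h16 : 16 ∣ (p - 1) * (p + 1) := (show 16 ∣ 24 * 2 by norm_num).trans hqC
      by_cases h4 : 4 ∣ p - 1
      · obtain ⟨t, ht⟩ := h4
        have ht' : t % 2 = 1 := by omega
        have e : (p - 1) * (p + 1) = 8 * (t * (2 * t + 1)) := by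
          rw [show p + 1 = 2 * (2 * t + 1) by omega, ht]; ring
        rw [e] at h16
        have h2 : 2 ∣ t * (2 * t + 1) := Nat.dvd_of_mul_dvd_mul_left (by norm_num : 0 < 8) h16
        rcases Nat.prime_two.dvd_mul.mp h2 with h | h <;> omega
      · obtain ⟨s, hs⟩ : 4 ∣ p + 1 := by omega
        have e : (p - 1) * (p + 1) = 8 * ((2 * s - 1) * s) := by
          rw [show p - 1 = 2 * (2 * s - 1) by omega, hs]; ring
        rw [e] at h16
        have h2 : 2 ∣ (2 * s - 1) * s := Nat.dvd_of_mul_dvd_mul_left (by norm_num : 0 < 8) h16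
        have hs2 : 2 ∣ s := by
          rcases Nat.prime_two.dvd_mul.mp h2 with h | h
          · omega
          · exact h
        haveI : Fact (Nat.Prime 3) := ⟨Nat.prime_three⟩
        refine norm_contradiction hg c hc hc0 3 le_rfl 2 Nat.prime_two hqp (by norm_num) 8
          (((2 * s - 1 : ℕ) : ℤ)) (3 * ((2 * s - 1 : ℕ) : ℤ)) ((2 * s - 1 : ℕ) : ℤ) (by norm_num)
          (fun j hj => (show (8 * 2 : ℤ) ∣ 24 * 2 by norm_num).trans (hckq j hj)) ?_ ?_ (by ring) ?_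
          (by push_cast; ring) ?_
        · have hC2 : (24 * (2 : ℕ) : ℤ) ∣ ((p : ℤ) - 1) * ((p : ℤ) + 1) :=
            (mul_dvd_mul_left 24 (Int.natCast_dvd_natCast.mpr hqm)).trans hC
          exact (show (8 * ((2 : ℕ) : ℤ)) ∣ 24 * ((2 : ℕ) : ℤ) by norm_num).trans hC2
        · push_cast; omega
        · push_cast; omega
        · push_cast; omega
  rcases eq_or_ne q 3 with rfl | hq3
  · by_cases h3 : 3 ∣ p - 1
    · refine arith_dvd (e := 1) hn hq ?_ (hstrip 1 h3 (by norm_num) (by simpa using h3) (by norm_num))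
      obtain ⟨g', hg'⟩ : 3 ∣ Nat.gcd (p - 1) 12 := Nat.dvd_gcd h3 (by norm_num)
      refine ⟨g', by simpa using hg', fun hd => ?_⟩
      have : 9 ∣ 12 := (show 9 ∣ Nat.gcd (p - 1) 12 by omega).trans (Nat.gcd_dvd_right _ _)
      omega
    · exfalso
      have h9 : 9 ∣ (p - 1) * (p + 1) := (show 9 ∣ 24 * 3 by norm_num).trans hqC
      have h9' : 9 ∣ p + 1 :=
        ((Nat.prime_three.coprime_iff_not_dvd.mpr h3).pow_left 2).dvd_of_dvd_mul_left (by simpa using h9)
      haveI : Fact (Nat.Prime 2) := ⟨Nat.prime_two⟩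
      refine norm_contradiction hg c hc hc0 2 (by norm_num) 3 Nat.prime_three hqp (by norm_num) 3
        ((p : ℤ) - 1) (8 * ((p : ℤ) - 1)) ((p : ℤ) - 1) (by norm_num)
        (fun j hj => (show (3 * 3 : ℤ) ∣ 24 * 3 by norm_num).trans (hckq j hj)) ?_ (by push_cast; ring)
        (by ring) ?_ (by push_cast; ring) ?_
      · refine dvd_mul_of_dvd_right ?_ _
        push_cast; omega
      · push_cast; omega
      · push_cast; omega
  have hq5 : 5 ≤ q := by
    have := hq.two_le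
    rcases eq_or_ne q 4 with rfl | h4
    · norm_num at hq
    · omega
  have hndvd : ∀ {b : ℕ}, b ∣ 24 → 0 < b → ¬ q ∣ b := fun {b} hb h0 hd => by
    have hd' : q ∣ 24 := hd.trans hb
    have h2 : q ∣ 2 * 2 * 2 * 3 := by simpa using hd'
    rcases hq.dvd_mul.mp h2 with h | h
    · rcases hq.dvd_mul.mp h with h | h
      · rcases hq.dvd_mul.mp h with h | h <;>
          exact hq2 ((Nat.prime_dvd_prime_iff_eq hq Nat.prime_two).mp h)
      · exact hq2 ((Nat.prime_dvd_prime_iff_eq hq Nat.prime_two).mp h)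
    · exact hq3 ((Nat.prime_dvd_prime_iff_eq hq Nat.prime_three).mp h)
  by_cases hq1 : q ∣ p - 1
  · refine arith_dvd (e := 0) hn hq ⟨Nat.gcd (p - 1) 12, by simp, fun hd => ?_⟩
      (hstrip 0 hq1 (hndvd (by norm_num) (by norm_num)) (by simp) (by simp))
    exact hndvd (b := 12) (by norm_num) (by norm_num) (hd.trans (Nat.gcd_dvd_right _ _))
  · exfalso
    have hqd : q ∣ (p - 1) * (p + 1) := (dvd_mul_left q 24).trans hqC
    have hq1' : ¬ (q : ℤ) ∣ (p : ℤ) - 1 := by rw [← hP1]; exact_mod_cast hq1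
    have hq24 : ¬ (q : ℤ) ∣ 24 := by exact_mod_cast hndvd (b := 24) dvd_rfl (by norm_num)
    have hq3' : ¬ (q : ℤ) ∣ 3 := by exact_mod_cast hndvd (b := 3) (by norm_num) (by norm_num)
    haveI : Fact (Nat.Prime 2) := ⟨Nat.prime_two⟩
    refine norm_contradiction hg c hc hc0 2 (by norm_num) q hq hqp
      (fun h => hq2 ((Nat.prime_dvd_prime_iff_eq hq Nat.prime_two).mp h)) 1
      ((p : ℤ) - 1) (24 * ((p : ℤ) - 1)) (3 * ((p : ℤ) - 1)) one_ne_zero
      (fun j hj => by rw [one_mul]; exact (dvd_mul_left _ _).trans (hckq j hj)) ?_ (by push_cast; ring)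
      (by ring) ?_ (by push_cast; ring) ?_
    · rw [one_mul, ← hP1]
      exact_mod_cast hqd
    · exact fun h => (hqZ.dvd_or_dvd h).elim hq24 hq1'
    · exact fun h => (hqZ.dvd_or_dvd h).elim hq3' hq1'

end FLTAgent.Periods.Eis
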