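import Fermat.Agent.Periods.Eis.Hecke
import Fermat.Prelude.Def_ModularCurve_ModularUnit
import Mathlib.RingTheory.IntegralDomain
import Mathlib.GroupTheory.SpecificGroups.Cyclic

/-!
The Eisenstein homomorphism `Γ₀(p) → ℤ/n`.
-/

set_option autoImplicit false

noncomputable section

open CongruenceSubgroup ModularCurve ModularCurve.Period Matrix.SpecialLinearGroup
open scoped MatrixGroups

namespace FLTAgent.Periods

variable (p : ℕ) [Fact p.Prime]

theorem Gamma0_unit (γ : Gamma0 p) :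
    ((((γ : SL(2, ℤ)) 0 0 : ℤ)) : ZMod p) * (((γ : SL(2, ℤ)) 1 1 : ℤ) : ZMod p) = 1 := by
  have h := (γ : SL(2, ℤ)).det_coe
  rw [Matrix.det_fin_two] at h
  have := congrArg (Int.cast : ℤ → ZMod p) h
  push_cast at this
  linear_combination this + (((γ : SL(2, ℤ)) 0 1 : ℤ) : ZMod p) * (Gamma0_mem.mp γ.2)

/-- The upper left entry modulo `p`. -/
def diagUnit : Gamma0 p →* (ZMod p)ˣ where
  toFun γ := ⟨(((γ : SL(2, ℤ)) 0 0 : ℤ) : ZMod p), (((γ : SL(2, ℤ)) 1 1 : ℤ) : ZMod p),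
    Gamma0_unit p γ, by rw [mul_comm]; exact Gamma0_unit p γ⟩
  map_one' := by ext; simp
  map_mul' γ δ := by
    ext
    simp only [Units.val_mul]
    rw [Subgroup.coe_mul, Matrix.SpecialLinearGroup.coe_mul, Matrix.mul_apply, Fin.sum_univ_two]
    push_cast
    linear_combination (((γ : SL(2, ℤ)) 0 1 : ℤ) : ZMod p) * (Gamma0_mem.mp δ.2)

theorem coe_diagUnit (γ : Gamma0 p) :
    ((diagUnit p γ : (ZMod p)ˣ) : ZMod p) = (((γ : SL(2, ℤ)) 0 0 : ℤ) : ZMod p) := rfl

theorem diagUnit_surjective : Function.Surjective (diagUnit p) := by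
  intro u
  obtain ⟨a, ha⟩ := ZMod.intCast_surjective (u : ZMod p)
  obtain ⟨d, hd⟩ := ZMod.intCast_surjective ((u⁻¹ : (ZMod p)ˣ) : ZMod p)
  have h : (p : ℤ) ∣ a * d - 1 := by
    rw [← ZMod.intCast_zmod_eq_zero_iff_dvd]
    push_cast
    rw [ha, hd, Units.mul_inv, sub_self]
  obtain ⟨k, hk⟩ := h
  refine ⟨⟨⟨!![a, k; (p : ℤ), d], ?_⟩, Gamma0_mem.mpr (by simp)⟩, Units.ext ?_⟩
  · rw [Matrix.det_fin_two_of]; linarith
  · simpa [coe_diagUnit] using ha

theorem card_units_eq : Nat.card (ZMod p)ˣ = p - 1 := by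
  rw [Nat.card_eq_fintype_card, ZMod.card_units]

theorem numerator_dvd_card : eisensteinNumerator p ∣ Nat.card (ZMod p)ˣ := by
  rw [card_units_eq]; exact eisensteinNumerator_dvd p

/-- A discrete logarithm modulo the numerator. -/
def unitLog : Additive (ZMod p)ˣ →+ ZMod (eisensteinNumerator p) :=
  ((ZMod.castHom (numerator_dvd_card p) (ZMod (eisensteinNumerator p))).toAddMonoidHom).comp
    (AddMonoidHom.mk' (fun x => Multiplicative.toAdd
      ((zmodCyclicMulEquiv (inferInstance : IsCyclic (ZMod p)ˣ)).symm (Additive.toMul x)))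
      (fun x y => by rw [toMul_add, map_mul, toAdd_mul]))

theorem unitLog_surjective : Function.Surjective (unitLog p) := by
  intro t
  obtain ⟨x, rfl⟩ := ZMod.castHom_surjective (numerator_dvd_card p) t
  exact ⟨Additive.ofMul (zmodCyclicMulEquiv (inferInstance : IsCyclic (ZMod p)ˣ)
    (Multiplicative.ofAdd x)), by simp [unitLog]⟩

theorem unitLog_eq_zero {u : (ZMod p)ˣ} (hu : u ^ 12 = 1) : unitLog p (Additive.ofMul u) = 0 := by
  have hp := (Fact.out : p.Prime)
  haveI : NeZero (Nat.card (ZMod p)ˣ) := ⟨by rw [card_units_eq]; have := hp.two_le; omega⟩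
  set x : ZMod (Nat.card (ZMod p)ˣ) := Multiplicative.toAdd
    ((zmodCyclicMulEquiv (inferInstance : IsCyclic (ZMod p)ˣ)).symm u) with hx
  have h0 : (12 : ℕ) • x = 0 := by rw [hx, ← toAdd_pow, ← map_pow, hu, map_one, toAdd_one]
  have h1 : Nat.card (ZMod p)ˣ ∣ 12 * x.val := by
    rw [← ZMod.natCast_eq_zero_iff]
    push_cast
    rw [ZMod.natCast_zmod_val, ← h0, nsmul_eq_mul]
    norm_num
  replace h1 : p - 1 ∣ 12 * x.val := (card_units_eq p).symm.dvd.trans h1
  have hg : 0 < Nat.gcd (p - 1) 12 := Nat.gcd_pos_of_pos_right _ (by norm_num)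
  obtain ⟨h, hh⟩ := Nat.gcd_dvd_right (p - 1) 12
  have hn : eisensteinNumerator p * Nat.gcd (p - 1) 12 = p - 1 :=
    Nat.div_mul_cancel (Nat.gcd_dvd_left _ _)
  have hco : Nat.Coprime (eisensteinNumerator p) h := by
    have := Nat.coprime_div_gcd_div_gcd (m := p - 1) (n := 12) hg
    have e : 12 / Nat.gcd (p - 1) 12 = h := Nat.div_eq_of_eq_mul_right hg hh
    rw [e] at this
    exact this
  have h2 : eisensteinNumerator p * Nat.gcd (p - 1) 12 ∣ (h * x.val) * Nat.gcd (p - 1) 12 := by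
    rw [hn]
    refine h1.trans (dvd_of_eq ?_)
    nth_rewrite 1 [hh]
    ring
  have h3 : eisensteinNumerator p ∣ x.val :=
    hco.dvd_of_dvd_mul_left (Nat.dvd_of_mul_dvd_mul_right hg h2)
  show (ZMod.castHom (numerator_dvd_card p) (ZMod (eisensteinNumerator p))) x = 0
  rw [← ZMod.natCast_zmod_val x, map_natCast, ZMod.natCast_eq_zero_iff]
  exact h3

/-- The Eisenstein homomorphism. -/
def eisHom : Additive (Gamma0 p) →+ ZMod (eisensteinNumerator p) :=
  (unitLog p).comp (MonoidHom.toAdditive (diagUnit p))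

theorem eisHom_apply (γ : Gamma0 p) :
    eisHom p (Additive.ofMul γ) = unitLog p (Additive.ofMul (diagUnit p γ)) := rfl

theorem eisHom_surjective : Function.Surjective (eisHom p) :=
  (unitLog_surjective p).comp (fun u => by
    obtain ⟨γ, hγ⟩ := diagUnit_surjective p (Additive.toMul u)
    exact ⟨Additive.ofMul γ, congrArg Additive.ofMul hγ⟩)

theorem eisHom_parabolic : IsParabolicHom (Gamma0 p) (eisHom p) := by
  intro γ hγ
  rw [eisHom_apply]
  refine unitLog_eq_zero p (Units.ext ?_)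
  rw [Units.val_pow_eq_pow_val, coe_diagUnit, Units.val_one]
  rw [Matrix.trace_fin_two] at hγ
  have h := congrArg (Int.cast : ℤ → ZMod p) hγ
  push_cast at h
  have hu := Gamma0_unit p γ
  set a := (((γ : SL(2, ℤ)) 0 0 : ℤ) : ZMod p)
  set d := (((γ : SL(2, ℤ)) 1 1 : ℤ) : ZMod p)
  have hd : (a - d) ^ 2 = 0 := by linear_combination h - 4 * hu
  have had : a = d := sub_eq_zero.mp (eq_zero_of_pow_eq_zero hd)
  have h2 : a ^ 2 = 1 := by rw [← hu, had]; ring
  calc a ^ 12 = (a ^ 2) ^ 6 := by ring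
    _ = 1 := by rw [h2, one_pow]

/-- Sum of the Eisenstein homomorphism over a Hecke correspondence. -/
theorem CosetReps.sum_eisHom {ι : Type} [Fintype ι] (C : CosetReps p ι) (a b : ι → ℤ)
    (h00 : ∀ i, C.rep i 0 0 = (a i : ℝ)) (h01 : ∀ i, C.rep i 0 1 = (b i : ℝ))
    (h10 : ∀ i, C.rep i 1 0 = 0) (hu : ∀ i, IsUnit ((a i : ℤ) : ZMod p)) (γ : Gamma0 p)
    {σ : ι ≃ ι} {g : ι → Gamma0 p}
    (hg : ∀ i, C.rep i * mapGL ℝ ((γ : Gamma0 p) : SL(2, ℤ))
      = mapGL ℝ ((g i : Gamma0 p) : SL(2, ℤ)) * C.rep (σ i)) :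
    ∑ i, eisHom p (Additive.ofMul (g i)) = Fintype.card ι • eisHom p (Additive.ofMul γ) := by
  have key : ∀ i, (hu i).unit * diagUnit p γ = diagUnit p (g i) * (hu (σ i)).unit := by
    intro i
    refine Units.ext ?_
    rw [Units.val_mul, Units.val_mul, IsUnit.unit_spec, IsUnit.unit_spec, coe_diagUnit, coe_diagUnit]
    have h := congrArg (fun M : GL (Fin 2) ℝ => M 0 0) (hg i)
    simp [Matrix.mul_apply, Fin.sum_univ_two, h00, h01, h10] at h
    have h' : a i * (γ : SL(2, ℤ)) 0 0 + b i * (γ : SL(2, ℤ)) 1 0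
        = (g i : SL(2, ℤ)) 0 0 * a (σ i) := by exact_mod_cast h
    have h'' := congrArg (Int.cast : ℤ → ZMod p) h'
    push_cast at h''
    linear_combination h'' - ((b i : ℤ) : ZMod p) * (Gamma0_mem.mp γ.2)
  have key' : ∀ i, eisHom p (Additive.ofMul (g i)) = unitLog p (Additive.ofMul (hu i).unit)
      + eisHom p (Additive.ofMul γ) - unitLog p (Additive.ofMul (hu (σ i)).unit) := fun i => by
    have := congrArg (fun u => unitLog p (Additive.ofMul u)) (key i)
    simp only [ofMul_mul, map_add] at this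
    rw [eisHom_apply, eisHom_apply, this]
    abel
  simp only [key', Finset.sum_sub_distrib, Finset.sum_add_distrib,
    Equiv.sum_comp σ (fun i => unitLog p (Additive.ofMul (hu i).unit)), Finset.sum_const,
    Finset.card_univ]
  abel

end FLTAgent.Periods
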