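import Fermat.Agent.Periods.Eis.EisHom
import Fermat.Agent.Periods.EichlerShimura

/-!
The Eisenstein homomorphism lifts to an integral parabolic homomorphism.
-/

set_option autoImplicit false

noncomputable section

open CongruenceSubgroup ModularCurve ModularCurve.Period
open scoped MatrixGroups

namespace FLTAgent.Periods

variable (p : ℕ) [Fact p.Prime]

theorem eisHom_eq_zero_of_trace {γ : Gamma0 p}
    (h : ((γ : SL(2, ℤ)) : Matrix (Fin 2) (Fin 2) ℤ).trace ^ 2 ∈ ({0, 1, 4} : Set ℤ)) :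
    eisHom p (Additive.ofMul γ) = 0 := by
  simp only [Set.mem_insert_iff, Set.mem_singleton_iff] at h
  rcases h with h | h | h
  rotate_right
  · exact eisHom_parabolic p γ h
  all_goals
    rw [eisHom_apply]
    refine unitLog_eq_zero p (Units.ext ?_)
    rw [Units.val_pow_eq_pow_val, coe_diagUnit, Units.val_one]
    rw [Matrix.trace_fin_two] at h
    have h' := congrArg (Int.cast : ℤ → ZMod p) h
    push_cast at h'
    have hu := Gamma0_unit p γ
    set a := (((γ : SL(2, ℤ)) 0 0 : ℤ) : ZMod p)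
    set d := (((γ : SL(2, ℤ)) 1 1 : ℤ) : ZMod p)
  · have h2 : a ^ 4 = 1 := by
      have h1 : a + d = 0 := eq_zero_of_pow_eq_zero h'
      linear_combination (a ^ 2 - 1) * a * h1 + (1 - a ^ 2) * hu
    calc a ^ 12 = (a ^ 4) ^ 3 := by ring
      _ = 1 := by rw [h2, one_pow]
  · have h1 : (a + d - 1) * (a + d + 1) = 0 := by linear_combination h'
    rcases mul_eq_zero.mp h1 with h1 | h1
    · have h3 : a ^ 3 = -1 := by linear_combination (a ^ 2 + a) * h1 - (a + 1) * hu
      calc a ^ 12 = (a ^ 3) ^ 4 := by ring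
        _ = 1 := by rw [h3]; ring
    · have h3 : a ^ 3 = 1 := by linear_combination (a ^ 2 - a) * h1 - (a - 1) * hu
      calc a ^ 12 = (a ^ 3) ^ 4 := by ring
        _ = 1 := by rw [h3]; ring

local notation "G2" => SL(2, ℤ)
local notation "XX" => SL(2, ℤ) ⧸ Gamma0 p

theorem trace_conj_out (g : G2) (x : XX) :
    ((x.out⁻¹ * g * x.out : G2) : Matrix (Fin 2) (Fin 2) ℤ).trace
      = (g : Matrix (Fin 2) (Fin 2) ℤ).trace := by
  rw [Matrix.SpecialLinearGroup.coe_mul, Matrix.trace_mul_comm, ← Matrix.SpecialLinearGroup.coe_mul,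
    ← mul_assoc, mul_inv_cancel, one_mul]

theorem shapiro_eis_of_fixed (g : G2) (x : XX) (hx : g • x = x)
    (hg : (g : Matrix (Fin 2) (Fin 2) ℤ).trace ^ 2 ∈ ({0, 1, 4} : Set ℤ)) :
    shapiro (eisHom p) g x = 0 := by
  refine eisHom_eq_zero_of_trace p ?_
  simpa only [hx, trace_conj_out] using hg

theorem base_smul_T : ModularGroup.T • (QuotientGroup.mk 1 : XX) = QuotientGroup.mk 1 := by
  rw [MulAction.Quotient.smul_mk, QuotientGroup.eq, smul_eq_mul, mul_one, mul_one, inv_mem_iff,
    Gamma0_mem]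
  simp [ModularGroup.T]

theorem base_smul_S_ne : ModularGroup.S • (QuotientGroup.mk 1 : XX) ≠ QuotientGroup.mk 1 := by
  haveI := Fact.out (p := p.Prime)
  rw [ne_eq, MulAction.Quotient.smul_mk, QuotientGroup.eq, smul_eq_mul, mul_one, mul_one,
    inv_mem_iff, Gamma0_mem]
  simp [ModularGroup.S]

theorem base_smul_U : eltU • (QuotientGroup.mk 1 : XX) = ModularGroup.S • QuotientGroup.mk 1 := by
  rw [eltU, mul_smul, base_smul_T]

theorem trace_neg_one : ((-1 : G2) : Matrix (Fin 2) (Fin 2) ℤ).trace ^ 2 = 4 := by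
  simp [Matrix.trace_fin_two]

theorem trace_S : ((ModularGroup.S : G2) : Matrix (Fin 2) (Fin 2) ℤ).trace ^ 2 = 0 := by
  simp [Matrix.trace_fin_two, ModularGroup.S]

theorem trace_eltU : ((eltU : G2) : Matrix (Fin 2) (Fin 2) ℤ).trace ^ 2 = 1 := by
  decide

theorem shapiro_S_add (x : XX) :
    shapiro (eisHom p) ModularGroup.S x + shapiro (eisHom p) ModularGroup.S (ModularGroup.S • x)
      = 0 := by
  haveI : NeZero p := ⟨(Fact.out : p.Prime).ne_zero⟩
  have h := shapiro_mul (eisHom p) ModularGroup.S ModularGroup.S x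
  rw [S_mul_S, shapiro_eq_zero_of_parabolic (eisHom_parabolic p) _ _ (neg_one_smul_coset x)
    (trace_neg_one)] at h
  rw [add_comm]; exact h.symm

theorem shapiro_U_add (x : XX) :
    shapiro (eisHom p) eltU x + shapiro (eisHom p) eltU (eltU • x)
      + shapiro (eisHom p) eltU (eltU • eltU • x) = 0 := by
  haveI : NeZero p := ⟨(Fact.out : p.Prime).ne_zero⟩
  have h := shapiro_mul (eisHom p) eltU (eltU * eltU) x
  rw [eltU_pow_three, shapiro_eq_zero_of_parabolic (eisHom_parabolic p) _ _ (neg_one_smul_coset x)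
    (trace_neg_one), shapiro_mul, mul_smul] at h
  rw [h]; abel

theorem exists_lift_A : ∃ a : XX → ℤ, (∀ x, a x + a (ModularGroup.S • x) = 0) ∧
    ∀ x, (a x : ZMod (eisensteinNumerator p)) = shapiro (eisHom p) ModularGroup.S x := by
  classical
  haveI : NeZero p := ⟨(Fact.out : p.Prime).ne_zero⟩
  haveI : Finite XX := Subgroup.finite_quotient_of_finiteIndex
  letI := Fintype.ofFinite XX
  let r := Fintype.equivFin XX
  let v : XX → ℤ := fun x => (shapiro (eisHom p) ModularGroup.S x).cast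
  refine ⟨fun x => if r x < r (ModularGroup.S • x) then v x
    else if r (ModularGroup.S • x) < r x then -v (ModularGroup.S • x) else 0,
    fun x => ?_, fun x => ?_⟩
  · simp only [S_smul_S_smul]
    rcases lt_trichotomy (r x) (r (ModularGroup.S • x)) with h | h | h
    · simp [h, h.not_gt]
    · simp [h]
    · simp [h, h.not_gt]
  · rcases lt_trichotomy (r x) (r (ModularGroup.S • x)) with h | h | h
    · simp [h, v]
    · rw [shapiro_eis_of_fixed p _ x (r.injective h).symm (by simp [trace_S])]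
      simp [h]
    · simp only [h, h.not_gt, if_true, if_false, v, Int.cast_neg, ZMod.intCast_zmod_cast]
      exact (eq_neg_of_add_eq_zero_left (shapiro_S_add p x)).symm

theorem exists_lift_B : ∃ b : XX → ℤ, (∀ x, b x + b (eltU • x) + b (eltU • eltU • x) = 0) ∧
    ∀ x, (b x : ZMod (eisensteinNumerator p)) = shapiro (eisHom p) eltU x := by
  classical
  haveI : NeZero p := ⟨(Fact.out : p.Prime).ne_zero⟩
  haveI : Finite XX := Subgroup.finite_quotient_of_finiteIndex
  letI := Fintype.ofFinite XX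
  let r := Fintype.equivFin XX
  let v : XX → ℤ := fun x => (shapiro (eisHom p) eltU x).cast
  refine ⟨fun x => if eltU • x = x then 0
    else if r x < r (eltU • x) ∧ r x < r (eltU • eltU • x) then v x
    else if r (eltU • eltU • x) < r x ∧ r (eltU • eltU • x) < r (eltU • x) then v x
    else -v (eltU • x) - v (eltU • eltU • x), fun x => ?_, fun x => ?_⟩
  · simp only [eltU_smul_three]
    by_cases hx : eltU • x = x
    · simp [hx]
    have h1 : eltU • eltU • x ≠ eltU • x := fun h => hx (MulAction.injective eltU h)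
    have h2 : x ≠ eltU • eltU • x := fun h => by
      have := congrArg (eltU • ·) h
      simp only [eltU_smul_three] at this
      exact hx this
    simp only [hx, h1, h2, if_false]
    have n1 : r (eltU • x) ≠ r x := fun h => hx (r.injective h)
    have n2 : r (eltU • eltU • x) ≠ r (eltU • x) := fun h => h1 (r.injective h)
    have n3 : r x ≠ r (eltU • eltU • x) := fun h => h2 (r.injective h)
    rcases lt_or_gt_of_ne n1 with a1 | a1 <;> rcases lt_or_gt_of_ne n2 with a2 | a2 <;>
      rcases lt_or_gt_of_ne n3 with a3 | a3 <;>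
      first
        | exact absurd ((a1.trans a3).trans a2) (lt_irrefl _)
        | exact absurd ((a1.trans a2).trans a3) (lt_irrefl _)
        | (simp only [a1, a2, a3, a1.not_gt, a2.not_gt, a3.not_gt, and_true, true_and, and_false,
            false_and, if_true, if_false]; ring)
  · by_cases hx : eltU • x = x
    · rw [shapiro_eis_of_fixed p _ x hx (by simp [trace_eltU])]
      simp [hx]
    simp only [hx, if_false]
    split_ifs
    · simp [v]
    · simp [v]
    · simp only [v, Int.cast_sub, Int.cast_neg, ZMod.intCast_zmod_cast]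
      linear_combination -(shapiro_U_add p x)

theorem exists_lift_pair : ∃ a b : XX → ℤ,
    (∀ x, a x + a (ModularGroup.S • x) = 0) ∧
    (∀ x, b x + b (eltU • x) + b (eltU • eltU • x) = 0) ∧
    a (eltU • QuotientGroup.mk 1) + b (QuotientGroup.mk 1) = 0 ∧
    (∀ x, (a x : ZMod (eisensteinNumerator p)) = shapiro (eisHom p) ModularGroup.S x) ∧
    ∀ x, (b x : ZMod (eisensteinNumerator p)) = shapiro (eisHom p) eltU x := by
  classical
  haveI : NeZero p := ⟨(Fact.out : p.Prime).ne_zero⟩
  obtain ⟨a, ha, hae⟩ := exists_lift_A p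
  obtain ⟨b, hb, hbe⟩ := exists_lift_B p
  set x₀ : XX := QuotientGroup.mk 1 with hx₀
  set y : XX := ModularGroup.S • x₀ with hy
  have hy0 : y ≠ x₀ := base_smul_S_ne p
  have hdvd : (eisensteinNumerator p : ℤ) ∣ a y + b x₀ := by
    rw [← ZMod.intCast_zmod_eq_zero_iff_dvd, Int.cast_add, hae, hbe, eltU, shapiro_mul,
      base_smul_T, shapiro_eq_zero_of_parabolic (eisHom_parabolic p) _ _ (base_smul_T p)
        (by simp [Matrix.trace_fin_two, ModularGroup.T]), add_zero, add_comm]
    exact shapiro_S_add p x₀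
  obtain ⟨q, hq⟩ := hdvd
  set d : XX → ℤ := Pi.single y 1 - Pi.single x₀ 1 with hd
  have e2 : ∀ x : XX, (ModularGroup.S • x = y ↔ x = x₀) ∧ (ModularGroup.S • x = x₀ ↔ x = y) :=
    fun x => ⟨(MulAction.injective ModularGroup.S).eq_iff, ⟨fun h => by rw [hy, ← h, S_smul_S_smul],
      fun h => by rw [h, hy, S_smul_S_smul]⟩⟩
  refine ⟨fun x => a x - (eisensteinNumerator p : ℤ) * q * d x, b, fun x => ?_, hb, ?_, fun x => ?_,
    hbe⟩
  · have hd0 : d x + d (ModularGroup.S • x) = 0 := by
      simp only [hd, Pi.sub_apply, Pi.single_apply, (e2 x).1, (e2 x).2]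
      ring
    linear_combination ha x - (eisensteinNumerator p : ℤ) * q * hd0
  · rw [base_smul_U, ← hy]
    simp only [hd, Pi.sub_apply, Pi.single_eq_same, Pi.single_eq_of_ne hy0]
    linear_combination hq
  · push_cast
    rw [hae, ZMod.natCast_self]
    ring

theorem finrank_parabolicHoms_ge [NeZero p]
    (hdim : genusFormula p ≤ (Module.finrank ℂ (CuspForm (Gamma0 p) 2) : ℚ)) :
    2 * genusFormula p ≤ (Module.finrank ℂ (parabolicHoms ℂ (Gamma0 p) ℂ) : ℚ) := by
  haveI := finiteDimensional_cuspForm (N := p)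
  have h1 : Module.finrank ℂ (LinearMap.range (periodHomPair p))
      ≤ Module.finrank ℂ (parabolicHoms ℂ (Gamma0 p) ℂ) :=
    Submodule.finrank_mono range_periodHomPair_le
  rw [LinearMap.finrank_range_of_inj (periodHomPair_injective (N := p)), Module.finrank_prod] at h1
  have h3 : ((Module.finrank ℂ (CuspForm (Gamma0 p) 2) : ℚ) + Module.finrank ℂ (CuspForm (Gamma0 p) 2))
      ≤ Module.finrank ℂ (parabolicHoms ℂ (Gamma0 p) ℂ) := by exact_mod_cast h1
  linarith

theorem mem_range_toPairs [NeZero p]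
    (hdim : genusFormula p ≤ (Module.finrank ℂ (CuspForm (Gamma0 p) 2) : ℚ))
    (z : pairsA p ℂ × pairsB p ℂ) (hz : atT p ℂ z (QuotientGroup.mk 1) = 0) :
    z ∈ LinearMap.range (toPairs p ℂ) := by
  classical
  haveI : Finite XX := Subgroup.finite_quotient_of_finiteIndex
  letI := Fintype.ofFinite XX
  set x₀ : XX := QuotientGroup.mk 1 with hx₀
  set y : XX := ModularGroup.S • x₀ with hy
  have hy0 : y ≠ x₀ := base_smul_S_ne p
  let L : (pairsA p ℂ × pairsB p ℂ) →ₗ[ℂ] ℂ := LinearMap.proj x₀ ∘ₗ atT p ℂ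
  suffices LinearMap.range (toPairs p ℂ) = LinearMap.ker L by rw [this]; exact hz
  refine Submodule.eq_of_le_of_finrank_le ?_ ?_
  · rintro _ ⟨w, rfl⟩
    show atT p ℂ (toPairs p ℂ w) x₀ = 0
    rw [atT_toPairs, base_smul_T, add_sub_cancel_right, shapiro_eq_zero_of_parabolic w.1.2 _ _
      (base_smul_T p) (by simp [Matrix.trace_fin_two, ModularGroup.T])]
  have hsur : LinearMap.range L = ⊤ := by
    rw [LinearMap.range_eq_top]
    intro c
    have ha : (Pi.single y c - Pi.single x₀ c : XX → ℂ) ∈ pairsA p ℂ := by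
      rw [mem_pairsA]
      intro x
      have e1 : ModularGroup.S • x = y ↔ x = x₀ := (MulAction.injective ModularGroup.S).eq_iff
      have e2 : ModularGroup.S • x = x₀ ↔ x = y :=
        ⟨fun h => by rw [hy, ← h, S_smul_S_smul], fun h => by rw [h, hy, S_smul_S_smul]⟩
      simp only [Pi.sub_apply, Pi.single_apply, e1, e2]
      ring
    refine ⟨(⟨_, ha⟩, 0), ?_⟩
    have hU : eltU • x₀ = y := base_smul_U p
    simp [L, atT, pull_apply, hU, Pi.single_eq_of_ne hy0]
  have h1 := LinearMap.finrank_range_add_finrank_ker L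
  rw [hsur, finrank_top, Module.finrank_self, Module.finrank_prod] at h1
  have h2 := LinearMap.finrank_range_add_finrank_ker (toPairs p ℂ)
  rw [Module.finrank_prod, Module.finrank_pi, ← Nat.card_eq_fintype_card] at h2
  have h3 : Module.finrank ℂ (LinearMap.ker (toPairs p ℂ)) ≤ 1 :=
    (Submodule.finrank_mono (ker_toPairs (N := p) (k := ℂ))).trans
      ((finrank_span_le_card _).trans (by simp))
  have hA := two_finrank_pairsA (N := p) (k := ℂ)
  have hB := three_finrank_pairsB (N := p) (k := ℂ)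
  have hS := Genus.card_fixedBy_S (N := p)
  have hU := Genus.card_fixedBy_U (N := p)
  have hX := Genus.card_cosetSpace (N := p)
  simp only [Genus.CosetSpace, MulAction.fixedBy, Set.coe_setOf] at hS hU hX
  simp only [eltU] at hB
  rw [hS, hX] at hA
  rw [hU, hX] at hB
  rw [hX] at h2
  have hc : cuspCount p = 2 := by
    rw [cuspCount, Nat.Prime.sum_divisors (Fact.out : p.Prime)]
    simp [Nat.div_self (Fact.out : p.Prime).pos]
  have hg : (7 * dedekindPsi p : ℚ) ≤
      6 * (Module.finrank ℂ (parabolicHoms ℂ (Gamma0 p) ℂ) : ℚ)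
        + 6 * dedekindPsi p + 3 * nuTwo p + 4 * nuThree p := by
    have := finrank_parabolicHoms_ge p hdim
    rw [genusFormula, hc] at this
    push_cast at this
    linarith
  have hg' : 7 * dedekindPsi p ≤ 6 * Module.finrank ℂ (parabolicHoms ℂ (Gamma0 p) ℂ)
      + 6 * dedekindPsi p + 3 * nuTwo p + 4 * nuThree p := by exact_mod_cast hg
  omega

/-- The Eisenstein homomorphism lifts to an integral parabolic homomorphism. -/
theorem exists_integral_lift [NeZero p]
    (hdim : genusFormula p ≤ (Module.finrank ℂ (CuspForm (Gamma0 p) 2) : ℚ)) :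
    ∃ φ : Additive (Gamma0 p) →+ ℤ, IsParabolicHom (Gamma0 p) φ ∧
      ∀ γ, ((φ γ : ℤ) : ZMod (eisensteinNumerator p)) = eisHom p γ := by
  obtain ⟨a, b, ha, hb, hab, hae, hbe⟩ := exists_lift_pair p
  have haC : (fun x => (a x : ℂ)) ∈ pairsA p ℂ := by
    rw [mem_pairsA]; intro x; exact_mod_cast ha x
  have hbC : (fun x => (b x : ℂ)) ∈ pairsB p ℂ := by
    rw [mem_pairsB]; intro x; exact_mod_cast hb x
  obtain ⟨⟨Φ, ψ⟩, hw⟩ := mem_range_toPairs p hdim (⟨_, haC⟩, ⟨_, hbC⟩) (by
    simp only [atT, LinearMap.coprod_apply, LinearMap.comp_apply, Submodule.subtype_apply,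
      pull_apply, Pi.add_apply]
    exact_mod_cast hab)
  have hS : ∀ x, shapiro Φ.1 ModularGroup.S x + ψ (ModularGroup.S • x) - ψ x = (a x : ℂ) := fun x => by
    rw [← toPairs_fst (Φ, ψ) x, hw]
  have hU : ∀ x, shapiro Φ.1 eltU x + ψ (eltU • x) - ψ x = (b x : ℂ) := fun x => by
    rw [← toPairs_snd (Φ, ψ) x, hw]
  have hall : ∀ g : G2, ∀ x, ∃ z : ℤ, shapiro Φ.1 g x + ψ (g • x) - ψ x = (z : ℂ) ∧
      (z : ZMod (eisensteinNumerator p)) = shapiro (eisHom p) g x := by
    intro g
    have hg : g ∈ Subgroup.closure ({ModularGroup.S, eltU} : Set G2) := by simp [closure_S_eltU]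
    induction hg using Subgroup.closure_induction with
    | mem g hg =>
      rcases hg with rfl | rfl
      · exact fun x => ⟨a x, hS x, hae x⟩
      · exact fun x => ⟨b x, hU x, hbe x⟩
    | one => intro x; exact ⟨0, by simp [shapiro_one], by simp [shapiro_one]⟩
    | mul g h _ _ ihg ihh =>
      intro x
      obtain ⟨z, hz, hze⟩ := ihg (h • x)
      obtain ⟨w, hw', hwe⟩ := ihh x
      refine ⟨z + w, ?_, by rw [Int.cast_add, shapiro_mul, hze, hwe]⟩
      rw [Int.cast_add, shapiro_mul, mul_smul]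
      linear_combination hz + hw'
    | inv g _ ih =>
      intro x
      obtain ⟨z, hz, hze⟩ := ih (g⁻¹ • x)
      have h1 := shapiro_mul Φ.1 g g⁻¹ x
      have h2 := shapiro_mul (eisHom p) g g⁻¹ x
      rw [mul_inv_cancel, shapiro_one] at h1 h2
      rw [smul_inv_smul] at hz
      refine ⟨-z, ?_, ?_⟩
      · push_cast; linear_combination -hz - h1
      · rw [Int.cast_neg, hze, eq_neg_of_add_eq_zero_right h2.symm]
  set x₀ : XX := QuotientGroup.mk 1
  have ho : x₀.out ∈ Gamma0 p := by
    have := QuotientGroup.out_eq' x₀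
    rw [eq_comm, QuotientGroup.eq] at this
    simpa using this
  have hconj : ∀ {A : Type} [AddCommGroup A] (φ : Additive (Gamma0 p) →+ A) (γ : Gamma0 p),
      ((γ : Gamma0 p) : G2) • x₀ = x₀ ∧ shapiro φ (γ : G2) x₀ = φ (Additive.ofMul γ) := by
    intro A _ φ γ
    have hfix : ((γ : Gamma0 p) : G2) • x₀ = x₀ := by
      rw [MulAction.Quotient.smul_mk, QuotientGroup.eq]; simp
    refine ⟨hfix, ?_⟩
    have : (⟨_, stab_mem ((γ : Gamma0 p) : G2) x₀⟩ : Gamma0 p) = ⟨_, ho⟩⁻¹ * γ * ⟨_, ho⟩ := by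
      apply Subtype.ext; simp [hfix]
    rw [shapiro, this, ofMul_mul, ofMul_mul, map_add, map_add, ofMul_inv, map_neg]
    abel
  have hint : ∀ γ : Additive (Gamma0 p), ∃ z : ℤ, Φ.1 γ = (z : ℂ) ∧
      (z : ZMod (eisensteinNumerator p)) = eisHom p γ := by
    intro γ
    obtain ⟨z, hz, hze⟩ := hall ((Additive.toMul γ : Gamma0 p) : G2) x₀
    rw [(hconj Φ.1 _).1, (hconj Φ.1 _).2, add_sub_cancel_right, ofMul_toMul] at hz
    rw [(hconj (eisHom p) _).2, ofMul_toMul] at hze
    exact ⟨z, hz, hze⟩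
  choose z hz hze using hint
  refine ⟨AddMonoidHom.mk' z fun x y => ?_, fun γ hγ => ?_, hze⟩
  · apply Int.cast_injective (α := ℂ)
    rw [Int.cast_add, ← hz, ← hz, ← hz, map_add]
  · apply Int.cast_injective (α := ℂ)
    show (z (Additive.ofMul γ) : ℂ) = ((0 : ℤ) : ℂ)
    rw [← hz, Φ.2 γ hγ, Int.cast_zero]

end FLTAgent.Periods
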