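import Fermat.Agent.Periods.Eis.EisHom
import Fermat.Agent.Periods.Eis.Upper
import Fermat.Agent.ModFun.Integral

/-!
Lower bound for the Eisenstein quotient: a lift of the Eisenstein homomorphism is an eigen class
modulo the numerator.
-/

set_option autoImplicit false

noncomputable section

open CongruenceSubgroup ModularCurve ModularCurve.Period Matrix.SpecialLinearGroup
open scoped MatrixGroups

namespace FLTAgent.Periods.Eis

variable (p : ℕ) [Fact p.Prime]

/-- `x` has integral periods congruent to a multiple of the Eisenstein homomorphism. -/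
def Congruent (x : CuspForm (Gamma0 p) 2 × CuspForm (Gamma0 p) 2)
    (k : ZMod (eisensteinNumerator p)) : Prop :=
  ∀ γ : Gamma0 p, ∃ z : ℤ, periodHomPair p x (Additive.ofMul γ) = (z : ℂ) ∧
    (z : ZMod (eisensteinNumerator p)) = k * eisHom p (Additive.ofMul γ)

theorem congruent_of_reps {ι : Type} [Fintype ι] (C : CosetReps p ι) (a b : ι → ℤ)
    (h00 : ∀ i, C.rep i 0 0 = (a i : ℝ)) (h01 : ∀ i, C.rep i 0 1 = (b i : ℝ))
    (h10 : ∀ i, C.rep i 1 0 = 0) (hu : ∀ i, IsUnit ((a i : ℤ) : ZMod p))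
    (t : Module.End ℂ (CuspForm (Gamma0 p) 2))
    (ht : ∀ f, (⇑(t f) : UpperHalfPlane → ℂ) = ∑ i, SlashAction.map (2 : ℤ) (C.rep i) (⇑f))
    {x : CuspForm (Gamma0 p) 2 × CuspForm (Gamma0 p) 2} {k : ZMod (eisensteinNumerator p)}
    (hx : Congruent p x k) :
    Congruent p (t x.1, t x.2) ((Fintype.card ι : ZMod (eisensteinNumerator p)) * k) := by
  haveI : NeZero p := ⟨(Fact.out : p.Prime).ne_zero⟩
  intro γ
  obtain ⟨σ, g, hg⟩ := C.move γ γ.2
  choose z hz hzk using hx
  refine ⟨∑ i, z (g i), ?_, ?_⟩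
  · rw [C.periodHomPair_apply (p := x) (q := (t x.1, t x.2)) (ht _) (ht _) γ hg, Int.cast_sum]
    exact Finset.sum_congr rfl fun i _ => hz _
  · rw [Int.cast_sum]
    simp only [hzk, ← Finset.mul_sum, C.sum_eisHom p a b h00 h01 h10 hu γ hg, nsmul_eq_mul]
    ring

/-- The action of the abstract Hecke algebra on pairs of forms. -/
def evalPair [NeZero p] (P : HeckeAlg) (x : CuspForm (Gamma0 p) 2 × CuspForm (Gamma0 p) 2) :
    CuspForm (Gamma0 p) 2 × CuspForm (Gamma0 p) 2 :=
  ((CuspForm.heckeEvalForms p 2 P).1 x.1, (CuspForm.heckeEvalForms p 2 P).1 x.2)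

theorem congruent_gen [NeZero p] (ℓ : ℕ) (hℓ : ℓ.Prime)
    {x : CuspForm (Gamma0 p) 2 × CuspForm (Gamma0 p) 2} {k : ZMod (eisensteinNumerator p)}
    (hx : Congruent p x k) :
    Congruent p (evalPair p (primeGen ℓ hℓ) x)
      ((eisChar p (primeGen ℓ hℓ) : ZMod (eisensteinNumerator p)) * k) := by
  have hp := (Fact.out : p.Prime)
  rw [eisChar_primeGen]
  unfold evalPair
  by_cases hd : ℓ ∣ p
  · obtain rfl : ℓ = p := (Nat.prime_dvd_prime_iff_eq hℓ hp).mp hd
    rw [eval_primeGen_U ℓ hℓ dvd_rfl, if_pos dvd_rfl]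
    have h := congruent_of_reps ℓ (repsU (N := ℓ) ℓ dvd_rfl) (fun _ => 1) (fun i => (i.val : ℤ))
      (fun i => by simp [repsU, hp.ne_zero]) (fun i => by simp [repsU, hp.ne_zero])
      (fun i => by simp [repsU, hp.ne_zero]) (fun i => by simp)
      (CuspForm.heckeULin 2 (dvd_refl ℓ)) (coe_heckeU_eq ℓ dvd_rfl) hx
    have hc : ((Fintype.card (ZMod ℓ) : ℕ) : ZMod (eisensteinNumerator ℓ)) = 1 := by
      rw [ZMod.card, ← sub_eq_zero, ← Nat.cast_one, ← Nat.cast_sub hp.one_le]
      exact (ZMod.natCast_eq_zero_iff _ _).mpr (eisensteinNumerator_dvd ℓ)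
    rw [hc] at h
    simpa using h
  · haveI : Fact ℓ.Prime := ⟨hℓ⟩
    rw [eval_primeGen_T p hℓ hd, if_neg hd]
    have hu : IsUnit ((ℓ : ℤ) : ZMod p) := by
      rw [Int.cast_natCast, ZMod.isUnit_iff_coprime]
      exact (Nat.coprime_primes hℓ hp).mpr fun h => hd (h ▸ dvd_rfl)
    have h := congruent_of_reps p (repsT ℓ hd)
      (fun i => i.elim (ℓ : ℤ) (fun _ => 1)) (fun i => i.elim 0 (fun j => (j.val : ℤ)))
      (fun i => ?_) (fun i => ?_) (fun i => ?_) (fun i => ?_)
      (CuspForm.heckeTLin 2 hℓ hd) (coe_heckeT_eq ℓ hd) hx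
    · have hc : Fintype.card (OnePoint (ZMod ℓ)) = ℓ + 1 := by
        change Fintype.card (Option (ZMod ℓ)) = ℓ + 1
        rw [Fintype.card_option, ZMod.card]
      rw [hc] at h
      convert! h using 2
      push_cast
      ring
    all_goals
      induction i using OnePoint.rec with
      | infty =>
        first
          | exact hu
          | (show (ModularForm.heckeDiagMatrix ℓ : GL (Fin 2) ℝ) _ _ = _
             simp [hℓ.ne_zero, OnePoint.infty, OnePoint.elim])
      | coe j =>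
        first
          | exact isUnit_one.map (Int.castRingHom (ZMod p))
          | (show (ModularForm.heckeMatrix ℓ j.val : GL (Fin 2) ℝ) _ _ = _
             simp [hℓ.ne_zero, OnePoint.some, OnePoint.elim])

theorem congruent_eval [NeZero p] (P : HeckeAlg) :
    ∀ (x : CuspForm (Gamma0 p) 2 × CuspForm (Gamma0 p) 2) (k : ZMod (eisensteinNumerator p)),
      Congruent p x k → Congruent p (evalPair p P x) ((eisChar p P : ZMod _) * k) := by
  induction P using MvPolynomial.induction_on with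
  | C a =>
    intro x k hx γ
    obtain ⟨z, hz, hzk⟩ := hx γ
    refine ⟨a * z, ?_, ?_⟩
    · have : evalPair p (MvPolynomial.C a) x = (a : ℂ) • x := by
        rw [evalPair, CuspForm.heckeEvalForms_C, Subalgebra.coe_algebraMap]
        simp [Module.algebraMap_end_apply, ← Int.cast_smul_eq_zsmul ℂ, Prod.smul_def]
      rw [this, map_smul]
      simp [hz]
    · rw [eisChar_C]; push_cast; rw [hzk]; ring
  | add P Q hP hQ =>
    intro x k hx γ
    obtain ⟨z, hz, hzk⟩ := hP x k hx γ
    obtain ⟨w, hw, hwk⟩ := hQ x k hx γ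
    refine ⟨z + w, ?_, ?_⟩
    · have : evalPair p (P + Q) x = evalPair p P x + evalPair p Q x := by
        simp [evalPair]
      rw [this, map_add, AddMonoidHom.add_apply, hz, hw, Int.cast_add]
    · rw [map_add]; push_cast; rw [hzk, hwk]; ring
  | mul_X P ℓ hP =>
    intro x k hx
    have h1 := congruent_gen p (ℓ : ℕ) ℓ.2 hx
    have h2 := hP _ _ h1
    have e : primeGen (ℓ : ℕ) ℓ.2 = MvPolynomial.X ℓ := rfl
    rw [e] at h2
    convert! h2 using 1
    · simp [evalPair]
    · rw [map_mul]; push_cast; ring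

/-- Lower bound: the numerator divides the Eisenstein character of every relation. -/
theorem numerator_dvd_of_mem_ker [NeZero p]
    (hES : LinearMap.range (periodHomPair p) = parabolicHoms ℂ (Gamma0 p) ℂ)
    (hlift : ∃ φ : Additive (Gamma0 p) →+ ℤ, IsParabolicHom (Gamma0 p) φ ∧
      ∀ γ, ((φ γ : ℤ) : ZMod (eisensteinNumerator p)) = eisHom p γ)
    {P : HeckeAlg} (hP : P ∈ RingHom.ker (latticeEval p)) :
    (eisensteinNumerator p : ℤ) ∣ eisChar p P := by
  have h0 : CuspForm.heckeEvalForms p 2 P = 0 :=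
    (CuspForm.latticeRestrictHom_bijective p ∅ (ModFun.hasIntegralStructure p 2)).1
      ((RingHom.mem_ker.mp hP).trans (map_zero _).symm)
  obtain ⟨φ, hφ, hφe⟩ := hlift
  have hmem : (Int.castAddHom ℂ).comp φ ∈ parabolicHoms ℂ (Gamma0 p) ℂ := fun γ hγ => by
    simp [hφ γ hγ]
  rw [← hES] at hmem
  obtain ⟨x, hx⟩ := hmem
  have hcx : Congruent p x 1 := fun γ => ⟨φ (Additive.ofMul γ), by rw [hx]; rfl, by
    rw [hφe, one_mul]⟩
  have h := congruent_eval p P x 1 hcx
  have e : evalPair p P x = 0 := by simp [evalPair, h0]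
  obtain ⟨γ, hγ⟩ := eisHom_surjective p 1
  obtain ⟨z, hz, hzk⟩ := h (Additive.toMul γ)
  rw [e, map_zero, AddMonoidHom.zero_apply] at hz
  have hz0 : z = 0 := by exact_mod_cast hz.symm
  rw [hz0, ofMul_toMul, hγ, mul_one, mul_one, Int.cast_zero] at hzk
  exact (ZMod.intCast_zmod_eq_zero_iff_dvd _ _).mp hzk.symm

end FLTAgent.Periods.Eis
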