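import Fermat.Agent.Periods.Eis.Relations

/-!
A weight two form on Γ₀(p), all of whose conjugates are congruent to one constant, is impossible
in the cases we need: the norm to level one of its difference with a form of level 2 or 3
violates the mod q Sturm bound.
-/

set_option autoImplicit false

noncomputable section

open UpperHalfPlane CongruenceSubgroup ModularForm Filter EisensteinSeries
open scoped MatrixGroups Manifold Topology Real ArithmeticFunction.sigma
open FLTAgent.ModFun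

namespace FLTAgent.Periods.Eis

theorem intQ_pow {f : ℍ → ℂ} (hf : Good f) (h : IntQ f) (n : ℕ) : IntQ (f ^ n) := by
  induction n with
  | zero => simpa using IntQ.one
  | succ n ih => rw [pow_succ]; exact IntQ.mul (hf.pow n) hf ih h

theorem exists_monomial (w : ℕ) (hw : Even w) (h2 : w ≠ 2) :
    ∃ (G : ℍ → ℂ) (Z : PowerSeries ℤ), IsMF 1 (w : ℤ) G ∧ qx G = Z.map (Int.castRingHom ℂ) ∧
      Z.coeff 0 = 1 := by
  obtain ⟨v, hv⟩ := hw
  obtain ⟨a, b, hab⟩ : ∃ a b : ℕ, 4 * a + 6 * b = w := by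
    rcases Nat.even_or_odd v with ⟨u, hu⟩ | ⟨u, hu⟩
    · exact ⟨u, 0, by omega⟩
    · exact ⟨u - 1, 1, by omega⟩
  have h4 := isMF_levelOne (E₄ : ModularForm 𝒮ℒ 4)
  have h6 := isMF_levelOne (E₆ : ModularForm 𝒮ℒ 6)
  have hG : IsMF 1 (w : ℤ) ((E₄ : ℍ → ℂ) ^ a * (E₆ : ℍ → ℂ) ^ b) :=
    ((h4.pow a).mul (h6.pow b)).cast (by push_cast [← hab]; ring)
  obtain ⟨Z, hZ⟩ := IntQ.mul (h4.good.pow a) (h6.good.pow b) (intQ_pow h4.good intQ_E4 a)
    (intQ_pow h6.good intQ_E6 b)
  refine ⟨_, Z, hG, hZ, ?_⟩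
  have h0 := congrArg (PowerSeries.coeff 0) hZ
  rw [Good.qx_mul (h4.good.pow a) (h6.good.pow b), Good.qx_pow h4.good, Good.qx_pow h6.good,
    PowerSeries.coeff_map, PowerSeries.coeff_zero_eq_constantCoeff, map_mul, map_pow, map_pow,
    ← PowerSeries.coeff_zero_eq_constantCoeff, qx, qx,
    EisensteinSeries.E_qExpansion_coeff_zero _ ⟨2, rfl⟩,
    EisensteinSeries.E_qExpansion_coeff_zero _ ⟨3, rfl⟩] at h0
  simp only [one_pow, one_mul, eq_intCast] at h0
  exact_mod_cast h0.symm

/-- Sturm bound modulo an ideal, level one. -/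
theorem sturm_mod {R κ : Type*} [CommRing R] [CommRing κ] (ι : R →+* ℂ)
    (hι : Function.Injective ι) (ρ : R →+* κ) (n : ℕ) :
    ∀ (w : ℤ), w < n → ∀ (T : ℍ → ℂ), IsMF 1 w T → ∀ X : PowerSeries R, qx T = X.map ι →
      (∀ i : ℕ, 12 * (i : ℤ) ≤ w → ρ (X.coeff i) = 0) → ∀ i, ρ (X.coeff i) = 0 := by
  induction n with
  | zero =>
    intro w hw T hT X hX _ i
    have : hT.toLevelOne = 0 :=
      DFunLike.coe_injective (ModularFormClass.levelOne_neg_weight_eq_zero (by omega) hT.toLevelOne)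
    have hT0 : T = 0 := by simpa using congrArg DFunLike.coe this
    rw [hT0, qx, qExpansion_zero] at hX
    have := congrArg (PowerSeries.coeff i) hX
    simp only [map_zero, PowerSeries.coeff_map] at this
    rw [hι (this.symm.trans (map_zero ι).symm), map_zero]
  | succ n ih =>
    intro w hw T hT X hX hlow
    have hzero : T = 0 → ∀ i, ρ (X.coeff i) = 0 := by
      intro hT0 i
      rw [hT0, qx, qExpansion_zero] at hX
      have := congrArg (PowerSeries.coeff i) hX
      simp only [map_zero, PowerSeries.coeff_map] at this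
      rw [hι (this.symm.trans (map_zero ι).symm), map_zero]
    rcases lt_or_ge w 0 with hneg | hnn
    · exact hzero (by simpa using ModularFormClass.levelOne_neg_weight_eq_zero hneg hT.toLevelOne)
    lift w to ℕ using hnn
    rcases Nat.even_or_odd w with hev | hodd
    swap
    · have h := ModularForm.levelOne_odd_weight_eq_zero (by exact_mod_cast hodd) hT.toLevelOne
      exact hzero (by simpa using congrArg DFunLike.coe h)
    by_cases h2 : w = 2
    · subst h2; exact hzero (levelOne_two_eq_zero hT)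
    obtain ⟨G, Z, hG, hZ, hZ0⟩ := exists_monomial w hev h2
    obtain ⟨D, hD0, hD1, hD⟩ := exists_deltaCoeff
    set U : PowerSeries R := PowerSeries.mk fun n => (D (n + 1) : R) with hUdef
    have hU0 : PowerSeries.constantCoeff U = ((1 : Rˣ) : R) := by
      rw [← PowerSeries.coeff_zero_eq_constantCoeff, hUdef, PowerSeries.coeff_mk]; simp [hD1]
    have hΔ : qx discriminant = (PowerSeries.X * U).map ι := by
      ext k
      rw [hD, PowerSeries.coeff_map]
      cases k with
      | zero => simp [hD0]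
      | succ k => simp [hUdef, PowerSeries.coeff_succ_X_mul]
    set c : R := X.coeff 0 with hcdef
    set H : PowerSeries R := X - PowerSeries.C c * Z.map (Int.castRingHom R) with hHdef
    have hZι : (Z.map (Int.castRingHom R)).map ι = qx G := by
      rw [hZ]; ext k; simp
    have hHqx : qx (T - ι c • G) = H.map ι := by
      rw [Good.qx_sub hT.good (hG.good.smul _), Good.qx_smul _ hG.good, hX, hHdef, map_sub, map_mul,
        hZι, PowerSeries.map_C, PowerSeries.smul_eq_C_mul]
    have hH0 : H.coeff 0 = 0 := by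
      rw [hHdef, map_sub, PowerSeries.coeff_C_mul, PowerSeries.coeff_map, hZ0, hcdef]; simp
    obtain ⟨H', hH'⟩ : PowerSeries.X ∣ H := PowerSeries.X_dvd_iff.mpr (by
      rwa [← PowerSeries.coeff_zero_eq_constantCoeff_apply])
    have hTG : IsMF 1 (w : ℤ) (T - ι c • G) :=
      Submodule.sub_mem (MF 1 w) hT ((MF 1 w).smul_mem _ hG)
    have hcusp : (qExpansion 1 (hTG.toLevelOne : ℍ → ℂ)).coeff 0 = 0 := by
      rw [IsMF.coe_toLevelOne]
      show (qx (T - ι c • G)).coeff 0 = 0
      rw [hHqx, PowerSeries.coeff_map, hH0, map_zero]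
    set K := CuspForm.discriminantEquiv (toCuspForm hTG.toLevelOne hcusp)
    have hqK : qx (K : ℍ → ℂ) = (H' * U.invOfUnit 1).map ι := by
      have h := qExpansion_eq_qExpansion_discriminant_mul hTG.toLevelOne hcusp
      rw [IsMF.coe_toLevelOne] at h
      have h' : (PowerSeries.X * U).map ι * qx (K : ℍ → ℂ) = (PowerSeries.X * H').map ι := by
        rw [← hΔ, ← hH', ← hHqx]; exact h.symm
      rw [map_mul, map_mul, PowerSeries.map_X, mul_assoc] at h'
      have h'' := mul_left_cancel₀ PowerSeries.X_ne_zero h'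
      calc qx (K : ℍ → ℂ) = ((U.map ι) * (U.invOfUnit 1).map ι) * qx (K : ℍ → ℂ) := by
            rw [← map_mul, PowerSeries.mul_invOfUnit _ _ hU0, map_one, one_mul]
        _ = (H' * U.invOfUnit 1).map ι := by rw [map_mul, ← h'']; ring
    have hρc : ρ c = 0 := hlow 0 (by omega)
    have hρH : ∀ i, ρ (X.coeff (i + 1)) = ρ (H'.coeff i) := by
      intro i
      have : H.coeff (i + 1) = H'.coeff i := by rw [hH', PowerSeries.coeff_succ_X_mul]
      rw [← this, hHdef, map_sub, PowerSeries.coeff_C_mul, map_sub, map_mul, hρc, zero_mul, sub_zero]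
    have hK := ih ((w : ℤ) - 12) (by omega) K (isMF_levelOne K) _ hqK (fun i hi => by
      rw [PowerSeries.coeff_mul, map_sum]
      refine Finset.sum_eq_zero fun x hx => ?_
      rw [Finset.HasAntidiagonal.mem_antidiagonal] at hx
      rw [map_mul, ← hρH, hlow _ (by omega), zero_mul])
    intro i
    cases i with
    | zero => exact hρc
    | succ i =>
      rw [hρH]
      have : H' = (H' * U.invOfUnit 1) * U := by
        rw [mul_assoc, PowerSeries.invOfUnit_mul _ _ hU0, mul_one]
      rw [this, PowerSeries.coeff_mul, map_sum]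
      exact Finset.sum_eq_zero fun x _ => by rw [map_mul, hK, zero_mul]

theorem qx_affine {F : ℍ → ℂ} (hF : Good F) (a D : ℕ) (B : ℤ) [NeZero a] [NeZero D]
    [NeZero (a * D)] :
    Good (fun τ => F (aff (a * D) B D τ)) ∧ ∀ k, (qx (fun τ => F (aff (a * D) B D τ))).coeff k
      = if a ∣ k then (qx F).coeff (k / a) * Complex.exp (2 * π * Complex.I * B / D) ^ (k / a)
        else 0 := by
  have hD : (D : ℂ) ≠ 0 := Nat.cast_ne_zero.mpr (NeZero.ne D)
  have hcoe : ∀ τ : ℍ, (aff (a * D) B D τ : ℂ) = (a : ℂ) * τ + B / D := fun τ => by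
    rw [coe_aff]; push_cast; field_simp
  have hgood : Good (fun τ => F (aff (a * D) B D τ)) := by
    refine ⟨fun z => ?_, ?_, hF.bdd.comp_tendsto (tendsto_aff _ _ _)⟩
    · by_cases hz : 0 < z.im
      · have hz' : 0 < (z + 1).im := by simpa
        simp only [Function.comp_apply, ofComplex_apply_of_im_pos hz, ofComplex_apply_of_im_pos hz']
        have hp := hF.per.nat_mul a ((aff (a * D) B D ⟨z, hz⟩ : ℍ) : ℂ)
        simp only [Function.comp_apply, UpperHalfPlane.ofComplex_apply, mul_one] at hp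
        rw [← hp]
        have e : (((aff (a * D) B D ⟨z, hz⟩ : ℍ) : ℂ) + (a : ℂ))
            = ((aff (a * D) B D ⟨z + 1, hz'⟩ : ℍ) : ℂ) := by
          simp only [hcoe]; ring
        rw [e, UpperHalfPlane.ofComplex_apply]
      · have hz' : (z + 1).im ≤ 0 := by simpa using hz
        simp only [Function.comp_apply]
        rw [ofComplex_apply_of_im_nonpos (not_lt.mp hz), ofComplex_apply_of_im_nonpos hz']
    · have h := hF.holo
      rw [UpperHalfPlane.mdifferentiable_iff] at h ⊢
      have ha : (0 : ℝ) < a := by exact_mod_cast Nat.pos_of_ne_zero (NeZero.ne a)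
      have h2 := h.comp (f := fun z : ℂ => (a : ℂ) * z + B / D) (s := upperHalfPlaneSet)
        (by fun_prop) (fun z (hz : 0 < z.im) => by
          show 0 < ((a : ℂ) * z + B / D).im
          simp [Complex.add_im, Complex.mul_im, Complex.div_natCast_im]
          positivity)
      refine h2.congr fun z (hz : 0 < z.im) => ?_
      simp only [Function.comp_apply, ofComplex_apply_of_im_pos hz]
      rw [← hcoe ⟨z, hz⟩, UpperHalfPlane.ofComplex_apply]
  refine ⟨hgood, fun k => ?_⟩
  refine coeff_unique (c := fun k => if a ∣ k then (qx F).coeff (k / a) *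
    Complex.exp (2 * π * Complex.I * B / D) ^ (k / a) else 0) hgood (fun τ => ?_) k
  have h := UpperHalfPlane.hasSum_qExpansion (h := 1) one_pos (by simpa using hF.per) hF.holo hF.bdd
    (aff (a * D) B D τ)
  have ha : 0 < a := Nat.pos_of_ne_zero (NeZero.ne a)
  rw [← Function.Injective.hasSum_iff (g := fun m : ℕ => a * m)
    (fun x y hxy => Nat.eq_of_mul_eq_mul_left ha hxy)
    (fun x hx => by
      have : ¬ a ∣ x := fun ⟨y, hy⟩ => hx ⟨y, hy.symm⟩
      simp [this])]
  convert! h using 1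
  funext m
  have hq : Function.Periodic.qParam 1 (aff (a * D) B D τ : ℂ)
      = Function.Periodic.qParam 1 (τ : ℂ) ^ a * Complex.exp (2 * π * Complex.I * B / D) := by
    rw [hcoe, Function.Periodic.qParam, Function.Periodic.qParam, ← Complex.exp_nat_mul,
      ← Complex.exp_add]
    congr 1
    push_cast
    ring
  simp only [Function.comp_apply, smul_eq_mul, Nat.mul_div_cancel_left _ ha, dvd_mul_right, if_true,
    hq, pow_mul, mul_pow]
  show _ = (qx F).coeff m * _
  ring

theorem exists_residue (q : ℕ) (hq : q.Prime) :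
    ∃ (κ : Type) (_ : Field κ) (ρ : integralClosure ℤ ℂ →+* κ),
      ∀ n : ℤ, ρ (n : integralClosure ℤ ℂ) = 0 ↔ (q : ℤ) ∣ n := by
  have hne : (Ideal.span {(q : integralClosure ℤ ℂ)}) ≠ ⊤ := by
    rw [Ne, Ideal.span_singleton_eq_top]
    rintro ⟨u, hu⟩
    have h1 : ((↑u⁻¹ : integralClosure ℤ ℂ) : ℂ) = (q : ℂ)⁻¹ := by
      refine eq_inv_of_mul_eq_one_left ?_
      have := congrArg Subtype.val (u.inv_mul)
      rw [hu] at this
      simpa using this
    have hint : IsIntegral ℤ ((q : ℂ)⁻¹) := h1 ▸ (↑u⁻¹ : integralClosure ℤ ℂ).2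
    have hint' : IsIntegral ℤ ((q : ℚ)⁻¹) :=
      (isIntegral_algebraMap_iff (A := ℚ) (B := ℂ) (algebraMap ℚ ℂ).injective).mp (by simpa using hint)
    obtain ⟨z, hz⟩ := IsIntegrallyClosed.isIntegral_iff.mp hint'
    have h2 : ((z * q : ℤ) : ℚ) = 1 := by
      push_cast
      rw [show (z : ℚ) = algebraMap ℤ ℚ z from rfl, hz]
      exact inv_mul_cancel₀ (by exact_mod_cast hq.ne_zero)
    have h3 : z * (q : ℤ) = 1 := by exact_mod_cast h2
    have := Int.eq_one_or_neg_one_of_mul_eq_one (u := (q : ℤ)) (v := z) (by rw [mul_comm]; exact h3)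
    have := hq.two_le
    omega
  obtain ⟨M, hM, hle⟩ := Ideal.exists_le_maximal _ hne
  refine ⟨_ ⧸ M, Ideal.Quotient.field M, Ideal.Quotient.mk M, fun n => ?_⟩
  rw [Ideal.Quotient.eq_zero_iff_mem]
  refine ⟨fun h => ?_, ?_⟩
  · by_contra hn
    obtain ⟨a, b, hab⟩ := ((Nat.prime_iff_prime_int.mp hq).coprime_iff_not_dvd.mpr hn)
    refine hM.ne_top ((Ideal.eq_top_iff_one M).mpr ?_)
    have : ((a * (q : ℤ) + b * n : ℤ) : integralClosure ℤ ℂ) = 1 := by rw [hab]; simp
    rw [← this]; push_cast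
    exact M.add_mem (M.mul_mem_left _ (hle (Ideal.mem_span_singleton_self _))) (M.mul_mem_left _ h)
  · rintro ⟨z, rfl⟩
    push_cast
    exact M.mul_mem_right _ (hle (Ideal.mem_span_singleton_self _))

/-- roots of unity are integral -/
def rootInt (B : ℤ) (D : ℕ) [NeZero D] : integralClosure ℤ ℂ :=
  ⟨Complex.exp (2 * π * Complex.I * B / D), by
    refine IsIntegral.of_pow (Nat.pos_of_ne_zero (NeZero.ne D)) ?_
    have hD : (D : ℂ) ≠ 0 := Nat.cast_ne_zero.mpr (NeZero.ne D)
    rw [← Complex.exp_nat_mul, show (D : ℂ) * (2 * π * Complex.I * B / D) = B * (2 * π * Complex.I) by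
      field_simp, Complex.exp_int_mul_two_pi_mul_I]
    exact isIntegral_one⟩

@[simp] theorem coe_rootInt (B : ℤ) (D : ℕ) [NeZero D] :
    (rootInt B D : ℂ) = Complex.exp (2 * π * Complex.I * B / D) := rfl

section conjugates

variable {p : ℕ} [Fact p.Prime] (n : ℕ) [NeZero n] (h : ℕ) [NeZero h] (hh : h = p * n) {g : ℍ → ℂ} (hg : IsMF p 2 g) (c : ℕ → ℤ)
  (hc : ∀ k, (qx g).coeff k = (c k : ℂ))

include hg hc hh in
theorem expansion_none :
    Good (fun τ => (h : ℂ) * conjF 2 g (cosetPt p none) (scale h τ)) ∧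
    ∀ k, (qx (fun τ => (h : ℂ) * conjF 2 g (cosetPt p none) (scale h τ))).coeff k
      = if h ∣ k then (h : ℂ) * (c (k / h) : ℂ) else 0 := by
  subst hh
  haveI : NeZero (p * n) := ⟨mul_ne_zero (NeZero.ne p) (NeZero.ne n)⟩
  haveI : NeZero (p * n * 1) := ⟨by simpa using NeZero.ne (p * n)⟩
  obtain ⟨h1, h2⟩ := qx_affine hg.good (p * n) 1 0
  have e : (fun τ => ((p * n : ℕ) : ℂ) * conjF 2 g (cosetPt p none) (scale (p * n) τ))
      = ((p * n : ℕ) : ℂ) • fun τ => g (aff (p * n * 1) 0 1 τ) := by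
    funext τ
    rw [conjF_cosetPt_none hg, Pi.smul_apply, smul_eq_mul, scale]
    congr 2
    apply UpperHalfPlane.ext
    simp [coe_aff]
  refine ⟨e ▸ h1.smul _, fun k => ?_⟩
  rw [e, Good.qx_smul _ h1, PowerSeries.coeff_smul, h2, hc, smul_eq_mul]
  split_ifs <;> simp

include hg hc hh in
theorem expansion_some (j : Fin p) :
    Good (fun τ => (h : ℂ) * conjF 2 g (cosetPt p (some j)) (scale h τ)) ∧
    ∀ k, (qx (fun τ => (h : ℂ) * conjF 2 g (cosetPt p (some j)) (scale h τ))).coeff k
      = if n ∣ k then -((n : ℂ) * (c (k / n * p) : ℂ))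
          * ((rootInt (j : ℕ) p : integralClosure ℤ ℂ) : ℂ) ^ (k / n) else 0 := by
  subst hh
  haveI : NeZero (p * n) := ⟨mul_ne_zero (NeZero.ne p) (NeZero.ne n)⟩
  haveI : NeZero (n * p) := ⟨mul_ne_zero (NeZero.ne n) (NeZero.ne p)⟩
  obtain ⟨h1, h2⟩ := qx_affine (isMF_twist hg).good n p ((j : ℕ) : ℤ)
  have e : (fun τ => ((p * n : ℕ) : ℂ) * conjF 2 g (cosetPt p (some j)) (scale (p * n) τ))
      = ((p * n : ℕ) : ℂ) • fun τ => twist p 2 g (aff (n * p) ((j : ℕ) : ℤ) p τ) := by
    funext τ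
    rw [conjF_cosetPt_some hg, Pi.smul_apply, smul_eq_mul]
    congr 2
    apply UpperHalfPlane.ext
    rw [coe_aff, coe_aff, coe_scale]
    push_cast; ring
  refine ⟨e ▸ h1.smul _, fun k => ?_⟩
  rw [e, Good.qx_smul _ h1, PowerSeries.coeff_smul, h2, coeff_twist_two hg, hc, smul_eq_mul,
    coe_rootInt]
  have hp : (p : ℂ) ≠ 0 := Nat.cast_ne_zero.mpr (NeZero.ne p)
  split_ifs
  · push_cast; field_simp
  · simp

end conjugates

variable {p : ℕ} [Fact p.Prime] {g : ℍ → ℂ} (hg : IsMF p 2 g) (c : ℕ → ℤ)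
  (hc : ∀ k, (qx g).coeff k = (c k : ℂ)) (hc0 : c 0 = (p : ℤ) - 1)

include hg hc hc0 in
theorem norm_contradiction (N : ℕ) [Fact N.Prime] (hN : N ≤ 3) (q : ℕ) (hq : q.Prime)
    (hqp : ¬ q ∣ p) (hqN : ¬ q ∣ N) (d c₀ u v : ℤ) (hd : d ≠ 0)
    (hck : ∀ k, k ≠ 0 → d * q ∣ c k) (hpp : d * q ∣ ((p : ℤ) - 1) * ((p : ℤ) + 1))
    (hcN : (p : ℤ) - 1 = c₀ * ((N : ℤ) - 1)) (hu : 24 * c₀ = d * u) (huq : ¬ (q : ℤ) ∣ u)
    (hv : c₀ * ((N : ℤ) ^ 2 - 1) = d * v) (hvq : ¬ (q : ℤ) ∣ v) : False := by
  classical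
  obtain ⟨κ, _, ρ, hρ⟩ := exists_residue q hq
  set ι : integralClosure ℤ ℂ →+* ℂ := (integralClosure ℤ ℂ).val.toRingHom
  have hι : Function.Injective ι := Subtype.val_injective
  have hρd : ∀ z : ℤ, (q : ℤ) ∣ z → ρ (z : integralClosure ℤ ℂ) = 0 := fun z hz => (hρ z).mpr hz
  have hqZ : Prime (q : ℤ) := Nat.prime_iff_prime_int.mp hq
  have hqp' : ¬ (q : ℤ) ∣ (p : ℤ) := by exact_mod_cast hqp
  have hqN' : ¬ (q : ℤ) ∣ (N : ℤ) := by exact_mod_cast hqN
  set h : ℕ := p * N
  haveI : NeZero h := ⟨mul_ne_zero (NeZero.ne p) (NeZero.ne N)⟩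
  set e : ℕ → ℤ := fun k => if k = 0 then (N : ℤ) - 1 else 24 * sigmaP N k
  have he : ∀ k, (qx (eisTwo N)).coeff k = (e k : ℂ) := fun k => by
    rw [qx_eisTwo]; simp only [e]; split_ifs <;> push_cast <;> rfl
  set E := eisTwo N
  have hE : IsMF N 2 E := isMF_eisTwo N
  have hdC : (d : ℂ) ≠ 0 := by exact_mod_cast hd
  -- the functions and their reductions
  let V : Option (Fin p) × Option (Fin N) → ℍ → ℂ := fun x τ => ((h : ℂ) / (d : ℂ)) *
    (conjF 2 g (cosetPt p x.1) (scale h τ) - (c₀ : ℂ) * conjF 2 E (cosetPt N x.2) (scale h τ))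
  have hA : ∀ i : Option (Fin p), ∃ (z : ℕ → ℤ) (r : ℕ → integralClosure ℤ ℂ),
      Good (fun τ => (h : ℂ) * conjF 2 g (cosetPt p i) (scale h τ)) ∧
      (∀ k, (qx (fun τ => (h : ℂ) * conjF 2 g (cosetPt p i) (scale h τ))).coeff k
        = (z k : ℂ) * (r k : ℂ)) ∧ r 0 = 1 ∧ (∀ k, k ≠ 0 → d * q ∣ z k) ∧
      d * q ∣ z 0 - (h : ℤ) * ((p : ℤ) - 1) := by
    rintro (_ | j)
    · obtain ⟨h1, h2⟩ := expansion_none N h rfl hg c hc
      refine ⟨fun k => if h ∣ k then (h : ℤ) * c (k / h) else 0, fun _ => 1, h1, fun k => ?_, rfl,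
        fun k hk => ?_, by simp [hc0]⟩
      · rw [h2]; by_cases hd' : h ∣ k <;> simp [hd']
      · dsimp only
        split_ifs with hd'
        · refine dvd_mul_of_dvd_right (hck _ fun h0 => hk ?_) _
          rw [← Nat.div_mul_cancel hd', h0, zero_mul]
        · simp
    · obtain ⟨h1, h2⟩ := expansion_some N h rfl hg c hc j
      refine ⟨fun k => if N ∣ k then -((N : ℤ) * c (k / N * p)) else 0,
        fun k => rootInt (j : ℕ) p ^ (k / N), h1, fun k => ?_, by simp, fun k hk => ?_, ?_⟩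
      · rw [h2]; by_cases hd' : N ∣ k <;> simp [hd']
      · dsimp only
        split_ifs with hd'
        · refine dvd_neg.mpr (dvd_mul_of_dvd_right (hck _ fun h0 => hk ?_) _)
          have := (mul_eq_zero.mp h0).resolve_right (NeZero.ne p)
          rw [← Nat.div_mul_cancel hd', this, zero_mul]
        · simp
      · simp only [dvd_zero, if_true, Nat.zero_div, zero_mul, hc0]
        have := dvd_mul_of_dvd_right hpp (-(N : ℤ))
        convert! this using 1
        simp only [h]; push_cast; ring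
  have hB : ∀ b : Option (Fin N), ∃ (z : ℕ → ℤ) (r : ℕ → integralClosure ℤ ℂ),
      Good (fun τ => (c₀ : ℂ) * ((h : ℂ) * conjF 2 E (cosetPt N b) (scale h τ))) ∧
      (∀ k, (qx (fun τ => (c₀ : ℂ) * ((h : ℂ) * conjF 2 E (cosetPt N b) (scale h τ)))).coeff k
        = (z k : ℂ) * (r k : ℂ)) ∧ r 0 = 1 ∧ (∀ k, k ≠ 0 → d ∣ z k) ∧
      (b = none → z 0 = (h : ℤ) * ((p : ℤ) - 1) ∧ (∀ k, k < h → k ≠ 0 → z k = 0) ∧
        z h = (h : ℤ) * (d * u) ∧ r h = 1) ∧
      (b ≠ none → z 0 = -((p : ℤ) * ((p : ℤ) - 1))) := by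
    rintro (_ | j)
    · obtain ⟨h1, h2⟩ := expansion_none (p := N) p h (Nat.mul_comm p N) hE e he
      refine ⟨fun k => if h ∣ k then c₀ * ((h : ℤ) * e (k / h)) else 0, fun _ => 1, ?_, fun k => ?_,
        rfl, fun k hk => ?_, fun _ => ⟨?_, fun k hk hk0 => ?_, ?_, rfl⟩, fun h' => absurd rfl h'⟩
      · exact h1.smul (c₀ : ℂ)
      · rw [show (fun τ => (c₀ : ℂ) * ((h : ℂ) * conjF 2 E (cosetPt N none) (scale h τ)))
          = (c₀ : ℂ) • (fun τ => (h : ℂ) * conjF 2 E (cosetPt N none) (scale h τ)) from rfl,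
          Good.qx_smul _ h1, PowerSeries.coeff_smul, h2]
        by_cases hd' : h ∣ k <;> simp [hd']
      · dsimp only
        split_ifs with hd'
        · have hne : k / h ≠ 0 := fun h0 => hk (by rw [← Nat.div_mul_cancel hd', h0, zero_mul])
          exact ⟨(h : ℤ) * u * sigmaP N (k / h), by simp only [e, hne, if_false]; linear_combination (h : ℤ) * sigmaP N (k / h) * hu⟩
        · simp
      · simp [e, hcN]; ring
      · simp [Nat.not_dvd_of_pos_of_lt (Nat.pos_of_ne_zero hk0) hk]
      · have hs : sigmaP N 1 = 1 := by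
          simp [sigmaP, (Fact.out : N.Prime).not_dvd_one]
        simp [e, NeZero.ne h, Nat.div_self (Nat.pos_of_ne_zero (NeZero.ne h)), hs]
        linear_combination (h : ℤ) * hu
    · obtain ⟨h1, h2⟩ := expansion_some (p := N) p h (Nat.mul_comm p N) hE e he j
      refine ⟨fun k => if p ∣ k then -(c₀ * ((p : ℤ) * e (k / p * N))) else 0,
        fun k => rootInt (j : ℕ) N ^ (k / p), ?_, fun k => ?_, by simp, fun k hk => ?_,
        fun h' => by simp at h', fun _ => ?_⟩
      · exact h1.smul (c₀ : ℂ)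
      · rw [show (fun τ => (c₀ : ℂ) * ((h : ℂ) * conjF 2 E (cosetPt N (some j)) (scale h τ)))
          = (c₀ : ℂ) • (fun τ => (h : ℂ) * conjF 2 E (cosetPt N (some j)) (scale h τ)) from rfl,
          Good.qx_smul _ h1, PowerSeries.coeff_smul, h2]
        by_cases hd' : p ∣ k <;> simp [hd']
        ring
      · dsimp only
        split_ifs with hd'
        · have hne : k / p * N ≠ 0 := mul_ne_zero
            (fun h0 => hk (by rw [← Nat.div_mul_cancel hd', h0, zero_mul])) (NeZero.ne N)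
          refine ⟨-((p : ℤ) * u * sigmaP N (k / p * N)), ?_⟩
          simp only [e, hne, if_false]
          linear_combination -((p : ℤ) * sigmaP N (k / p * N)) * hu
        · simp
      · simp [e, hcN]; ring
  have hV : ∀ x, ∃ X : PowerSeries (integralClosure ℤ ℂ), Good (V x) ∧ qx (V x) = X.map ι ∧
      (X.map ρ).order = if x.2 = none then (h : ℕ∞) else 0 := by
    rintro ⟨i, b⟩
    obtain ⟨za, ra, hga, hqa, hra, hzak, hza0⟩ := hA i
    obtain ⟨zb, rb, hgb, hqb, hrb, hzbk, hbn, hbs⟩ := hB b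
    have eV : V (i, b) = (d : ℂ)⁻¹ • ((fun τ => (h : ℂ) * conjF 2 g (cosetPt p i) (scale h τ))
        - fun τ => (c₀ : ℂ) * ((h : ℂ) * conjF 2 E (cosetPt N b) (scale h τ))) := by
      funext τ; simp [V]; ring
    have h0 : d ∣ za 0 - zb 0 := by
      by_cases hb : b = none
      · rw [(hbn hb).1]; exact (dvd_mul_right d q).trans hza0
      · rw [hbs hb]
        have h' := (dvd_mul_right d (q : ℤ)).trans hza0
        have e2 : za 0 - -((p : ℤ) * ((p : ℤ) - 1))
            = (za 0 - (h : ℤ) * ((p : ℤ) - 1)) + (p : ℤ) * (d * v) := by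
          rw [← hv, hcN]; simp only [h]; push_cast; ring
        rw [e2]; exact dvd_add h' (dvd_mul_of_dvd_right (dvd_mul_right _ _) _)
    set X : PowerSeries (integralClosure ℤ ℂ) := PowerSeries.mk fun k =>
      if k = 0 then (((za 0 - zb 0) / d : ℤ) : integralClosure ℤ ℂ)
      else ((za k / d : ℤ) : integralClosure ℤ ℂ) * ra k - ((zb k / d : ℤ) : integralClosure ℤ ℂ) * rb k
    have hdiv : ∀ z : ℤ, d ∣ z → ((z / d : ℤ) : ℂ) = (z : ℂ) / (d : ℂ) := fun z hz =>
      Int.cast_div hz (by exact_mod_cast hd)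
    refine ⟨X, by rw [eV]; exact (hga.sub hgb).smul _, ?_, ?_⟩
    · rw [eV]
      ext k
      rw [Good.qx_smul _ (hga.sub hgb), Good.qx_sub hga hgb, PowerSeries.coeff_smul, map_sub, hqa, hqb,
        PowerSeries.coeff_map, PowerSeries.coeff_mk]
      rcases eq_or_ne k 0 with rfl | hk
      · simp [hra, hrb, ι, hdiv _ h0]; ring
      · simp [hk, ι, hdiv _ ((dvd_mul_right d (q : ℤ)).trans (hzak k hk)), hdiv _ (hzbk k hk)]; ring
    · have hk : ∀ k, k ≠ 0 → (X.map ρ).coeff k = -(ρ ((zb k / d : ℤ) : integralClosure ℤ ℂ) * ρ (rb k)) := by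
        intro k hk
        rw [PowerSeries.coeff_map, PowerSeries.coeff_mk, if_neg hk, map_sub, map_mul, map_mul,
          hρd _ (by
            obtain ⟨t, ht⟩ := hzak k hk
            exact ⟨t, by rw [ht, mul_assoc, Int.mul_ediv_cancel_left _ hd]⟩), zero_mul, zero_sub]
      by_cases hb : b = none
      · obtain ⟨hb0, hblt, hbh, hrbh⟩ := hbn hb
        rw [if_pos hb, PowerSeries.order_eq_nat]
        refine ⟨?_, fun k hklt => ?_⟩
        · rw [hk h (NeZero.ne h), hrbh, map_one, mul_one, neg_ne_zero, hbh,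
            show (h : ℤ) * (d * u) / d = (h : ℤ) * u by
              rw [mul_left_comm, Int.mul_ediv_cancel_left _ hd]]
          rw [Ne, hρ]
          intro hdd
          rcases hqZ.dvd_or_dvd hdd with h1 | h1
          · rcases hqZ.dvd_or_dvd (show (q : ℤ) ∣ (p : ℤ) * N by simpa [h] using h1) with h2 | h2
            · exact hqp' h2
            · exact hqN' h2
          · exact huq h1
        · rcases eq_or_ne k 0 with rfl | hk0
          · rw [PowerSeries.coeff_map, PowerSeries.coeff_mk, if_pos rfl]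
            refine hρd _ ?_
            obtain ⟨t, ht⟩ := hza0
            rw [hb0, ht]
            exact ⟨t, by rw [mul_assoc, Int.mul_ediv_cancel_left _ hd]⟩
          · rw [hk k hk0, hblt k hklt hk0]; simp
      · rw [if_neg hb, show (0 : ℕ∞) = ((0 : ℕ) : ℕ∞) from rfl, PowerSeries.order_eq_nat]
        refine ⟨?_, fun k hk => absurd hk (Nat.not_lt_zero k)⟩
        rw [PowerSeries.coeff_map, PowerSeries.coeff_mk, if_pos rfl, Ne, hρ]
        intro hdd
        obtain ⟨t, ht⟩ := hza0
        have e2 : za 0 - zb 0 = d * ((q : ℤ) * t + (p : ℤ) * v) := by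
          rw [hbs hb, mul_add, ← mul_assoc, ← ht, mul_left_comm d (p : ℤ) v, ← hv, hcN]
          simp only [h]; push_cast; ring
        rw [e2, Int.mul_ediv_cancel_left _ hd] at hdd
        rcases hqZ.dvd_or_dvd ((dvd_add_right (dvd_mul_right _ _)).mp hdd) with h1 | h1
        · exact hqp' h1
        · exact hvq h1
  choose X hVgood hVq hVord using hV
  -- the norm to level one
  let w : Cosets p × Cosets N → ℍ → ℂ := fun y =>
    conjF 2 g y.1 - (c₀ : ℂ) • conjF 2 E y.2
  have hw : ∀ (γ : SL(2, ℤ)) y, w y ∣[(2 : ℤ)] γ = w (cperm p γ y.1, cperm N γ y.2) := fun γ y => by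
    simp only [w]
    rw [sub_eq_add_neg, SlashAction.add_slash, SlashAction.neg_slash, SL_smul_slash,
      conjF_slash hg.inv, conjF_slash hE.inv, ← sub_eq_add_neg]
  have hwb : ∀ y, IsBoundedAtImInfty (w y) := fun y =>
    (hg.bdd _).sub ((hE.bdd _).const_smul_left _)
  set W : ℍ → ℂ := ∏ y, w y
  have hW : IsMF 1 (((Fintype.card (Cosets p × Cosets N) : ℕ) : ℤ) * 2) W := by
    refine isMF_one_of (mdiff_prod _ fun y _ => (mdiff_slash hg.holo _ _).sub
      ((mdiff_slash hE.holo _ _).const_smul _)) (fun γ => ?_) (bdd_prod _ fun y _ => hwb y)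
    simp only [W, Fintype.card]
    rw [prod_slash']
    simp only [hw]
    exact Equiv.prod_comp ((cperm p γ).prodCongr (cperm N γ)) w
  have hcardp : Fintype.card (Cosets p) = p + 1 := by
    rw [← Fintype.card_of_bijective (cosetPt_bijective (p := p)), Fintype.card_option, Fintype.card_fin]
  have hcardN : Fintype.card (Cosets N) = N + 1 := by
    rw [← Fintype.card_of_bijective (cosetPt_bijective (p := N)), Fintype.card_option, Fintype.card_fin]
  set s : ℂ := ((h : ℂ) / (d : ℂ)) ^ (Fintype.card (Option (Fin p) × Option (Fin N)))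
  have hsW : IsMF 1 (((Fintype.card (Cosets p × Cosets N) : ℕ) : ℤ) * 2) (s • W) :=
    (MF 1 _).smul_mem s hW
  have hprod : dil h (s • W) = ∏ x, V x := by
    funext τ
    rw [dil, Pi.smul_apply, Finset.prod_apply]
    simp only [W, V, Finset.prod_apply, s, smul_eq_mul]
    rw [← Finset.card_univ, ← Finset.prod_const, ← (show Function.Bijective
      (fun x : Option (Fin p) × Option (Fin N) => (cosetPt p x.1, cosetPt N x.2)) from
        cosetPt_bijective.prodMap cosetPt_bijective).prod_comp (fun y => w y (scale h τ)),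
      ← Finset.prod_mul_distrib]
    refine Finset.prod_congr rfl fun x _ => ?_
    simp [w]
  have hqprod : qx (dil h (s • W)) = (∏ x, X x).map ι := by
    rw [hprod, map_prod]
    have : ∀ t : Finset (Option (Fin p) × Option (Fin N)),
        Good (∏ x ∈ t, V x) ∧ qx (∏ x ∈ t, V x) = ∏ x ∈ t, (X x).map ι := by
      intro t
      induction t using Finset.induction_on with
      | empty => exact ⟨by simpa using Good.one, by simp [qExpansion_one]⟩
      | insert a t ha ih =>
        rw [Finset.prod_insert ha, Finset.prod_insert ha]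
        exact ⟨(hVgood a).mul ih.1, by rw [Good.qx_mul (hVgood a) ih.1, hVq, ih.2]⟩
    exact (this _).2
  set P := (∏ x, X x).map ρ
  have hPord : P.order = ((p + 1) * h : ℕ) := by
    simp only [P, map_prod]
    have : ∀ t : Finset (Option (Fin p) × Option (Fin N)),
        (∏ x ∈ t, (X x).map ρ).order = ∑ x ∈ t, ((X x).map ρ).order := by
      intro t
      induction t using Finset.induction_on with
      | empty => simp
      | insert a t ha ih => rw [Finset.prod_insert ha, Finset.sum_insert ha, PowerSeries.order_mul, ih]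
    rw [this]
    simp only [hVord, Fintype.sum_prod_type, Fintype.sum_option]
    simp
    ring
  have hXs : qx (s • W) = (PowerSeries.mk fun k => (∏ x, X x).coeff (h * k)).map ι := by
    ext k
    have := qx_dil hsW h (h * k)
    rw [hqprod, PowerSeries.coeff_map, if_pos (dvd_mul_right h k),
      Nat.mul_div_cancel_left _ (Nat.pos_of_ne_zero (NeZero.ne h))] at this
    rw [← this, PowerSeries.coeff_map, PowerSeries.coeff_mk]
  have hcard : Fintype.card (Cosets p × Cosets N) = (p + 1) * (N + 1) := by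
    rw [Fintype.card_prod, hcardp, hcardN]
  have hz := sturm_mod ι hι ρ ((((Fintype.card (Cosets p × Cosets N) : ℕ) : ℤ) * 2).toNat + 1) _ (by omega) (s • W) hsW _ hXs (fun i hi => by
    rw [PowerSeries.coeff_mk, ← PowerSeries.coeff_map]
    refine PowerSeries.coeff_of_lt_order _ ?_
    show ((h * i : ℕ) : ℕ∞) < P.order
    rw [hPord, Nat.cast_lt, Nat.mul_comm (p + 1) h]
    refine Nat.mul_lt_mul_of_pos_left ?_ (Nat.pos_of_ne_zero (NeZero.ne h))
    rw [hcard] at hi
    have h1 : 12 * i ≤ (p + 1) * (N + 1) * 2 := by exact_mod_cast hi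
    have h2 : (p + 1) * (N + 1) ≤ (p + 1) * 4 := Nat.mul_le_mul_left _ (by omega)
    omega) (p + 1)
  rw [PowerSeries.coeff_mk, ← PowerSeries.coeff_map] at hz
  have := (PowerSeries.order_eq_nat.mp hPord).1
  rw [Nat.mul_comm (p + 1) h] at this
  exact this hz

end FLTAgent.Periods.Eis
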